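import Fermat.Agent.LanglandsTunnell.Isolation.Tame.Layer

/-!
# A fixed tame place: projection onto the eigenvectors of the character

The average of the translations by the unipotents of order `-d - n`, weighted by the inverse of
the character.
-/

set_option autoImplicit false
set_option linter.unusedSectionVars false

noncomputable section

namespace FLTAgent.LanglandsTunnell.Isolation

open FLTAgent.LanglandsTunnell NumberField Matrix Function
open FLTAgent.LanglandsTunnell.Expansion (psi psi_add psi_zero psi_ne_zero upperUnip_add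
  upperUnip_zero)

namespace Tame

variable {F : Type} [Field F] [NumberField F] {w : Ideal (𝓞 F)} {hw : w.IsPrime} {hw0 : w ≠ ⊥}

/-! ### The layers -/

section Layers

variable {P : LocalParams hw hw0} {i j k : ℤ} {x y : AF F}

theorem mem_lp_succ_of_idealAF (hx : x ∈ idealAF F w) (i : ℤ) :
    placeAF hw hw0 * pz P i * x ∈ lp P (i + 1) := by
  rw [P.uniformizer.2] at hx
  obtain ⟨z, hz, rfl⟩ := hx
  refine ⟨z, hz, ?_⟩
  show placeAF hw hw0 * pz P i * ((P.π : AF F) * z) = _
  rw [pz_add, show pz P 1 = (P.π : AF F) by simp [pz]]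
  ring

/-- Finitely many representatives of one layer of any depth. -/
theorem exists_finite_reps (P : LocalParams hw hw0) (i : ℤ) (n : ℕ) :
    ∃ R : Set (AF F), R.Finite ∧ ∀ x ∈ lp P i, ∃ r ∈ R, x - r ∈ lp P (i + n) := by
  induction n with
  | zero => exact ⟨{0}, Set.finite_singleton 0, fun x hx => ⟨0, rfl, by simpa using hx⟩⟩
  | succ n ih =>
    obtain ⟨R, hR, hRs⟩ := ih
    have : Finite (𝓞 F ⧸ w) := Ideal.finiteQuotientOfFreeOfNeBot w hw0
    refine ⟨Set.image2 (fun r s => r + placeAF hw hw0 * pz P (i + n) * P.c s) R Set.univ,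
      hR.image2 _ Set.finite_univ, fun x hx => ?_⟩
    obtain ⟨r, hr, hxr⟩ := hRs x hx
    obtain ⟨z, hz, e⟩ := hxr
    obtain ⟨s, hs, -⟩ := P.c_res.exists_unique z hz
    refine ⟨_, Set.mem_image2_of_mem hr (Set.mem_univ s), ?_⟩
    rw [show x - (r + placeAF hw hw0 * pz P (i + n) * P.c s) =
      placeAF hw hw0 * pz P (i + n) * (z - P.c s) by linear_combination e,
      show i + ((n + 1 : ℕ) : ℤ) = i + n + 1 by push_cast; ring]
    exact mem_lp_succ_of_idealAF hs _

/-- The quotient of two layers. -/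
abbrev LpQuot (P : LocalParams hw hw0) (i j : ℤ) : Type :=
  lp P i ⧸ (lp P j).addSubgroupOf (lp P i)

instance finite_lpQuot (P : LocalParams hw hw0) (i j : ℤ) : Finite (LpQuot P i j) := by
  classical
  obtain ⟨R, hR, hRs⟩ := exists_finite_reps P i (j - i).toNat
  have := hR.to_subtype
  refine Finite.of_surjective
    (fun r : R => if h : (r : AF F) ∈ lp P i then QuotientAddGroup.mk (⟨r, h⟩ : lp P i) else 0)
    fun q => ?_
  induction q using QuotientAddGroup.induction_on with
  | H x =>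
    obtain ⟨r, hr, hxr⟩ := hRs x x.2
    have hri : r ∈ lp P i := by
      have h := sub_mem x.2 (lp_anti (by omega) hxr : (x : AF F) - r ∈ lp P i)
      rwa [sub_sub_cancel] at h
    refine ⟨⟨r, hr⟩, ?_⟩
    simp only [dif_pos hri]
    rw [QuotientAddGroup.eq, AddSubgroup.mem_addSubgroupOf]
    show -r + (x : AF F) ∈ lp P j
    rw [neg_add_eq_sub]
    exact lp_anti (by omega) hxr

theorem out_sub_mem (x : lp P i) :
    ((QuotientAddGroup.mk x : LpQuot P i j).out : AF F) - x ∈ lp P j := by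
  have h := QuotientAddGroup.eq.mp (QuotientAddGroup.out_eq' (QuotientAddGroup.mk x : LpQuot P i j))
  rw [AddSubgroup.mem_addSubgroupOf] at h
  have h' := neg_mem h
  simpa [AddSubgroup.coe_add, sub_eq_add_neg, add_comm] using h'

theorem eq_of_sub_mem {q q' : LpQuot P i j} (h : (q.out : AF F) - q'.out ∈ lp P j) : q = q' := by
  rw [← QuotientAddGroup.out_eq' q, ← QuotientAddGroup.out_eq' q', QuotientAddGroup.eq,
    AddSubgroup.mem_addSubgroupOf]
  simpa [sub_eq_add_neg, add_comm] using neg_mem h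

/-- A map of the layer which is bijective modulo the smaller one permutes the classes. -/
theorem sum_out_comp [Fintype (LpQuot P i j)] {α : Type*} [AddCommMonoid α] (g : AF F → α)
    (hg : ∀ a ∈ lp P i, ∀ b ∈ lp P i, a - b ∈ lp P j → g a = g b) (φ : AF F → AF F)
    (hφ : ∀ a ∈ lp P i, φ a ∈ lp P i)
    (hinj : ∀ a ∈ lp P i, ∀ b ∈ lp P i, φ a - φ b ∈ lp P j → a - b ∈ lp P j) :
    ∑ q : LpQuot P i j, g (φ (q.out : AF F)) = ∑ q : LpQuot P i j, g (q.out : AF F) := by
  let e : LpQuot P i j → LpQuot P i j := fun q => QuotientAddGroup.mk ⟨φ q.out, hφ _ q.out.2⟩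
  have hb : Bijective e := Finite.injective_iff_bijective.mp fun q q' h => eq_of_sub_mem
    (hinj _ q.out.2 _ q'.out.2 (by
      have := QuotientAddGroup.eq.mp h
      rw [AddSubgroup.mem_addSubgroupOf] at this
      simpa [sub_eq_add_neg, add_comm] using neg_mem this))
  refine (Finset.sum_congr rfl fun q _ => ?_).trans
    (hb.sum_comp fun q : LpQuot P i j => g (q.out : AF F))
  exact hg _ (hφ _ q.out.2) _ (e q).out.2
      (by simpa using neg_mem (out_sub_mem (j := j) ⟨φ q.out, hφ _ q.out.2⟩))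

/-- An element of order zero is a unit of the factor. -/
theorem exists_lunit_eq (hy : y ∈ lp P 0) (hy1 : y ∉ lp P 1) :
    ∃ t ∈ lunit P 0, placeAF hw hw0 * (t : AF F) = y := by
  obtain ⟨y₀, hy₀⟩ := mem_intAF.mp (lp_le_intAF le_rfl hy)
  have hnot : y₀ ∉ idealOH w := fun h => hy1 (by
    have h' : y ∈ idealAF F w := hy₀ ▸ intHom_mem_idealAF_iff.mpr h
    have := mem_lp_succ_of_idealAF (P := P) h' 0
    rwa [pz_zero, mul_one, lp_local hy] at this)
  obtain ⟨u, hu⟩ := exists_unit_eq (hw := hw) (hw0 := hw0) hnot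
  have hu' : placeAF hw hw0 * intHom F (u : OH F) = y := by
    rw [placeAF, ← map_mul, ← hu, map_mul, hy₀]
    exact lp_local hy
  have hmem : ∀ z : OH F, placeAF hw hw0 * (intHom F z - 1) ∈ lp P 0 := fun z =>
    zero_pz_mem_lp_zero (sub_mem (mem_intAF.mpr ⟨z, rfl⟩) (one_mem _))
  refine ⟨localUnit hw hw0 (Units.map (intHom F : OH F →* AF F) u), ⟨?_, ?_⟩, ?_⟩
  · rw [localUnit_sub_one]
    exact hmem _
  · show placeAF hw hw0 * intHom F ((u⁻¹ : (OH F)ˣ) : OH F) + (1 - placeAF hw hw0) - 1 ∈ lp P 0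
    rw [show placeAF hw hw0 * intHom F ((u⁻¹ : (OH F)ˣ) : OH F) + (1 - placeAF hw hw0) - 1 =
      placeAF hw hw0 * (intHom F ((u⁻¹ : (OH F)ˣ) : OH F) - 1) by ring]
    exact hmem _
  · show placeAF hw hw0 * (placeAF hw hw0 * intHom F (u : OH F) + (1 - placeAF hw hw0)) = y
    linear_combination (intHom F (u : OH F) - 1) * placeAF_mul_self hw hw0 + hu'

end Layers

/-! ### The character -/

theorem psi_neg_mul_self (x : AF F) : psi (-x) * psi x = 1 := by
  rw [← psi_add, neg_add_cancel, psi_zero]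

section Char

variable {P : LocalParams hw hw0} {i j : ℤ} {d : ℤ} {x y : AF F}

theorem psi_mul_eq_one (hd : IsDiffExp P d) (hx : x ∈ lp P (-d)) (hy : y ∈ intAF F) :
    psi (x * y) = 1 :=
  (hd x (lp_local hx)).mpr hx y hy

theorem exists_psi_ne_one (hd : IsDiffExp P d) (hy : placeAF hw hw0 * y = y)
    (hny : y ∉ lp P (-d - i)) : ∃ x ∈ lp P i, psi (x * y) ≠ 1 := by
  by_contra hcon
  push Not at hcon
  have hl : placeAF hw hw0 * (pz P i * y) = pz P i * y := by rw [mul_left_comm, hy]
  have hint : ∀ z ∈ intAF F, psi (pz P i * y * z) = 1 := fun z hz => by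
    rw [← hcon _ ⟨z, hz, rfl⟩]
    exact congrArg psi (by linear_combination -z * hl)
  have h := pz_mul_mem ((hd _ hl).mp hint) (-i)
  rw [← mul_assoc, pz_neg_mul, one_mul, show -i + -d = -d - i by ring] at h
  exact hny h

/-- Orthogonality of the character on the classes. -/
theorem sum_psi_mul_eq_zero [Fintype (LpQuot P i j)] (hd : IsDiffExp P d)
    (hy : placeAF hw hw0 * y = y) (hwd : ∀ b ∈ lp P j, psi (b * y) = 1)
    (hny : y ∉ lp P (-d - i)) : ∑ q : LpQuot P i j, psi ((q.out : AF F) * y) = 0 := by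
  obtain ⟨x, hx, hne⟩ := exists_psi_ne_one hd hy hny
  have h := sum_out_comp (P := P) (i := i) (j := j) (fun a => psi (a * y))
    (fun a _ b _ hab => by
      rw [show a * y = (a - b) * y + b * y by ring, psi_add, hwd _ hab, one_mul])
    (fun a => x + a) (fun a ha => add_mem hx ha) (fun a _ b _ hab => by simpa using hab)
  simp only [add_mul, psi_add, ← Finset.mul_sum] at h
  by_contra h0
  exact hne (mul_right_cancel₀ h0 (h.trans (one_mul _).symm))

end Char

variable {ι : Type} [Fintype ι] [DecidableEq ι] {Φ : PlaceChoice F ι}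

theorem rho_upper_add (x y : AF F) (v : Smooth Φ) :
    rho Φ (upperUnip (x + y)) v = rho Φ (upperUnip x) (rho Φ (upperUnip y) v) := by
  rw [upperUnip_add, rho_mul]

theorem rho_upper_diag (t : (AF F)ˣ) (x : AF F) (v : Smooth Φ) :
    rho Φ (upperUnip x) (rho Φ (diagUnit t) v) =
      rho Φ (diagUnit t) (rho Φ (upperUnip (((t⁻¹ : (AF F)ˣ) : AF F) * x)) v) := by
  rw [rho_diag_upper, ← mul_assoc, Units.mul_inv, one_mul]

theorem unipFixed_diag {P : LocalParams hw hw0} {i : ℤ} {v : Smooth Φ} (k : ℤ) {t u : (AF F)ˣ}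
    (hu : u ∈ lunit P 0) (ht : t = P.π ^ k * u) (h : UnipFixed P i v) :
    UnipFixed P (i + k) (rho Φ (diagUnit t) v) := by
  intro x hx
  have he : ((t⁻¹ : (AF F)ˣ) : AF F) = ((u⁻¹ : (AF F)ˣ) : AF F) * pz P (-k) := by
    rw [ht, _root_.mul_inv_rev, ← _root_.zpow_neg, Units.val_mul]
  rw [rho_upper_diag, h]
  rw [he, mul_assoc]
  have h' := mul_lunit_mem ((lunit P 0).inv_mem hu) (pz_mul_mem hx (-k))
  rwa [show -k + (i + k) = i by ring] at h'

namespace Setup

variable (S : Setup Φ)

/-- The layer of the projection. -/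
abbrev Q (n : ℕ) : Type := LpQuot S.P (-S.d - n) (-S.d)

instance fintypeQ (n : ℕ) : Fintype (S.Q n) := Fintype.ofFinite _

/-- The component of one additive character. -/
def comp (n : ℕ) (y : AF F) : Smooth Φ →ₗ[ℂ] Smooth Φ :=
  (Fintype.card (S.Q n) : ℂ)⁻¹ • ∑ q : S.Q n, psi (-((q.out : AF F) * y)) •
    (rho Φ (upperUnip (q.out : AF F))).toLinearEquiv.toLinearMap

/-- The projection onto the eigenvectors of the character of order `-d - n`. -/
def proj (n : ℕ) : Smooth Φ →ₗ[ℂ] Smooth Φ := S.comp n 1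

variable {S} {n : ℕ}

theorem comp_apply (y : AF F) (v : Smooth Φ) :
    S.comp n y v = (Fintype.card (S.Q n) : ℂ)⁻¹ •
      ∑ q : S.Q n, psi (-((q.out : AF F) * y)) • rho Φ (upperUnip (q.out : AF F)) v := by
  simp [comp, LinearMap.sum_apply]

theorem proj_apply (v : Smooth Φ) :
    S.proj n v = (Fintype.card (S.Q n) : ℂ)⁻¹ •
      ∑ q : S.Q n, psi (-(q.out : AF F)) • rho Φ (upperUnip (q.out : AF F)) v := by
  rw [proj, comp_apply]
  simp

theorem proj_mem {v : Smooth Φ} (p : Submodule ℂ (Smooth Φ))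
    (h : ∀ x ∈ lp S.P (-S.d - n), rho Φ (upperUnip x) v ∈ p) : S.proj n v ∈ p := by
  rw [proj_apply]
  exact p.smul_mem _ (p.sum_mem fun q _ => p.smul_mem _ (h _ q.out.2))

theorem proj_comm (Λ : Smooth Φ →ₗ[ℂ] Smooth Φ)
    (h : ∀ x ∈ lp S.P (-S.d - n), ∀ v, Λ (rho Φ (upperUnip x) v) = rho Φ (upperUnip x) (Λ v))
    (v : Smooth Φ) : Λ (S.proj n v) = S.proj n (Λ v) := by
  simp only [proj_apply, map_smul, map_sum]
  exact congrArg _ (Finset.sum_congr rfl fun q _ => by rw [h _ q.out.2])

theorem comp_congr {y : AF F} {v : Smooth Φ} (hy : y ∈ intAF F) (h : UnipFixed S.P (-S.d) v)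
    (a b : AF F) (hab : a - b ∈ lp S.P (-S.d)) :
    psi (-(a * y)) • rho Φ (upperUnip a) v = psi (-(b * y)) • rho Φ (upperUnip b) v := by
  have h1 : psi (-(a * y)) = psi (-(b * y)) := by
    rw [show -(a * y) = (a - b) * (-y) + -(b * y) by ring, psi_add,
      psi_mul_eq_one S.hd hab (neg_mem hy), one_mul]
  rw [h1, show rho Φ (upperUnip a) v = rho Φ (upperUnip b) (rho Φ (upperUnip (a - b)) v) by
    rw [← rho_upper_add, add_sub_cancel], h _ hab]

theorem rho_upper_comp {y z : AF F} {v : Smooth Φ} (hy : y ∈ intAF F)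
    (h : UnipFixed S.P (-S.d) v) (hz : z ∈ lp S.P (-S.d - n)) :
    rho Φ (upperUnip z) (S.comp n y v) = psi (z * y) • S.comp n y v := by
  simp only [comp_apply, map_smul, map_sum, ← rho_upper_add]
  rw [smul_comm]
  refine congrArg _ ?_
  rw [← sum_out_comp (P := S.P) (i := -S.d - n) (j := -S.d)
    (fun a => psi (-(a * y)) • rho Φ (upperUnip a) v) (fun a _ b _ hab => comp_congr hy h a b hab)
    (fun a => z + a) (fun a ha => add_mem hz ha) (fun a _ b _ hab => by simpa using hab),
    Finset.smul_sum]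
  refine Finset.sum_congr rfl fun q _ => ?_
  rw [smul_smul, ← psi_add]
  exact congrArg (fun a => psi a • _) (by ring)

theorem psiEigen_proj {v : Smooth Φ} (h : UnipFixed S.P (-S.d) v) :
    PsiEigen S.P (-S.d - n) (S.proj n v) := fun x hx => by
  rw [proj, rho_upper_comp (one_mem _) h hx, mul_one]

theorem proj_eigen {v : Smooth Φ} (h : PsiEigen S.P (-S.d - n) v) : S.proj n v = v := by
  have hc : (Fintype.card (S.Q n) : ℂ) ≠ 0 := Nat.cast_ne_zero.mpr Fintype.card_ne_zero
  rw [proj_apply, Finset.sum_congr rfl (g := fun _ => v) fun q _ => by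
    rw [h _ q.out.2, smul_smul, psi_neg_mul_self, one_smul], Finset.sum_const, Finset.card_univ,
    ← Nat.cast_smul_eq_nsmul ℂ, smul_smul, inv_mul_cancel₀ hc, one_smul]

theorem proj_diag_eq_zero {v : Smooth Φ} {t : (AF F)ˣ} (h : PsiEigen S.P (-S.d - n) v)
    (ht : t ∈ lunit S.P 0) (htn : t ∉ lunit S.P n) :
    S.proj n (rho Φ (diagUnit t) v) = 0 := by
  set s : AF F := ((t⁻¹ : (AF F)ˣ) : AF F) - 1 with hs
  have hterm : ∀ x ∈ lp S.P (-S.d - n),
      psi (-x) • rho Φ (upperUnip x) (rho Φ (diagUnit t) v) =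
        psi (x * s) • rho Φ (diagUnit t) v := by
    intro x hx
    rw [rho_upper_diag, h _ (mul_lunit_mem ((lunit S.P 0).inv_mem ht) hx), map_smul, smul_smul,
      ← psi_add]
    exact congrArg (fun a => psi a • _) (by rw [hs]; ring)
  have hny : s ∉ lp S.P (-S.d - (-S.d - n)) := by
    rw [show -S.d - (-S.d - (n : ℤ)) = n by ring]
    intro hmem
    refine htn ⟨?_, hmem⟩
    rw [show (t : AF F) - 1 = -((t : AF F) * s) by
      rw [hs, mul_sub, Units.mul_inv, mul_one, neg_sub]]
    exact neg_mem (mul_lunit_mem ht hmem)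
  rw [proj_apply, Finset.sum_congr rfl fun q _ => hterm _ q.out.2, ← Finset.sum_smul,
    sum_psi_mul_eq_zero S.hd (lp_local ht.2)
      (fun b hb => psi_mul_eq_one S.hd hb (lp_le_intAF le_rfl ht.2)) hny,
    zero_smul, smul_zero]

theorem eq_zero_of_psiEigen_unipFixed {v : Smooth Φ} (hn : 0 < n)
    (h : PsiEigen S.P (-S.d - n) v) (h1 : UnipFixed S.P (-S.d - 1) v) : v = 0 := by
  obtain ⟨x, hx, hne⟩ := exists_psi_ne_one (i := -S.d - 1) S.hd (placeAF_mul_self S.hw S.hw0)
    (by rw [show -S.d - (-S.d - 1) = 1 by ring]; exact placeAF_notMem_lp_one)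
  rw [mul_comm, lp_local hx] at hne
  have e := (h x (lp_anti (by omega) hx)).symm.trans (h1 x hx)
  by_contra hv
  exact hne (smul_left_injective ℂ hv (e.trans (one_smul ℂ v).symm))

/-- The projection commutes with the twist, given the invariance of the character and of the
layers. -/
theorem proj_twist_of (hψ : ∀ x, psi (S.θ x) = psi x)
    (hmap : ∀ {i : ℤ} {x : AF F}, x ∈ lp S.P i → S.θ x ∈ lp S.P i)
    (hcube : ∀ x, S.θ (S.θ (S.θ x)) = x) {v : Smooth Φ} (h : UnipFixed S.P (-S.d) v) :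
    S.proj n (S.T.twist v) = S.T.twist (S.proj n v) := by
  simp only [proj_apply, map_smul, map_sum]
  refine congrArg _ ?_
  refine Eq.trans ?_ (sum_out_comp (P := S.P) (i := -S.d - n) (j := -S.d)
    (fun a => psi (-a) • S.T.twist (rho Φ (upperUnip a) v))
    (fun a _ b _ hab => ?_) (fun a => S.θ a) (fun a ha => hmap ha) fun a _ b _ hab => ?_)
  · refine Finset.sum_congr rfl fun q _ => ?_
    rw [S.T.rho_twist, ← map_neg, hψ]
    refine congrArg (fun g => psi (-(q.out : AF F)) • S.T.twist (rho Φ g v)) ?_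
    exact LanglandsTunnell.map_upperUnip _ _
  · have e := comp_congr (one_mem _) h a b hab
    simp only [mul_one] at e
    rw [← map_smul, e, map_smul]
  · rw [← map_sub] at hab
    rw [← hcube (a - b)]
    exact hmap (hmap hab)

/-- The projection commutes with the twist. -/
theorem proj_twist {v : Smooth Φ} (h : UnipFixed S.P (-S.d) v) :
    S.proj n (S.T.twist v) = S.T.twist (S.proj n v) :=
  proj_twist_of (psi_mapAF S.T) (fun hx => S.map_mem_lp hx) S.θ_cube h

theorem proj_diag_comp {t : (AF F)ˣ} {y : AF F} {v : Smooth Φ} (ht : t ∈ lunit S.P 0)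
    (hy : placeAF S.hw S.hw0 * (t : AF F) = y) (h : UnipFixed S.P (-S.d) v) :
    S.proj n (rho Φ (diagUnit t) v) = rho Φ (diagUnit t) (S.comp n y v) := by
  have h' : UnipFixed S.P (-S.d) (rho Φ (diagUnit t) v) := by
    simpa using unipFixed_diag 0 ht (by simp) h
  simp only [proj, comp_apply, map_smul, map_sum, rho_diag_upper]
  refine congrArg _ ?_
  rw [← sum_out_comp (P := S.P) (i := -S.d - n) (j := -S.d)
    (fun a => psi (-(a * 1)) • rho Φ (upperUnip a) (rho Φ (diagUnit t) v))
    (fun a _ b _ hab => comp_congr (one_mem _) h' a b hab)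
    (fun a => (t : AF F) * a) (fun a ha => mul_lunit_mem ht ha) fun a _ b _ hab => by
      have e := mul_lunit_mem ((lunit S.P 0).inv_mem ht) hab
      rwa [← mul_sub, ← mul_assoc, Units.inv_mul, one_mul] at e]
  refine Finset.sum_congr rfl fun q _ => ?_
  have hq := lp_local q.out.2
  exact congrArg (fun a => psi (-a) • rho Φ (upperUnip ((t : AF F) * (q.out : AF F)))
    (rho Φ (diagUnit t) v)) (by rw [← hy]; linear_combination -(t : AF F) * hq)

theorem unipFixed_of_proj {v : Smooth Φ} (hn : 0 < n) (h : UnipFixed S.P (-S.d) v)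
    (h0 : ∀ t ∈ lunit S.P 0, S.proj n (rho Φ (diagUnit t) v) = 0) :
    UnipFixed S.P (-S.d - 1) v := by
  classical
  let : Fintype (LpQuot S.P 0 (n : ℤ)) := Fintype.ofFinite _
  have hy : ∀ r : LpQuot S.P 0 (n : ℤ), (r.out : AF F) ∈ intAF F :=
    fun r => lp_le_intAF le_rfl r.out.2
  have hrel : ∑ r : LpQuot S.P 0 (n : ℤ), S.comp n (r.out : AF F) v =
      ((Fintype.card (S.Q n) : ℂ)⁻¹ * Fintype.card (LpQuot S.P 0 (n : ℤ))) • v := by
    set q₀ : S.Q n := QuotientAddGroup.mk 0 with hq₀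
    have hq₀m : (q₀.out : AF F) ∈ lp S.P (-S.d) := by
      have e := out_sub_mem (j := -S.d) (0 : lp S.P (-S.d - n))
      rwa [AddSubgroup.coe_zero, sub_zero] at e
    simp only [comp_apply, ← Finset.smul_sum]
    rw [Finset.sum_comm, Finset.sum_eq_single q₀, mul_smul]
    · refine congrArg _ ?_
      rw [Finset.sum_congr rfl (g := fun _ => v) fun r _ => by
        rw [show -((q₀.out : AF F) * (r.out : AF F)) = -(q₀.out : AF F) * (r.out : AF F) by ring,
          psi_mul_eq_one S.hd (neg_mem hq₀m) (hy r), h _ hq₀m, one_smul],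
        Finset.sum_const,
        Finset.card_univ, Nat.cast_smul_eq_nsmul]
    · intro q _ hq
      rw [← Finset.sum_smul]
      refine smul_eq_zero_of_left ?_ _
      have hloc := lp_local q.out.2
      refine Eq.trans (Finset.sum_congr rfl fun r _ => congrArg psi (show
        -((q.out : AF F) * (r.out : AF F)) = (r.out : AF F) * -(q.out : AF F) by ring))
        (sum_psi_mul_eq_zero S.hd (by linear_combination -hloc) (fun b hb => ?_) fun hmem => hq ?_)
      · have e := psi_mul_eq_one S.hd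
          (lp_anti (by omega) (mul_mem_lp hb (neg_mem q.out.2)) :
              b * -(q.out : AF F) ∈ lp S.P (-S.d))
          (one_mem _)
        rwa [mul_one] at e
      · refine eq_of_sub_mem (sub_mem ?_ hq₀m)
        simpa using neg_mem hmem
    · exact fun hq => absurd (Finset.mem_univ _) hq
  have hc : ((Fintype.card (S.Q n) : ℂ)⁻¹ * Fintype.card (LpQuot S.P 0 (n : ℤ))) ≠ 0 :=
    mul_ne_zero (inv_ne_zero (Nat.cast_ne_zero.mpr Fintype.card_ne_zero))
      (Nat.cast_ne_zero.mpr Fintype.card_ne_zero)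
  intro z hz
  have hzn : z ∈ lp S.P (-S.d - n) := lp_anti (by omega) hz
  have key : ∀ r : LpQuot S.P 0 (n : ℤ),
      rho Φ (upperUnip z) (S.comp n (r.out : AF F) v) = S.comp n (r.out : AF F) v := by
    intro r
    by_cases h1 : (r.out : AF F) ∈ lp S.P 1
    · have e := psi_mul_eq_one S.hd
        (lp_anti (by omega) (mul_mem_lp hz h1) : z * (r.out : AF F) ∈ lp S.P (-S.d)) (one_mem _)
      rw [mul_one] at e
      rw [rho_upper_comp (hy r) h hzn, e, one_smul]
    · obtain ⟨t, ht, hty⟩ := exists_lunit_eq r.out.2 h1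
      have e := (proj_diag_comp ht hty h).symm.trans (h0 t ht)
      rw [(rho Φ (diagUnit t)).map_eq_zero_iff.mp e, map_zero]
  have := congrArg (rho Φ (upperUnip z)) hrel
  rw [map_sum, Finset.sum_congr rfl fun r _ => key r, hrel, map_smul] at this
  exact (smul_right_injective _ hc this).symm

end Setup

end Tame

end FLTAgent.LanglandsTunnell.Isolation
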