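import Fermat.Agent.LanglandsTunnell.Isolation.Tame.Fil
import Fermat.Agent.LanglandsTunnell.Isolation.Tame.Proj
import Fermat.Agent.LanglandsTunnell.Isolation.Stage

/-!
# A fixed tame place: shell vectors exist at every deep enough level

A cuspidal vector of one system gives, at a deep enough level, a vector on the shell of that level
(`exists_shell`), hence `HasShell` (`exists_hasShell`).
-/

set_option autoImplicit false

noncomputable section

namespace FLTAgent.LanglandsTunnell.Isolation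

open FLTAgent.LanglandsTunnell NumberField Matrix Function

namespace Tame

variable {F : Type} [Field F] [NumberField F] {ι : Type} [Fintype ι] [DecidableEq ι]
  {Φ : PlaceChoice F ι} {w : Ideal (𝓞 F)} {hw : w.IsPrime} {hw0 : w ≠ ⊥}

/-- The layers do not depend on the uniformizer. -/
theorem lp_eq_of_params (P P' : LocalParams hw hw0) (i : ℤ) : lp P i = lp P' i := by
  have key : ∀ Q Q' : LocalParams hw hw0, lp Q' i ≤ lp Q i := by
    intro Q Q' x hx
    obtain ⟨y, hy, rfl⟩ := hx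
    obtain ⟨u, hu, hui, huj, -⟩ := Q.uniformizer.exists_mul_eq Q'.uniformizer
    have hz : ((u ^ i : (AF F)ˣ) : AF F) ∈ intAF F := by
      rcases i with n | n
      · rw [Int.ofNat_eq_natCast, _root_.zpow_natCast, Units.val_pow_eq_pow_val]
        exact pow_mem hui n
      · rw [_root_.zpow_negSucc, ← inv_pow, Units.val_pow_eq_pow_val]
        exact pow_mem huj _
    refine ⟨((u ^ i : (AF F)ˣ) : AF F) * y, mul_mem hz hy, ?_⟩
    have hpz : pz Q' i = pz Q i * ((u ^ i : (AF F)ˣ) : AF F) := by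
      show ((Q'.π ^ i : (AF F)ˣ) : AF F) = _
      rw [hu]
      exact (congrArg Units.val (_root_.mul_zpow Q.π u i)).trans (Units.val_mul _ _)
    rw [hpz]
    ring
  exact le_antisymm (key P' P) (key P P')

omit [DecidableEq ι] in
theorem ShellVec.of_params {P : LocalParams hw hw0} {u : Smooth Φ} (h : ShellVec P u)
    (P' : LocalParams hw hw0) : ShellVec P' u := by
  obtain ⟨α, h3, hf, hnf⟩ := h.shell
  refine ⟨⟨α, h3, fun x hx => hf x (by rwa [lp_eq_of_params P P']), fun h' => hnf fun x hx =>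
    h' x (by rwa [lp_eq_of_params P' P])⟩, fun t ht => h.torus t ?_⟩
  rwa [mem_lunit, lp_eq_of_params P P', ← mem_lunit]

theorem HasExp.pow {P : LocalParams hw hw0} {M δ : ℕ} (h : HasExp P M δ) (e : ℕ) :
    HasExp P (M ^ (e + 1)) (δ * (e + 1)) := by
  obtain ⟨v, hv⟩ := h
  refine ⟨v ^ (e + 1), ?_⟩
  have hidem : placeAF hw hw0 ^ (e + 1) = placeAF hw hw0 :=
    IsIdempotentElem.pow_eq (placeAF_mul_self hw hw0) e.succ_ne_zero
  have h1 := congrArg (· ^ (e + 1)) hv
  simp only [mul_pow, hidem, ← pow_mul] at h1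
  rw [Nat.cast_pow, Units.val_pow_eq_pow_val, map_pow]
  exact h1

omit [NumberField F] in
/-- A rational prime in `w` divides every natural number in `w`. -/
theorem dvd_of_natCast_mem_prime (hw : w.IsPrime) {p M : ℕ} (hp : p.Prime)
    (hpw : (p : 𝓞 F) ∈ w) (hMw : (M : 𝓞 F) ∈ w) : p ∣ M := by
  by_contra h
  obtain ⟨x, y, hxy⟩ := ((hp.coprime_iff_not_dvd.mpr h).cast : IsCoprime (p : 𝓞 F) (M : 𝓞 F))
  exact hw.ne_top ((Ideal.eq_top_iff_one _).mpr
    (hxy ▸ add_mem (Ideal.mul_mem_left _ x hpw) (Ideal.mul_mem_left _ y hMw)))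

/-- Translations by unipotents keep the vectors fixed by unipotents. -/
theorem UnipFixed.rho_upper {P : LocalParams hw hw0} {i : ℤ} {v : Smooth Φ} (h : UnipFixed P i v)
    (y : AF F) : UnipFixed P i (rho Φ (upperUnip y) v) := fun x hx => by
  rw [← rho_upper_add, add_comm, rho_upper_add, h x hx]

/-- The vectors fixed by the unipotents of one order. -/
def unipSub (Φ : PlaceChoice F ι) (P : LocalParams hw hw0) (i : ℤ) : Submodule ℂ (Smooth Φ) where
  carrier := {u | UnipFixed P i u}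
  zero_mem' := fun _ _ => map_zero _
  add_mem' h h' := fun x hx => by rw [map_add, h x hx, h' x hx]
  smul_mem' c _ h := fun x hx => by rw [map_smul, h x hx]

namespace Level

variable {S : Setup Φ} (L : Level S)

/-- A vector of the conditions away from `w` on the shell `-d`. -/
theorem exists_shell {u : Smooth Φ} (hu : InSys Φ L.N L.a u) (hu0 : u ≠ 0) (hc : CuspVec u) :
    ∃ X : Smooth Φ, L.Pre X ∧ ShellVec S.P X := by
  classical
  -- the order of the vector
  obtain ⟨β, hβ⟩ : ∃ β, ¬ UnipFixed S.P β u := by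
    by_contra! hcon
    exact hu0 (eq_zero_of_unipFixed (S := S) hu.spherical hc hcon)
  obtain ⟨α, hα, hmin⟩ := Int.exists_least_of_bdd (P := fun a => UnipFixed S.P a u)
    ⟨β, fun z hz => le_of_lt (lt_of_not_ge fun hle => hβ fun x hx => hz x (lp_anti hle hx))⟩
    ⟨L.δ, fun x hx => fixed_upper hu hx⟩
  have hα' : ¬ UnipFixed S.P (α - 1) u := fun h => by have := hmin _ h; omega
  -- move it to the order `-d`
  have hdiag : ∀ k : ℤ, diagUnit (S.P.π ^ k) ∈ localGroup S.hw S.hw0 := fun k => by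
    rw [← diagHom_apply, map_zpow]
    exact Subgroup.zpow_mem _ ((mem_localGroup S.hw S.hw0).mpr S.P.isLocalAt_diag) k
  set u' := rho Φ (diagUnit (S.P.π ^ (-S.d - α))) u with hu'
  have hf' : UnipFixed S.P (-S.d) u' := by
    have h := unipFixed_diag (-S.d - α) (one_mem (lunit S.P 0)) (mul_one _).symm hα
    rwa [show α + (-S.d - α) = -S.d by ring] at h
  have hnf' : ¬ UnipFixed S.P (-S.d - 1) u' := fun h => hα' (by
    have h2 := unipFixed_diag (α + S.d) (one_mem (lunit S.P 0)) (mul_one _).symm h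
    rw [show -S.d - 1 + (α + S.d) = α - 1 by ring, hu', ← rho_mul, ← diagUnit_mul,
      ← _root_.zpow_add, show α + S.d + (-S.d - α) = 0 by ring, _root_.zpow_zero, ← diagHom_apply,
      map_one, map_one] at h2
    exact h2)
  obtain ⟨t, ht, hx0⟩ : ∃ t ∈ lunit S.P 0, S.proj L.δ (rho Φ (diagUnit t) u') ≠ 0 := by
    by_contra! hcon
    exact hnf' (Setup.unipFixed_of_proj L.hδ hf' hcon)
  set v := rho Φ (diagUnit t) u' with hv
  have hvf : UnipFixed S.P (-S.d) v := by
    simpa using unipFixed_diag 0 ht (by simp) hf'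
  set x := S.proj L.δ v with hx
  have hxe : PsiEigen S.P (-S.d - L.δ) x := Setup.psiEigen_proj hvf
  have hxf : UnipFixed S.P (-S.d) x := Setup.proj_mem (unipSub Φ S.P (-S.d)) fun y _ =>
    hvf.rho_upper y
  have hxpre : L.Pre x := by
    refine Setup.proj_mem L.preSub fun y hy => ?_
    exact (((pre_of_sys hu hc).rho_local (hdiag _)).rho_local (diagUnit_local ht)).rho_local
      (upperUnip_local hy)
  have hxs : ∀ s ∈ lunit S.P L.δ, rho Φ (diagUnit s) x = x := by
    intro s hs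
    have hvs : rho Φ (diagUnit s) v = v := by
      rw [hv, hu', ← rho_mul, ← rho_mul,
        show diagUnit s * diagUnit t * diagUnit (S.P.π ^ (-S.d - α)) =
          diagUnit t * diagUnit (S.P.π ^ (-S.d - α)) * diagUnit s by
        simp only [← diagUnit_mul]
        rw [mul_comm s t, mul_right_comm],
        rho_mul, fixed_diag hu hs, rho_mul]
    rw [hx, Setup.proj_apply, map_smul, map_sum]
    refine congrArg _ (Finset.sum_congr rfl fun q _ => ?_)
    rw [map_smul, rho_diag_upper, hvs]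
    refine congrArg _ ?_
    have hq : ((s : AF F) - 1) * (q.out : AF F) ∈ lp S.P (-S.d) :=
      lp_anti (by omega) (mul_mem_lp hs.1 q.out.2)
    rw [show (s : AF F) * (q.out : AF F) = (q.out : AF F) + ((s : AF F) - 1) * (q.out : AF F) by
      ring, rho_upper_add, hvf _ hq]
  -- average over the diagonal units
  set H : Subgroup (GL (Fin 2) (AF F)) := (lunit S.P 0).map diagHom with hH
  have hH' : H ≤ principalSubgroup ⊤ := by
    rintro _ ⟨s, hs, rfl⟩
    exact (diagUnit_localK hs).2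
  set X := orbitAvg H hH' x with hX
  have hmem : ∀ k ∈ H, ∃ s ∈ lunit S.P 0, diagUnit s = k := fun k hk => hk
  have hXpre : L.Pre X := orbitAvg_induction hH' (p := fun z => z ∈ L.preSub)
    L.preSub.zero_mem (fun _ _ => L.preSub.add_mem) (fun c _ => L.preSub.smul_mem c) x
    fun k hk => by
      obtain ⟨s, hs, rfl⟩ := hmem k hk
      exact hxpre.rho_local (diagUnit_local hs)
  have hXf : UnipFixed S.P (-S.d) X := orbitAvg_induction hH'
    (p := fun z => z ∈ unipSub Φ S.P (-S.d)) (unipSub Φ S.P (-S.d)).zero_mem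
    (fun _ _ => (unipSub Φ S.P (-S.d)).add_mem) (fun c _ => (unipSub Φ S.P (-S.d)).smul_mem c) x
    fun k hk => by
      obtain ⟨s, hs, rfl⟩ := hmem k hk
      have h := unipFixed_diag 0 hs (show s = S.P.π ^ (0 : ℤ) * s by simp) hxf
      rwa [add_zero] at h
  have hproj : S.proj L.δ X = ((finite_orbit hH' x).toFinset.card : ℂ)⁻¹ • x := by
    rw [hX, orbitAvg, map_smul, map_sum, Finset.sum_eq_single x]
    · rw [Setup.proj_eigen hxe]
    · intro y hy hne
      obtain ⟨k, hk, rfl⟩ := (finite_orbit hH' x).mem_toFinset.mp hy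
      obtain ⟨s, hs, rfl⟩ := hmem k hk
      exact Setup.proj_diag_eq_zero hxe hs fun hsn => hne (hxs s hsn)
    · exact fun h => absurd ((finite_orbit hH' x).mem_toFinset.mpr ⟨1, one_mem H, by simp⟩) h
  refine ⟨X, hXpre, ⟨-S.d, ?_, hXf, fun h1 => ?_⟩, fun s hs =>
    orbitAvg_fixed hH' x ⟨s, hs, rfl⟩⟩
  · obtain ⟨c, hc'⟩ := S.three_dvd_diff
    exact ⟨-c, by omega⟩
  · have h0 : S.proj L.δ X = 0 := Setup.eq_zero_of_psiEigen_unipFixed L.hδ
      (Setup.psiEigen_proj hXf)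
      (Setup.proj_mem (unipSub Φ S.P (-S.d - 1)) fun y _ => h1.rho_upper y)
    refine hx0 ((smul_eq_zero.mp (hproj.symm.trans h0)).resolve_left ?_)
    refine inv_ne_zero (Nat.cast_ne_zero.mpr ?_)
    exact Finset.card_ne_zero.mpr
      ⟨x, (finite_orbit hH' x).mem_toFinset.mpr ⟨1, one_mem H, by simp⟩⟩

end Level

/-- Shell vectors exist at every level deep enough at the fixed tame places. -/
theorem exists_hasShell (T : TwistData Φ) (hcube : ∀ x, T.σ (T.σ (T.σ x)) = x)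
    (hmoved : ∃ x, T.σ x ≠ x) {N₀ : ℕ} {a : Ideal (𝓞 F) → ℂ} {u : Smooth Φ}
    (hu : InSys Φ N₀ a u) (hu0 : u ≠ 0) (hc : CuspVec u) (hgal : T.twist u = u) :
    ∃ e₀ : ℕ, ∀ M, M ≠ 0 → N₀ ∣ M → (∀ q, q.Prime → q ∣ M → q ∣ N₀) →
      (∀ q, q.Prime → q ≠ 3 → q ∣ M → q ^ e₀ ∣ M) → HasShell T M a := by
  classical
  have hN : N₀ ≠ 0 := hu.level.ne_zero
  have hat : ∀ v : Ideal (𝓞 F), v.IsPrime → v ≠ ⊥ → ¬ v ∣ lv F N₀ → a (T.ideal v) = a v := by
    intro v hv hv0 hvN
    have h := T.sysOff_twist hu.sys v hv hv0 hvN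
    rw [hgal] at h
    have h0 := h.eq_of_ne_zero (hu.sys v hv hv0 hvN) hu0
    exact mul_left_cancel₀ (Complex.ofReal_ne_zero.mpr (Real.sqrt_pos.mpr
      (Nat.cast_pos.mpr (Nat.pos_of_ne_zero fun e => hv0 (Ideal.absNorm_eq_zero_iff.mp e)))).ne') h0
  -- one place
  have hplace : ∀ w : Ideal (𝓞 F), ∃ e : ℕ, ∀ (hw : w.IsPrime) (hw0 : w ≠ ⊥), T.ideal w = w →
      (∀ x, intAut T.σ x - x ∈ w) → (3 : 𝓞 F) ∉ w → (N₀ : 𝓞 F) ∈ w →
      ∀ (P : LocalParams hw hw0) (M : ℕ), M ≠ 0 → N₀ ∣ M →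
        (∀ q : ℕ, q.Prime → (q : 𝓞 F) ∈ w → q ^ (e + 1) ∣ M) →
        ∃ X : Smooth Φ, InSys Φ M a X ∧ ShellVec P X := by
    intro w
    by_cases hcond : ∃ (_ : w.IsPrime) (_ : w ≠ ⊥), T.ideal w = w ∧
        (∀ x, intAut T.σ x - x ∈ w) ∧ (3 : 𝓞 F) ∉ w ∧ (N₀ : 𝓞 F) ∈ w
    swap
    · exact ⟨0, fun hw hw0 h1 h2 h3 h4 => absurd ⟨hw, hw0, h1, h2, h3, h4⟩ hcond⟩
    obtain ⟨hw, hw0, h1, h2, h3, h4⟩ := hcond
    obtain ⟨P₀⟩ := nonempty_localParams (hw := hw) (hw0 := hw0)
    obtain ⟨d, hd⟩ := exists_isDiffExp P₀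
    obtain ⟨δ, hδ, hexp⟩ := exists_hasExp (P := P₀) hN h4
    let S : Setup Φ := ⟨T, hcube, hmoved, w, hw, hw0, h1, h2, h3, P₀, d, hd⟩
    let L : Level S := ⟨N₀, hN, δ, hδ, hexp, a, hat⟩
    obtain ⟨X, hXpre, hXsh⟩ := L.exists_shell hu hu0 hc
    obtain ⟨MX, hMX⟩ := X.2
    obtain ⟨δX, hδX⟩ : ∃ δX : ℕ, ∀ k ∈ localK hw hw0, (∀ i j, (k.1 - 1) i j ∈ lp P₀ δX) →
        k ∈ principalSubgroup (lv F MX) := by
      by_cases hm : (MX : 𝓞 F) ∈ w
      · obtain ⟨δX, hδX0, hX1⟩ := exists_hasExp (P := P₀) hMX.ne_zero hm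
        exact ⟨δX, fun k hk he => mem_level_of_lp hX1 hδX0 hk he⟩
      · exact ⟨0, fun k hk _ => localK_le_principalSubgroup hw hw0
          (fun hd => hm (Ideal.dvd_iff_le.mp hd (Ideal.mem_span_singleton_self _))) hk⟩
    refine ⟨δX, fun _ _ _ _ _ _ P M hM hNM hq => ⟨X, ⟨isLevel_of_fixed hM fun k hk => ?_,
      hXpre.spherical, hXpre.sys.mono hNM⟩, hXsh.of_params P⟩⟩
    obtain ⟨q, hqw⟩ := exists_prime_natCast_mem hw hw0
    obtain ⟨m, hm0, hqexp⟩ := exists_hasExp (P := P₀) q.2.ne_zero hqw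
    rw [← part_mul_copart hw hw0 k, rho_mul,
      hXpre.fixed _ ⟨principalSubgroup_mono (lv_le hNM) (copart_mem_principalSubgroup _ _ hk),
        copart_mem_awayGroup _ _ _⟩]
    refine rho_of_mem_level hMX (Subgroup.mem_sup_left (hδX _
      (part_mem_localK _ _ (principalSubgroup_mono le_top hk)) fun i j => ?_))
    have hk' : part hw hw0 k ∈ principalSubgroup (lv F ((q : ℕ) ^ (δX + 1))) :=
      principalSubgroup_mono (lv_le (hq q q.2 hqw)) (part_mem_principalSubgroup _ _ hk)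
    refine lp_anti ?_
        (sub_one_mem_lp_of_level (hqexp.pow δX) (part_mem_localGroup hw hw0 k) hk' i j)
    exact_mod_cast le_trans (Nat.le_succ δX) (Nat.le_mul_of_pos_left _ hm0)
  choose e he using hplace
  refine ⟨∑ v ∈ (finite_placesOf (F := F) hN).toFinset, (e v + 1), fun M hM hNM hsupp hdeep => ?_⟩
  intro w hw hw0 h1 h2 h3 hMw P
  obtain ⟨p, hp, hpM, hpw⟩ : ∃ p : ℕ, p.Prime ∧ p ∣ M ∧ (p : 𝓞 F) ∈ w := by
    obtain ⟨p, hp⟩ := exists_prime_natCast_mem hw hw0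
    exact ⟨p, p.2, dvd_of_natCast_mem_prime hw p.2 hp hMw, hp⟩
  have hN₀w : (N₀ : 𝓞 F) ∈ w := by
    obtain ⟨c, hc⟩ := hsupp p hp hpM
    rw [hc, Nat.cast_mul]
    exact Ideal.mul_mem_right _ _ hpw
  refine he w hw hw0 h1 h2 h3 hN₀w P M hM hNM fun q hq hqw => ?_
  have hq3 : q ≠ 3 := by rintro rfl; exact h3 (by exact_mod_cast hqw)
  refine (pow_dvd_pow q ?_).trans (hdeep q hq hq3 ?_)
  · exact Finset.single_le_sum (f := fun v => e v + 1) (fun v _ => Nat.zero_le _)
      ((finite_placesOf (F := F) hN).mem_toFinset.mpr ⟨hw, hN₀w⟩)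
  · exact dvd_of_natCast_mem_prime hw hq hqw hMw

end Tame

end FLTAgent.LanglandsTunnell.Isolation
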