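import Fermat.Agent.LanglandsTunnell.Isolation.StageTrace
import Fermat.Agent.LanglandsTunnell.Expansion.Coefficient
import Fermat.Agent.LanglandsTunnell.Killing.ConstantTerm

/-!
# A fixed tame place: shared definitions

The additive filtration and the unit filtration at one place, the invariance conditions on smooth
vectors, the setting of a fixed tame place and a level.
-/

set_option autoImplicit false

noncomputable section

namespace FLTAgent.LanglandsTunnell.Isolation

open FLTAgent.LanglandsTunnell NumberField Matrix Function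
open FLTAgent.LanglandsTunnell.Expansion (psi)

namespace Tame

variable {F : Type} [Field F] [NumberField F] {w : Ideal (𝓞 F)} {hw : w.IsPrime} {hw0 : w ≠ ⊥}
  (P : LocalParams hw hw0)

/-- The power `i` of the uniformizer as an element. -/
abbrev pz (i : ℤ) : AF F := ((P.π ^ i : (AF F)ˣ) : AF F)

/-- The power `i` of the prime in the factor of `w`. -/
def lp (i : ℤ) : AddSubgroup (AF F) where
  carrier := {x | ∃ y ∈ intAF F, x = placeAF hw hw0 * pz P i * y}
  zero_mem' := ⟨0, zero_mem _, (mul_zero _).symm⟩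
  add_mem' := by
    rintro _ _ ⟨y, hy, rfl⟩ ⟨y', hy', rfl⟩
    exact ⟨y + y', add_mem hy hy', (mul_add _ _ _).symm⟩
  neg_mem' := by
    rintro _ ⟨y, hy, rfl⟩
    exact ⟨-y, neg_mem hy, by ring⟩

variable {P} {i j : ℤ} {x y : AF F}

theorem pz_add : pz P (i + j) = pz P i * pz P j := by
  simp only [pz, _root_.zpow_add, Units.val_mul]

theorem pz_zero : pz P 0 = 1 := by simp [pz]

theorem pz_neg_mul : pz P (-i) * pz P i = 1 := by rw [← pz_add, neg_add_cancel, pz_zero]

theorem pz_natCast (n : ℕ) : pz P (n : ℤ) = (P.π : AF F) ^ n := by simp [pz]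

theorem pz_mem_intAF (h : 0 ≤ i) : pz P i ∈ intAF F := by
  obtain ⟨n, rfl⟩ := Int.eq_ofNat_of_zero_le h
  rw [pz_natCast]
  exact pow_mem P.pi_mem n

theorem placeAF_mem_intAF : placeAF hw hw0 ∈ intAF F := ⟨placeIdem hw hw0, rfl⟩

theorem mem_lp_iff :
    x ∈ lp P i ↔ placeAF hw hw0 * x = x ∧ pz P (-i) * x ∈ intAF F := by
  constructor
  · rintro ⟨y, hy, rfl⟩
    refine ⟨by rw [← mul_assoc, ← mul_assoc, placeAF_mul_self], ?_⟩
    rw [show pz P (-i) * (placeAF hw hw0 * pz P i * y) =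
      (pz P (-i) * pz P i) * (placeAF hw hw0 * y) by ring, pz_neg_mul, one_mul]
    exact mul_mem placeAF_mem_intAF hy
  · rintro ⟨he, hi⟩
    refine ⟨_, hi, ?_⟩
    linear_combination (-(placeAF hw hw0 * x)) * (pz_neg_mul (P := P) (i := i)) - he

theorem lp_local (h : x ∈ lp P i) : placeAF hw hw0 * x = x := (mem_lp_iff.mp h).1

theorem lp_anti (h : i ≤ j) : lp P j ≤ lp P i := by
  intro x hx
  obtain ⟨he, hi⟩ := mem_lp_iff.mp hx
  refine mem_lp_iff.mpr ⟨he, ?_⟩
  rw [show -i = (j - i) + -j by ring, pz_add, mul_assoc]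
  exact mul_mem (pz_mem_intAF (sub_nonneg.mpr h)) hi

theorem mul_mem_lp (hx : x ∈ lp P i) (hy : y ∈ lp P j) : x * y ∈ lp P (i + j) := by
  obtain ⟨he, hi⟩ := mem_lp_iff.mp hx
  obtain ⟨-, hj⟩ := mem_lp_iff.mp hy
  refine mem_lp_iff.mpr ⟨by rw [← mul_assoc, he], ?_⟩
  rw [neg_add, pz_add, mul_mul_mul_comm]
  exact mul_mem hi hj

theorem mul_mem_lp_of_int (hx : x ∈ intAF F) (hy : y ∈ lp P i) : x * y ∈ lp P i := by
  obtain ⟨he, hi⟩ := mem_lp_iff.mp hy
  exact mem_lp_iff.mpr ⟨by linear_combination x * he, by rw [mul_left_comm]; exact mul_mem hx hi⟩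

theorem lp_le_intAF (h : 0 ≤ i) (hx : x ∈ lp P i) : x ∈ intAF F := by
  obtain ⟨y, hy, rfl⟩ := hx
  exact mul_mem (mul_mem placeAF_mem_intAF (pz_mem_intAF h)) hy

theorem placeAF_pz_mem (i : ℤ) : placeAF hw hw0 * pz P i ∈ lp P i :=
  ⟨1, one_mem _, (mul_one _).symm⟩

theorem zero_pz_mem_lp_zero (hx : x ∈ intAF F) : placeAF hw hw0 * x ∈ lp P 0 :=
  ⟨x, hx, by rw [pz_zero, mul_one]⟩

variable (P) in
/-- Units at `w` congruent to one to order `r`, trivial at the other places. -/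
def lunit (r : ℕ) : Subgroup (AF F)ˣ where
  carrier := {u | (u : AF F) - 1 ∈ lp P r ∧ ((u⁻¹ : (AF F)ˣ) : AF F) - 1 ∈ lp P r}
  one_mem' := by simp [zero_mem]
  mul_mem' := by
    have key : ∀ {a b : AF F}, a - 1 ∈ lp P r → b - 1 ∈ lp P r → a * b - 1 ∈ lp P r := by
      intro a b ha hb
      rw [show a * b - 1 = (a - 1) * (b - 1) + (a - 1) + (b - 1) by ring]
      exact add_mem (add_mem (lp_anti (by omega) (mul_mem_lp ha hb)) ha) hb
    rintro u v ⟨hu, hu'⟩ ⟨hv, hv'⟩
    refine ⟨?_, ?_⟩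
    · rw [Units.val_mul]; exact key hu hv
    · rw [_root_.mul_inv_rev, Units.val_mul]; exact key hv' hu'
  inv_mem' := fun ⟨hu, hu'⟩ => ⟨hu', by rwa [inv_inv]⟩

theorem mem_lunit {r : ℕ} {u : (AF F)ˣ} :
    u ∈ lunit P r ↔ (u : AF F) - 1 ∈ lp P r ∧ ((u⁻¹ : (AF F)ˣ) : AF F) - 1 ∈ lp P r := Iff.rfl

theorem lunit_anti {r s : ℕ} (h : r ≤ s) : lunit P s ≤ lunit P r := fun _ hu =>
  ⟨lp_anti (by omega) hu.1, lp_anti (by omega) hu.2⟩

theorem lunit_intAF {r : ℕ} {u : (AF F)ˣ} (hu : u ∈ lunit P r) : (u : AF F) ∈ intAF F := by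
  have h := add_mem (lp_le_intAF (by omega) hu.1) (one_mem (intAF F))
  rwa [sub_add_cancel] at h

theorem mul_lunit_mem {r : ℕ} {u : (AF F)ˣ} (hu : u ∈ lunit P r) (hy : y ∈ lp P i) :
    (u : AF F) * y ∈ lp P i := mul_mem_lp_of_int (lunit_intAF hu) hy

/-- Diagonal matrices of a unit with second entry one, as a homomorphism. -/
def diagHom : (AF F)ˣ →* GL (Fin 2) (AF F) where
  toFun := diagUnit
  map_one' := Units.ext (by simp [diagUnit, Matrix.one_fin_two])
  map_mul' u v := diagUnit_mul u v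

omit [NumberField F] in
@[simp] theorem diagHom_apply (t : (AF F)ˣ) : diagHom t = diagUnit t := rfl

theorem upperUnip_local (hx : x ∈ lp P i) : upperUnip x ∈ localGroup hw hw0 :=
  (mem_localGroup hw hw0).mpr (isLocalAt_upper (lp_local hx))

theorem diagUnit_local {r : ℕ} {t : (AF F)ˣ} (ht : t ∈ lunit P r) :
    diagUnit t ∈ localGroup hw hw0 := by
  refine (mem_localGroup hw hw0).mpr fun a b => ?_
  fin_cases a <;> fin_cases b <;> simp [diagUnit, lp_local ht.1]

theorem diagUnit_localK {r : ℕ} {t : (AF F)ˣ} (ht : t ∈ lunit P r) :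
    diagUnit t ∈ localK hw hw0 := by
  refine ⟨diagUnit_local ht, diagUnit_mem_principalSubgroup ?_ ?_⟩ <;> rw [idealAF_top]
  exacts [lp_le_intAF (by omega) ht.1, lp_le_intAF (by omega) ht.2]

variable {ι : Type} [Fintype ι] [DecidableEq ι] {Φ : PlaceChoice F ι}

/-- Cuspidal functions of one level form a subspace. -/
theorem isCuspidal_add {n : Ideal (𝓞 F)} {f g : Pt F ι n → ℂ}
    (hfc : ∀ v, Continuous fun P => f (v, P))
    (hgc : ∀ v, Continuous fun P => g (v, P)) (hf : IsCuspidal Φ f) (hg : IsCuspidal Φ g) :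
    IsCuspidal Φ (f + g) := by
  intro v P m hm hfix
  have hp : Continuous fun s : Module.Free.ChooseBasisIndex ℤ (𝓞 F) → ℝ => fun i => H3.shift
      (∑ j, (s j : ℂ) * (m * Φ.emb i (RingOfIntegers.basis F j : 𝓞 F))) (P i) :=
    LanglandsTunnell.Expansion.continuous_shiftVec.comp ((continuous_pi fun i =>
      continuous_finsetSum _ fun j _ => (Complex.continuous_ofReal.comp
        (continuous_apply j)).mul continuous_const).prodMk continuous_const)
  simp only [Pi.add_apply]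
  rw [MeasureTheory.integral_add, hf v P m hm hfix, hg v P m hm hfix, add_zero]
  exacts [((hfc v).comp hp).continuousOn.integrableOn_compact
      (isCompact_univ_pi fun _ => isCompact_Icc),
    ((hgc v).comp hp).continuousOn.integrableOn_compact
      (isCompact_univ_pi fun _ => isCompact_Icc)]

theorem isCuspidal_add_vec {M : ℕ} {u v : Smooth Φ} (hu : IsLevel Φ M u.1) (hv : IsLevel Φ M v.1)
    (hcu : IsCuspidal Φ (restrictLevel M u.1)) (hcv : IsCuspidal Φ (restrictLevel M v.1)) :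
    IsCuspidal Φ (restrictLevel M (u + v).1) :=
  isCuspidal_add hu.automorphic.continuous hv.automorphic.continuous hcu hcv

omit [DecidableEq ι] in
theorem isCuspidal_smul_vec {M : ℕ} {u : Smooth Φ} (c : ℂ)
    (hcu : IsCuspidal Φ (restrictLevel M u.1)) : IsCuspidal Φ (restrictLevel M (c • u).1) := by
  intro v P m hm hfix
  show ∫ s in _, c * restrictLevel M u.1 _ = 0
  rw [MeasureTheory.integral_const_mul, hcu v P m hm hfix, mul_zero]

omit [DecidableEq ι] in
/-- Cuspidality passes to translates. -/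
theorem isCuspidal_rho {M M' : ℕ} {u : Smooth Φ} (hu : IsLevel Φ M u.1)
    (hc : IsCuspidal Φ (restrictLevel M u.1)) (g : GL (Fin 2) (AF F))
    (hg : ∀ k ∈ levelGroup (lv F M'), g⁻¹ * k * g ∈ levelGroup (lv F M)) :
    IsCuspidal Φ (restrictLevel M' (rho Φ g u).1) := by
  intro v P m hm hfix
  obtain ⟨f, hf, he⟩ := hu.exists_fun
  rw [he, restrictLevel_liftForm] at hc
  have e : ∀ x : Pt F ι (lv F M'), restrictLevel M' (rho Φ g u).1 x = f (shiftPt g hg x) := by
    intro x
    rw [rho_val, he, ← liftForm_comp_shiftPt g hg f, restrictLevel_liftForm]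
  simp only [e]
  exact hc (shiftFin g hg v) P m hm fun b => by rw [← shiftFin_smul, hfix b]

omit [DecidableEq ι] in
open LanglandsTunnell.Killing (ctMean_mul InvCts isCuspidal_iff FixesUnip exists_fixesUnip) in
/-- Cuspidality descends to a level of the same function. -/
theorem isCuspidal_descend {M M' : ℕ} {u : Smooth Φ} (hM : IsLevel Φ M u.1) (hM' : M' ≠ 0)
    (hd : M ∣ M') (hc : IsCuspidal Φ (restrictLevel M' u.1)) :
    IsCuspidal Φ (restrictLevel M u.1) := by
  have hf : InvCts Φ (restrictLevel M u.1) := ⟨hM.automorphic.invariant, hM.automorphic.continuous⟩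
  have hf' : InvCts Φ (restrictLevel M' u.1) :=
    ⟨(hM.mono hM' hd).automorphic.invariant, (hM.mono hM' hd).automorphic.continuous⟩
  refine (isCuspidal_iff Φ _).mpr fun v P m hm hfix => ?_
  obtain ⟨g, rfl⟩ := QuotientGroup.mk_surjective v
  obtain ⟨m', hm', hfix'⟩ := exists_fixesUnip (lv_ne_bot (F := F) hM') ((g : FinPt F (lv F M')))
  rw [← ctMean_mul hf hfix hm']
  refine Eq.trans ?_ ((isCuspidal_iff Φ _).mp hc _ P (m * m') (mul_ne_zero hm hm')
    (by rw [mul_comm]; exact hfix'.mul m))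
  refine congrArg LanglandsTunnell.Killing.boxMean (funext fun s => ?_)
  show u.1 (g : FinPt F (lv F M)).out _ = u.1 (g : FinPt F (lv F M')).out _
  have h1 := congrFun (congrFun hM.liftForm_restrict g)
  have h2 := congrFun (congrFun (hM.mono hM' hd).liftForm_restrict g)
  exact (h1 _).trans (h2 _).symm

/-- Cuspidal at some level. -/
def CuspVec (u : Smooth Φ) : Prop := ∃ M, IsLevel Φ M u.1 ∧ IsCuspidal Φ (restrictLevel M u.1)

theorem CuspVec.isCuspidal {u : Smooth Φ} (h : CuspVec u) {M : ℕ} (hM : IsLevel Φ M u.1) :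
    IsCuspidal Φ (restrictLevel M u.1) := by
  obtain ⟨M₀, h0, hc⟩ := h
  exact isCuspidal_descend hM (mul_ne_zero h0.ne_zero hM.ne_zero) (dvd_mul_left _ _)
    (isCuspidal_mono h0 (dvd_mul_right _ _) hc)

variable (Φ) in
theorem cuspVec_zero : CuspVec (0 : Smooth Φ) :=
  ⟨1, isLevel_zero one_ne_zero, fun v P m _ _ => by simp [restrictLevel]⟩

theorem CuspVec.add {u v : Smooth Φ} (hu : CuspVec u) (hv : CuspVec v) : CuspVec (u + v) := by
  obtain ⟨M, h, h'⟩ := exists_common_level u v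
  exact ⟨M, h.add h', isCuspidal_add_vec h h' (hu.isCuspidal h) (hv.isCuspidal h')⟩

omit [DecidableEq ι] in
theorem CuspVec.smul {u : Smooth Φ} (c : ℂ) (hu : CuspVec u) : CuspVec (c • u) := by
  obtain ⟨M, h, hc⟩ := hu
  exact ⟨M, h.smul c, isCuspidal_smul_vec c hc⟩

omit [DecidableEq ι] in
theorem CuspVec.rho {u : Smooth Φ} (g : GL (Fin 2) (AF F)) (hu : CuspVec u) :
    CuspVec (rho Φ g u) := by
  obtain ⟨M, h, hc⟩ := hu
  obtain ⟨M', hM', hg⟩ := exists_level_conj h.ne_zero g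
  exact ⟨M', h.rtrans_of hM' hg, isCuspidal_rho h hc g hg⟩

/-- Fixed by the upper unipotents of order `i`. -/
def UnipFixed (P : LocalParams hw hw0) (i : ℤ) (u : Smooth Φ) : Prop :=
  ∀ x ∈ lp P i, rho Φ (upperUnip x) u = u

/-- Eigenvectors of the character for the upper unipotents of order `i`. -/
def PsiEigen (P : LocalParams hw hw0) (i : ℤ) (u : Smooth Φ) : Prop :=
  ∀ x ∈ lp P i, rho Φ (upperUnip x) u = psi x • u

/-- Fixed by a group of diagonal matrices. -/
def TorusFixed (H : Subgroup (AF F)ˣ) (u : Smooth Φ) : Prop :=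
  ∀ t ∈ H, rho Φ (diagUnit t) u = u

/-- The order of the dual of the integers at `w`: the character is trivial exactly on `-d`. -/
def IsDiffExp (P : LocalParams hw hw0) (d : ℤ) : Prop :=
  ∀ x : AF F, placeAF hw hw0 * x = x →
    ((∀ z ∈ intAF F, psi (x * z) = 1) ↔ x ∈ lp P (-d))

/-- The order of a level at `w`. -/
def HasExp (P : LocalParams hw hw0) (M δ : ℕ) : Prop :=
  ∃ v : (OH F)ˣ, placeAF hw hw0 * (M : AF F) =
    placeAF hw hw0 * ((P.π : AF F) ^ δ * intHom F (v : OH F))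

theorem exists_hasExp {M : ℕ} (hM : M ≠ 0) (hMw : (M : 𝓞 F) ∈ w) :
    ∃ δ, 0 < δ ∧ HasExp P M δ :=
  let ⟨m, v, h⟩ := P.exists_exponent hM hMw
  ⟨m + 1, m.succ_pos, v, h⟩

/-- A vector on a shell with a fixed point: fixed by the unipotents of order `α ≡ 1 (mod 3)`, not
by those of order `α - 1`, and by the diagonal units. -/
structure ShellVec (P : LocalParams hw hw0) (u : Smooth Φ) : Prop where
  shell : ∃ α : ℤ, (3 : ℤ) ∣ α - 1 ∧ UnipFixed P α u ∧ ¬ UnipFixed P (α - 1) u
  torus : TorusFixed (lunit P 0) u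

theorem sub_one_mem_lp_of_level {M δ : ℕ} (h : HasExp P M δ) {k : GL (Fin 2) (AF F)}
    (hk : k ∈ localGroup hw hw0) (hM : k ∈ principalSubgroup (lv F M)) (a b : Fin 2) :
    (k.1 - 1) a b ∈ lp P δ := by
  obtain ⟨v, hv⟩ := h
  obtain ⟨y, hy, e⟩ := mem_idealAF.mp (hM.1 a b)
  rw [idealOH, Ideal.map_span, Set.image_singleton, map_natCast, Ideal.mem_span_singleton] at hy
  obtain ⟨z, rfl⟩ := hy
  refine ⟨intHom F (v : OH F) * intHom F z, mul_mem ⟨_, rfl⟩ ⟨_, rfl⟩, ?_⟩
  have hl := (mem_localGroup hw hw0).mp hk a b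
  rw [map_mul, map_natCast] at e
  rw [pz_natCast]
  linear_combination intHom F z * hv - hl - placeAF hw hw0 * e

theorem mem_level_of_lp {M δ : ℕ} (h : HasExp P M δ) (hδ : 0 < δ) {k : GL (Fin 2) (AF F)}
    (hk : k ∈ localK hw hw0) (he : ∀ a b, (k.1 - 1) a b ∈ lp P δ) :
    k ∈ principalSubgroup (lv F M) := by
  obtain ⟨v, hv⟩ := h
  obtain ⟨m, rfl⟩ := Nat.exists_eq_succ_of_ne_zero hδ.ne'
  refine P.mem_level_of_congr hv hk fun a b => ?_
  obtain ⟨y, hy, e⟩ := he a b
  rw [pz_natCast] at e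
  exact ⟨placeAF hw hw0 * y, mul_mem placeAF_mem_intAF hy, by rw [e, pow_succ]; ring⟩

variable (T : TwistData Φ)

/-- Shell vectors of one system and level at every fixed tame place dividing the level. -/
def HasShell (M : ℕ) (a : Ideal (𝓞 F) → ℂ) : Prop :=
  ∀ (w : Ideal (𝓞 F)) (hw : w.IsPrime) (hw0 : w ≠ ⊥), T.ideal w = w →
    (∀ x, intAut T.σ x - x ∈ w) → (3 : 𝓞 F) ∉ w → (M : 𝓞 F) ∈ w →
    ∀ P : LocalParams hw hw0, ∃ u : Smooth Φ, InSys Φ M a u ∧ ShellVec P u

/-- A fixed place with trivial action on the residues, of residue characteristic other than three,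
for a twist of order three. -/
structure Setup (Φ : PlaceChoice F ι) : Type where
  T : TwistData Φ
  cube : ∀ x, T.σ (T.σ (T.σ x)) = x
  moved : ∃ x, T.σ x ≠ x
  w : Ideal (𝓞 F)
  hw : w.IsPrime
  hw0 : w ≠ ⊥
  fixed : T.ideal w = w
  residue : ∀ x, intAut T.σ x - x ∈ w
  three : (3 : 𝓞 F) ∉ w
  P : LocalParams hw hw0
  d : ℤ
  hd : IsDiffExp P d

/-- A level and a system at a fixed tame place. -/
structure Level (S : Setup Φ) : Type where
  N : ℕ
  hN : N ≠ 0
  δ : ℕ
  hδ : 0 < δ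
  hexp : HasExp S.P N δ
  a : Ideal (𝓞 F) → ℂ
  a_twist : ∀ v : Ideal (𝓞 F), v.IsPrime → v ≠ ⊥ → ¬ v ∣ lv F N → a (S.T.ideal v) = a v

namespace Setup

variable (S : Setup Φ)

/-- The automorphism on the adeles. -/
abbrev θ : AF F →ₐ[ℤ] AF F := mapAF S.T.σ.toAlgHom.toRingHom

/-- The automorphism on the ideles. -/
abbrev θu : (AF F)ˣ →* (AF F)ˣ := Units.map S.θ.toRingHom.toMonoidHom

/-- The commutator with the automorphism on the ideles. -/
def commHom : (AF F)ˣ →* (AF F)ˣ where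
  toFun s := s * (S.θu s)⁻¹
  map_one' := by simp
  map_mul' s t := by
    rw [map_mul, _root_.mul_inv_rev, mul_comm (S.θu t)⁻¹]; exact mul_mul_mul_comm s t _ _

omit [Fintype ι] [DecidableEq ι] in
@[simp] theorem commHom_apply (s : (AF F)ˣ) : S.commHom s = s * (S.θu s)⁻¹ := rfl

/-- The unit commutators `s / θ s`. -/
def unitComm : Subgroup (AF F)ˣ := (lunit S.P 0).map S.commHom

end Setup

namespace Level

variable {S : Setup Φ} (L : Level S)

/-- The level subgroup away from `w`. -/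
def away : Subgroup (GL (Fin 2) (AF F)) :=
  principalSubgroup (lv F L.N) ⊓ awayGroup S.hw S.hw0

omit [Fintype ι] [DecidableEq ι] in
theorem away_le : L.away ≤ principalSubgroup ⊤ :=
  inf_le_left.trans (principalSubgroup_mono le_top)

/-- A prime dividing the level, other than `w`. -/
structure Free (v : Ideal (𝓞 F)) : Prop where
  prime : v.IsPrime
  ne_bot : v ≠ ⊥
  mem_N : (L.N : 𝓞 F) ∈ v
  ne_w : v ≠ S.w

/-- The vectors fixed by the unipotents of order `α`. -/
def fil (α : ℤ) : Submodule ℂ (Smooth Φ) where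
  carrier := {u | InSys Φ L.N L.a u ∧ UnipFixed S.P α u}
  zero_mem' := ⟨InSys.zero L.hN, fun _ _ => map_zero _⟩
  add_mem' h h' := ⟨h.1.add h'.1, fun x hx => by rw [map_add, h.2 x hx, h'.2 x hx]⟩
  smul_mem' c _ h := ⟨h.1.smul c, fun x hx => by rw [map_smul, h.2 x hx]⟩

theorem fil_le (α : ℤ) : L.fil α ≤ sysSub Φ L.hN L.a := fun _ h => h.1

/-- A member of the pool: some power of the level, cuspidal, fixed by the level away from `w`, an
eigenvector of the character on the unipotents of order `-d - δ` and fixed by the units of order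
`δ`. -/
structure InPool (u : Smooth Φ) : Prop where
  sys : ∃ e : ℕ, InSys Φ (L.N ^ (e + 1)) L.a u
  cusp : CuspVec u
  fixed : ∀ k ∈ L.away, rho Φ k u = u
  eigen : PsiEigen S.P (-S.d - L.δ) u
  torus : TorusFixed (lunit S.P L.δ) u

/-- Stable under the averaged translations at the free places. -/
def Stable (W : Submodule ℂ (Smooth Φ)) : Prop :=
  ∀ (v : Ideal (𝓞 F)) (hv : L.Free v), ∀ h ∈ localGroup hv.prime hv.ne_bot, ∀ u ∈ W,
    orbitAvg L.away L.away_le (rho Φ h u) ∈ W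

end Level

end Tame

end FLTAgent.LanglandsTunnell.Isolation
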