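import Fermat.Agent.LanglandsTunnell.Isolation.Tame.Defs

/-!
# Local matrices at a fixed tame place

Decomposition of the congruence subgroups, the identity between unipotents and the torus, and the
criterion for membership of one level and system.
-/

set_option autoImplicit false

noncomputable section

namespace FLTAgent.LanglandsTunnell.Isolation

open FLTAgent.LanglandsTunnell NumberField Matrix Function

namespace Tame

variable {F : Type} [Field F] [NumberField F] {ι : Type} [Fintype ι] [DecidableEq ι]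
  {Φ : PlaceChoice F ι} {w : Ideal (𝓞 F)} {hw : w.IsPrime} {hw0 : w ≠ ⊥}
  {P : LocalParams hw hw0}

/-- An element congruent to one is a unit. -/
theorem exists_lunit {r : ℕ} (hr : 0 < r) {x : AF F} (hx : x - 1 ∈ lp P r) :
    ∃ u ∈ lunit P r, (u : AF F) = x := by
  obtain ⟨y, hy, e⟩ := hx
  obtain ⟨Y, rfl⟩ := mem_intAF.mp hy
  obtain ⟨π₀, hπ, hspan⟩ := P.eq_localGenerator
  obtain ⟨m, rfl⟩ := Nat.exists_eq_succ_of_ne_zero hr.ne'
  have hpz : pz P ((m + 1 : ℕ) : ℤ) = intHom F (π₀ ^ (m + 1)) := by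
    rw [pz_natCast, map_pow, hπ]
  rw [hpz, placeAF, ← map_mul, ← map_mul] at e
  set Z : OH F := placeIdem hw hw0 * π₀ ^ (m + 1) * Y with hZ
  have hεε := (isPlaceIdem hw hw0).mul_self
  have hεZ : placeIdem hw hw0 * Z = Z := by rw [hZ, ← mul_assoc, ← mul_assoc, hεε]
  have hnot : (1 + Z) ∉ idealOH w := fun h => by
    have hZw : Z ∈ idealOH w := by
      rw [hspan, hZ, pow_succ]
      exact Ideal.mem_span_singleton.mpr ⟨placeIdem hw hw0 * π₀ ^ m * Y, by ring⟩
    refine placeIdem_not_mem hw hw0 ?_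
    have h1 := Ideal.mul_mem_left _ (placeIdem hw hw0) (sub_mem h hZw)
    rwa [add_sub_cancel_right, mul_one] at h1
  obtain ⟨U, hU⟩ := exists_unit_eq (hw := hw) (hw0 := hw0) hnot
  let V : (OH F)ˣ :=
    { val := placeIdem hw hw0 * (U : OH F) + (1 - placeIdem hw hw0)
      inv := placeIdem hw hw0 * ((U⁻¹ : (OH F)ˣ) : OH F) + (1 - placeIdem hw hw0)
      val_inv := by
        linear_combination (placeIdem hw hw0 * placeIdem hw hw0) * U.mul_inv +
          (2 - (U : OH F) - ((U⁻¹ : (OH F)ˣ) : OH F)) * hεε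
      inv_val := by
        linear_combination (placeIdem hw hw0 * placeIdem hw hw0) * U.mul_inv +
          (2 - (U : OH F) - ((U⁻¹ : (OH F)ˣ) : OH F)) * hεε }
  set u : (AF F)ˣ := Units.map (intHom F).toRingHom.toMonoidHom V with hu
  have hux : (u : AF F) = x := by
    have h1 : (u : AF F) = intHom F (1 + Z) := by
      show intHom F (placeIdem hw hw0 * (U : OH F) + (1 - placeIdem hw hw0)) = _
      congr 1
      linear_combination -hU + hεZ
    rw [h1, map_add, map_one, hZ, ← e]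
    ring
  have h1 : (u : AF F) - 1 ∈ lp P ((m + 1 : ℕ) : ℤ) := by
    rw [hux]
    exact ⟨intHom F Y, ⟨Y, rfl⟩, by rw [e, hpz, placeAF, ← map_mul, ← map_mul]⟩
  refine ⟨u, ⟨h1, ?_⟩, hux⟩
  rw [show ((u⁻¹ : (AF F)ˣ) : AF F) - 1 = -((u⁻¹ : (AF F)ˣ) : AF F) * ((u : AF F) - 1) by
    linear_combination u.inv_mul]
  exact mul_mem_lp_of_int (neg_mem ⟨((V⁻¹ : (OH F)ˣ) : OH F), rfl⟩) h1

omit [NumberField F] in
theorem lowerUnip_inv (c : AF F) : (lowerUnip c)⁻¹ = lowerUnip (-c) :=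
  inv_eq_of_mul_eq_one_right (Units.ext (by
    rw [Units.val_mul]
    ext i j
    fin_cases i <;> fin_cases j <;> simp [Matrix.mul_apply]))

theorem lowerUnip_mem_top {c : AF F} (hc : c ∈ intAF F) :
    (lowerUnip c : GL (Fin 2) (AF F)) ∈ principalSubgroup ⊤ := by
  refine ⟨fun i j => ?_, fun i j => ?_⟩ <;> rw [idealAF_top]
  · fin_cases i <;> fin_cases j <;> simp [zero_mem, hc]
  · rw [lowerUnip_inv]
    fin_cases i <;> fin_cases j <;> simp [zero_mem, hc]

variable (F) in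
/-- Scalar matrices. -/
abbrev scal : (AF F)ˣ →* GL (Fin 2) (AF F) := GeneralLinearGroup.scalar (Fin 2)

omit [DecidableEq ι] in
theorem rho_scal (z : (AF F)ˣ) (u : Smooth Φ) : rho Φ (scal F z) u = u :=
  rho_center (Subgroup.mem_center_iff.mpr fun x =>
    (FLTAgent.LanglandsTunnell.Killing.scalar_comm x z).symm) u

omit [NumberField F] in
theorem scal_mul_diag_val (z t : (AF F)ˣ) :
    (scal F z * diagUnit t).1 = !![(z : AF F) * t, 0; 0, (z : AF F)] := by
  ext a b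
  fin_cases a <;> fin_cases b <;>
    simp [diagUnit, GeneralLinearGroup.scalar, Matrix.mul_apply]

omit [NumberField F] in
/-- The identity between the two unipotent groups and the torus. -/
theorem upper_mul_lower {x c : AF F} {t : (AF F)ˣ} (ht : (t : AF F) = 1 + x * c) :
    upperUnip x * lowerUnip c = lowerUnip (c * ((t⁻¹ : (AF F)ˣ) : AF F)) *
      (scal F t⁻¹ * diagUnit (t * t)) * upperUnip (x * ((t⁻¹ : (AF F)ˣ) : AF F)) := by
  have h := t.inv_mul
  refine Units.ext ?_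
  rw [Units.val_mul, Units.val_mul, Units.val_mul, scal_mul_diag_val, lowerUnip_val, lowerUnip_val,
    Units.val_mul]
  ext a b
  fin_cases a <;> fin_cases b <;> simp [upperUnip, Matrix.mul_apply]
  · linear_combination -ht
  · linear_combination (-x) * h
  · linear_combination ((t⁻¹ : (AF F)ˣ) : AF F) * ht - h

/-- A congruence subgroup is the product of its unipotent and diagonal parts. -/
theorem exists_lu_decomp {r : ℕ} (hr : 0 < r) {k : GL (Fin 2) (AF F)}
    (he : ∀ a b, (k.1 - 1) a b ∈ lp P r) :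
    ∃ c ∈ lp P r, ∃ x ∈ lp P r, ∃ z : (AF F)ˣ, ∃ t ∈ lunit P r,
      k = lowerUnip c * (scal F z * diagUnit t) * upperUnip x := by
  have h00 : k.1 0 0 - 1 ∈ lp P r := by simpa using he 0 0
  have h01 : k.1 0 1 ∈ lp P r := by simpa using he 0 1
  have h10 : k.1 1 0 ∈ lp P r := by simpa using he 1 0
  have h11 : k.1 1 1 - 1 ∈ lp P r := by simpa using he 1 1
  obtain ⟨a, ha, hav⟩ := exists_lunit hr h00
  have hai := lunit_intAF ((lunit P r).inv_mem ha)
  set a' : AF F := ((a⁻¹ : (AF F)ˣ) : AF F)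
  obtain ⟨z, hz, hzv⟩ := exists_lunit hr (x := k.1 1 1 - k.1 1 0 * k.1 0 1 * a') (by
    rw [show k.1 1 1 - k.1 1 0 * k.1 0 1 * a' - 1 =
      (k.1 1 1 - 1) - a' * (k.1 1 0 * k.1 0 1) by ring]
    exact sub_mem h11 (mul_mem_lp_of_int hai (lp_anti (by omega) (mul_mem_lp h10 h01))))
  refine ⟨a' * k.1 1 0, mul_mem_lp_of_int hai h10, a' * k.1 0 1, mul_mem_lp_of_int hai h01, z,
    a * z⁻¹, mul_mem ha (inv_mem hz), ?_⟩
  have h1 := a.mul_inv
  have h2 := z.mul_inv
  refine Units.ext ?_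
  rw [Units.val_mul, Units.val_mul, scal_mul_diag_val, lowerUnip_val, Units.val_mul,
    Matrix.eta_fin_two k.1]
  ext i j
  fin_cases i <;> fin_cases j <;> simp [upperUnip, Matrix.mul_apply, a', ← hav]
  · linear_combination (-(a : AF F)) * h2
  · linear_combination (-(k.1 0 1) * (z : AF F) * ((z⁻¹ : (AF F)ˣ) : AF F)) * h1 - k.1 0 1 * h2
  · linear_combination (-(k.1 1 0) * (z : AF F) * ((z⁻¹ : (AF F)ˣ) : AF F)) * h1 - k.1 1 0 * h2
  · linear_combination (-(k.1 1 0) * k.1 0 1 * ((a⁻¹ : (AF F)ˣ) : AF F) * (z : AF F) *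
      ((z⁻¹ : (AF F)ˣ) : AF F)) * h1 -
      k.1 1 0 * k.1 0 1 * ((a⁻¹ : (AF F)ˣ) : AF F) * h2 - hzv

namespace Level

variable {S : Setup Φ} (L : Level S)

/-- Translations of a level and system are detected locally. -/
theorem inSys_of_fixed {v : Smooth Φ} (hs : Spherical v) (hsys : SysOff Φ L.N L.a v)
    (ha : ∀ k ∈ L.away, rho Φ k v = v) (hl : ∀ c ∈ lp S.P L.δ, rho Φ (lowerUnip c) v = v)
    (ht : TorusFixed (lunit S.P L.δ) v) (hu : UnipFixed S.P L.δ v) : InSys Φ L.N L.a v := by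
  refine ⟨isLevel_of_fixed L.hN fun k hk => ?_, hs, hsys⟩
  have h1 : part S.hw S.hw0 k ∈ principalSubgroup (lv F L.N) := part_mem_principalSubgroup _ _ hk
  obtain ⟨c, hc, x, hx, z, t, htm, e⟩ := exists_lu_decomp L.hδ
    (sub_one_mem_lp_of_level L.hexp (part_mem_localGroup S.hw S.hw0 k) h1)
  rw [← part_mul_copart S.hw S.hw0 k, rho_mul,
    ha _ ⟨copart_mem_principalSubgroup _ _ hk, copart_mem_awayGroup _ _ _⟩, e, rho_mul, rho_mul,
    rho_mul, hu x hx, ht t htm, rho_scal, hl c hc]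

variable {L} {u : Smooth Φ} (h : InSys Φ L.N L.a u)

include h

theorem fixed_away {k : GL (Fin 2) (AF F)} (hk : k ∈ L.away) : rho Φ k u = u :=
  rho_of_mem_level h.level (Subgroup.mem_sup_left hk.1)

theorem fixed_level_of_lp {k : GL (Fin 2) (AF F)} (hk : k ∈ localK S.hw S.hw0)
    (he : ∀ a b, (k.1 - 1) a b ∈ lp S.P L.δ) : rho Φ k u = u :=
  rho_of_mem_level h.level (Subgroup.mem_sup_left (mem_level_of_lp L.hexp L.hδ hk he))

theorem fixed_upper {x : AF F} (hx : x ∈ lp S.P L.δ) : rho Φ (upperUnip x) u = u := by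
  refine fixed_level_of_lp h ⟨upperUnip_local hx, upperUnip_mem_top (lp_le_intAF (by omega) hx)⟩
    fun a b => ?_
  fin_cases a <;> fin_cases b <;> simp [upperUnip, zero_mem, hx]

theorem fixed_lower {c : AF F} (hc : c ∈ lp S.P L.δ) : rho Φ (lowerUnip c) u = u := by
  refine fixed_level_of_lp h ⟨(mem_localGroup S.hw S.hw0).mpr fun a b => ?_,
    lowerUnip_mem_top (lp_le_intAF (by omega) hc)⟩ fun a b => ?_
  · fin_cases a <;> fin_cases b <;> simp [lp_local hc]
  · fin_cases a <;> fin_cases b <;> simp [zero_mem, hc]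

theorem fixed_diag {t : (AF F)ˣ} (ht : t ∈ lunit S.P L.δ) : rho Φ (diagUnit t) u = u := by
  refine fixed_level_of_lp h (diagUnit_localK ht) fun a b => ?_
  fin_cases a <;> fin_cases b <;> simp [diagUnit, zero_mem, ht.1]

/-- Squares of units near one fix the vectors fixed by many upper unipotents. -/
theorem fixed_diag_sq {α : ℤ} (hf : UnipFixed S.P α u) {t : (AF F)ˣ}
    (ht : t ∈ lunit S.P (α + L.δ).toNat) : rho Φ (diagUnit (t * t)) u = u := by
  set ε := placeAF S.hw S.hw0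
  have hti : (t⁻¹ : (AF F)ˣ) ∈ lunit S.P (α + L.δ).toNat := inv_mem ht
  set x : AF F := ((t : AF F) - 1) * (ε * pz S.P (-(L.δ : ℤ))) with hxdef
  set c : AF F := ε * pz S.P (L.δ : ℤ) with hcdef
  have hx : x ∈ lp S.P α := by
    have h1 :=
        mul_mem_lp (lp_anti (Int.self_le_toNat _) ht.1) (placeAF_pz_mem (P := S.P) (-(L.δ : ℤ)))
    rwa [show α + (L.δ : ℤ) + -(L.δ : ℤ) = α by ring] at h1
  have hc : c ∈ lp S.P L.δ := placeAF_pz_mem _
  have htx : (t : AF F) = 1 + x * c := by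
    have h1 := pz_neg_mul (P := S.P) (i := (L.δ : ℤ))
    have h2 := lp_local ht.1
    rw [hxdef, hcdef]
    linear_combination (-((t : AF F) - 1) * ε * ε) * h1 - ((t : AF F) - 1) *
      placeAF_mul_self S.hw S.hw0 - h2
  have hx' : x * ((t⁻¹ : (AF F)ˣ) : AF F) ∈ lp S.P α := by
    rw [mul_comm]; exact mul_lunit_mem hti hx
  have hc' : -(c * ((t⁻¹ : (AF F)ˣ) : AF F)) ∈ lp S.P L.δ := by
    rw [mul_comm]; exact neg_mem (mul_lunit_mem hti hc)
  have e : rho Φ (upperUnip x * lowerUnip c) u = u := by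
    rw [rho_mul, fixed_lower h hc, hf x hx]
  rw [upper_mul_lower htx, rho_mul, rho_mul, rho_mul, hf _ hx', rho_scal] at e
  have e2 := congrArg (rho Φ (lowerUnip (-(c * ((t⁻¹ : (AF F)ˣ) : AF F))))) e
  rw [fixed_lower h hc', ← rho_mul] at e2
  rw [show lowerUnip (-(c * ((t⁻¹ : (AF F)ˣ) : AF F))) * lowerUnip (c * ((t⁻¹ : (AF F)ˣ) : AF F)) =
    1 from Units.ext (by rw [Units.val_mul]; ext i j; fin_cases i <;> fin_cases j <;>
      simp [Matrix.mul_apply]), map_one] at e2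
  exact e2

end Level

namespace Level

variable {S : Setup Φ} (L : Level S)

omit [Fintype ι] [DecidableEq ι] in
theorem mem_w : (L.N : 𝓞 F) ∈ S.w := by
  by_contra hn
  obtain ⟨v, hv⟩ := L.hexp
  have hnd : ¬ S.w ∣ lv F L.N := fun hd => hn
    (Ideal.dvd_iff_le.mp hd (Ideal.mem_span_singleton_self _))
  obtain ⟨π₀, hπ, hspan⟩ := S.P.eq_localGenerator
  have hcop : S.w ⊔ lv F L.N = ⊤ := (S.hw.isMaximal S.hw0).out.2 _
    (lt_of_le_of_ne le_sup_left fun e => hnd (Ideal.dvd_iff_le.mpr (e ▸ le_sup_right)))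
  obtain ⟨x, hx, y, hy, hxy⟩ := Submodule.mem_sup.mp (hcop ▸ Submodule.mem_top :
    (1 : 𝓞 F) ∈ S.w ⊔ lv F L.N)
  obtain ⟨z, rfl⟩ := Ideal.mem_span_singleton'.mp hy
  obtain ⟨m, hm⟩ := Nat.exists_eq_succ_of_ne_zero L.hδ.ne'
  rw [hm, placeAF, ← hπ, ← map_natCast (intHom F), ← map_pow, ← map_mul, ← map_mul, ← map_mul]
    at hv
  have hv' := intHom_injective hv
  have h1 : placeIdem S.hw S.hw0 * (L.N : OH F) ∈ idealOH S.w := by
    rw [hv', hspan, pow_succ]
    exact Ideal.mem_span_singleton.mpr ⟨placeIdem S.hw S.hw0 * (π₀ ^ m * (v : OH F)), by ring⟩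
  refine placeIdem_not_mem S.hw S.hw0 ?_
  have e : placeIdem S.hw S.hw0 = placeIdem S.hw S.hw0 * (x ⊗ₜ[ℤ] (1 : Zhat)) +
      (z ⊗ₜ[ℤ] (1 : Zhat)) * (placeIdem S.hw S.hw0 * (L.N : OH F)) := by
    have h2 := congrArg (Algebra.TensorProduct.includeLeftRingHom : 𝓞 F →+* OH F) hxy
    rw [map_add, map_one, map_mul, map_natCast] at h2
    have h3 : placeIdem S.hw S.hw0 * ((x ⊗ₜ[ℤ] (1 : Zhat)) + (z ⊗ₜ[ℤ] (1 : Zhat)) * (L.N : OH F)) =
        placeIdem S.hw S.hw0 * 1 := congrArg _ h2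
    linear_combination -h3
  rw [e]
  exact add_mem (Ideal.mul_mem_left _ _ (tmul_one_mem_idealOH hx)) (Ideal.mul_mem_left _ _ h1)

/-- The conditions on a vector away from `w`. -/
structure Pre (v : Smooth Φ) : Prop where
  spherical : Spherical v
  sys : SysOff Φ L.N L.a v
  fixed : ∀ k ∈ L.away, rho Φ k v = v
  cusp : CuspVec v

/-- The vectors with the conditions away from `w`. -/
def preSub : Submodule ℂ (Smooth Φ) where
  carrier := {v | L.Pre v}
  zero_mem' := ⟨Spherical.zero, fun _ hv hv0 _ => EigenAt.zero hv hv0 _, fun _ _ => map_zero _,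
    cuspVec_zero Φ⟩
  add_mem' h h' := ⟨h.spherical.add h'.spherical,
    fun v hv hv0 hvN => (h.sys v hv hv0 hvN).add (h'.sys v hv hv0 hvN),
    fun k hk => by rw [map_add, h.fixed k hk, h'.fixed k hk], h.cusp.add h'.cusp⟩
  smul_mem' c _ h := ⟨h.spherical.smul c, fun v hv hv0 hvN => (h.sys v hv hv0 hvN).smul c,
    fun k hk => by rw [map_smul, h.fixed k hk], h.cusp.smul c⟩

variable {L}

theorem pre_of_sys {u : Smooth Φ} (h : InSys Φ L.N L.a u) (hc : CuspVec u) : L.Pre u :=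
  ⟨h.spherical, h.sys, fun _ hk => fixed_away h hk, hc⟩

theorem Pre.rho_local {v : Smooth Φ} (h : L.Pre v) {g : GL (Fin 2) (AF F)}
    (hg : g ∈ localGroup S.hw S.hw0) : L.Pre (rho Φ g v) := by
  refine ⟨h.spherical.translate g, fun x hx hx0 hxN => ?_, fun k hk => ?_, h.cusp.rho g⟩
  · have hne : x ≠ S.w := fun e => natCast_notMem hxN (e.symm ▸ L.mem_w)
    have hga : g ∈ awayGroup hx hx0 := away_of_local hne hg
    exact (h.sys x hx hx0 hxN).rho_away hga
  rw [← rho_mul, ← (commute_away hg hk.2).eq, rho_mul, h.fixed k hk]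

omit [Fintype ι] [DecidableEq ι] in
theorem exists_pow_local (M₀ : ℕ) (hM₀ : M₀ ≠ 0) :
    ∃ e₀ : ℕ, ∀ e, e₀ ≤ e → ∀ k ∈ localK S.hw S.hw0,
      k ∈ principalSubgroup (lv F (L.N ^ (e + 1))) → k ∈ principalSubgroup (lv F M₀) := by
  by_cases hw0' : (M₀ : 𝓞 F) ∈ S.w
  · obtain ⟨δ₀, hδ₀, h0⟩ := exists_hasExp (P := S.P) hM₀ hw0'
    refine ⟨δ₀, fun e he k hk hkN => mem_level_of_lp h0 hδ₀ hk fun a b => ?_⟩
    obtain ⟨v, hv⟩ := L.hexp
    have hexp : HasExp S.P (L.N ^ (e + 1)) (L.δ * (e + 1)) := by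
      refine ⟨v ^ (e + 1), ?_⟩
      have hidem : placeAF S.hw S.hw0 ^ (e + 1) = placeAF S.hw S.hw0 :=
        IsIdempotentElem.pow_eq (placeAF_mul_self S.hw S.hw0) e.succ_ne_zero
      have h1 := congrArg (· ^ (e + 1)) hv
      simp only [mul_pow, hidem, ← pow_mul] at h1
      rw [Nat.cast_pow, Units.val_pow_eq_pow_val, map_pow]
      exact h1
    refine lp_anti ?_ (sub_one_mem_lp_of_level hexp hk.1 hkN a b)
    have h2 : δ₀ ≤ L.δ * (e + 1) :=
      he.trans (Nat.le_succ e) |>.trans (Nat.le_mul_of_pos_left _ L.hδ)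
    exact_mod_cast h2
  · exact ⟨0, fun e _ k hk _ => localK_le_principalSubgroup S.hw S.hw0
      (fun hd => hw0' (Ideal.dvd_iff_le.mp hd (Ideal.mem_span_singleton_self _))) hk⟩

theorem Pre.exists_inSys {v : Smooth Φ} (h : L.Pre v) :
    ∃ e : ℕ, InSys Φ (L.N ^ (e + 1)) L.a v := by
  obtain ⟨M₀, hM₀⟩ := v.2
  obtain ⟨e, he⟩ := exists_pow_local (L := L) M₀ hM₀.ne_zero
  refine ⟨e, isLevel_of_fixed (pow_ne_zero _ L.hN) fun k hk => ?_, h.spherical,
    h.sys.mono (dvd_pow_self _ e.succ_ne_zero)⟩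
  rw [← part_mul_copart S.hw S.hw0 k, rho_mul,
    h.fixed _ ⟨principalSubgroup_mono (lv_le (dvd_pow_self _ e.succ_ne_zero))
      (copart_mem_principalSubgroup _ _ hk), copart_mem_awayGroup _ _ _⟩]
  exact rho_of_mem_level hM₀ (Subgroup.mem_sup_left (he e le_rfl _
    (part_mem_localK _ _ (principalSubgroup_mono le_top hk)) (part_mem_principalSubgroup _ _ hk)))

end Level

end Tame

end FLTAgent.LanglandsTunnell.Isolation
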