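import Fermat.Agent.LanglandsTunnell.Isolation.Tame.Bump
import Fermat.Agent.LanglandsTunnell.Isolation.Tame.Local
import Fermat.Agent.LanglandsTunnell.Isolation.Compress

/-!
# The pool at a fixed tame place

The pool vectors form at most one irreducible system under the averaged translations at the other
places of the level, the twist has nonzero trace on it, and maps into the pool split traces.
-/

set_option autoImplicit false

noncomputable section

namespace FLTAgent.LanglandsTunnell.Isolation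

open FLTAgent.LanglandsTunnell NumberField Matrix MeasureTheory Function
open FLTAgent.LanglandsTunnell.Expansion (psi)
open scoped InnerProductSpace ComplexConjugate

namespace Tame

variable {F : Type} [Field F] [NumberField F] {ι : Type} [Fintype ι] [DecidableEq ι]
  {Φ : PlaceChoice F ι}

omit [DecidableEq ι] in
/-- The trace splits along the kernel and the image of a commuting map. -/
theorem trace_restrict_split (Θ Λ : Smooth Φ →ₗ[ℂ] Smooth Φ) (V : Submodule ℂ (Smooth Φ))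
    [FiniteDimensional ℂ V] (hV : ∀ u ∈ V, Θ u ∈ V) (hΛ : ∀ v ∈ V, Λ (Θ v) = Θ (Λ v))
    (K : Submodule ℂ (Smooth Φ)) (hK : ∀ u ∈ K, Θ u ∈ K) (hKV : K = V ⊓ LinearMap.ker Λ)
    (W : Submodule ℂ (Smooth Φ)) (hW : ∀ u ∈ W, Θ u ∈ W) (hWV : W = V.map Λ) :
    LinearMap.trace ℂ V (Θ.restrict hV) =
      LinearMap.trace ℂ K (Θ.restrict hK) + LinearMap.trace ℂ W (Θ.restrict hW) := by
  subst hKV hWV
  have : FiniteDimensional ℂ (V ⊓ LinearMap.ker Λ : Submodule ℂ (Smooth Φ)) :=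
    Submodule.finiteDimensional_of_le inf_le_left
  have : FiniteDimensional ℂ (V.map Λ) := inferInstance
  let g : V →ₗ[ℂ] V.map Λ := Λ.submoduleMap V
  obtain ⟨s, hs⟩ := g.exists_rightInverse_of_surjective
    (LinearMap.range_eq_top.mpr (Λ.submoduleMap_surjective V))
  have hgs : ∀ y, g (s y) = y := fun y => LinearMap.congr_fun hs y
  let p : V →ₗ[ℂ] (V ⊓ LinearMap.ker Λ : Submodule ℂ (Smooth Φ)) :=
    LinearMap.codRestrict _ (V.subtype ∘ₗ (1 - s ∘ₗ g)) fun v => by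
      refine ⟨((1 - s ∘ₗ g) v).2, LinearMap.mem_ker.mpr ?_⟩
      have h := congrArg Subtype.val (hgs (g v))
      show Λ ((v : Smooth Φ) - (s (g v) : Smooth Φ)) = 0
      rw [map_sub, sub_eq_zero]
      exact h.symm
  let incl := Submodule.inclusion (inf_le_left : V ⊓ LinearMap.ker Λ ≤ V)
  set T := Θ.restrict hV
  have hT : T = (incl ∘ₗ (Θ.restrict hK ∘ₗ p)) + (T ∘ₗ (s ∘ₗ g)) := by
    refine LinearMap.ext fun v => Subtype.ext ?_
    show Θ v = Θ ((v : Smooth Φ) - s (g v)) + Θ (s (g v))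
    rw [map_sub, sub_add_cancel]
  have hp : p ∘ₗ incl = LinearMap.id := by
    refine LinearMap.ext fun v => Subtype.ext ?_
    have hg : g (incl v) = 0 := Subtype.ext v.2.2
    show (v : Smooth Φ) - (s (g (incl v)) : Smooth Φ) = v
    rw [hg, map_zero, ZeroMemClass.coe_zero, sub_zero]
  have hgT : (g ∘ₗ T) ∘ₗ s = Θ.restrict hW := by
    refine LinearMap.ext fun y => Subtype.ext ?_
    show Λ (Θ (s y : Smooth Φ)) = Θ y
    rw [hΛ _ (s y).2]
    exact congrArg Θ (congrArg Subtype.val (hgs y))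
  conv_lhs => rw [hT, map_add]
  rw [LinearMap.trace_comp_comm' (Θ.restrict hK ∘ₗ p) incl, LinearMap.comp_assoc, hp,
    LinearMap.comp_id, ← LinearMap.comp_assoc g s T, LinearMap.trace_comp_comm' g (T ∘ₗ s),
    ← LinearMap.comp_assoc, hgT]

omit [DecidableEq ι] in
theorem trace_restrict_congr (Θ : Smooth Φ →ₗ[ℂ] Smooth Φ) {A B : Submodule ℂ (Smooth Φ)}
    (h : A = B) (hA : ∀ u ∈ A, Θ u ∈ A) (hB : ∀ u ∈ B, Θ u ∈ B) :
    LinearMap.trace ℂ A (Θ.restrict hA) = LinearMap.trace ℂ B (Θ.restrict hB) := by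
  subst h; rfl

namespace Level

variable {S : Setup Φ} (L : Level S)

omit [Fintype ι] [DecidableEq ι] in
theorem natCast_pow_mem_iff {v : Ideal (𝓞 F)} (hv : v.IsPrime) (e : ℕ) :
    ((L.N ^ (e + 1) : ℕ) : 𝓞 F) ∈ v ↔ (L.N : 𝓞 F) ∈ v := by
  rw [Nat.cast_pow]
  exact hv.pow_mem_iff_mem _ e.succ_pos

omit [Fintype ι] [DecidableEq ι] in
theorem pow_ne_zero' (e : ℕ) : L.N ^ (e + 1) ≠ 0 := pow_ne_zero _ L.hN

namespace InPool

variable {L} {u u' : Smooth Φ}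

theorem add (h : L.InPool u) (h' : L.InPool u') : L.InPool (u + u') where
  sys := by
    obtain ⟨e, he⟩ := h.sys
    obtain ⟨e', he'⟩ := h'.sys
    exact ⟨max e e', (he.mono (L.pow_ne_zero' _) (pow_dvd_pow _ (by omega))).add
      (he'.mono (L.pow_ne_zero' _) (pow_dvd_pow _ (by omega)))⟩
  cusp := h.cusp.add h'.cusp
  fixed k hk := by rw [map_add, h.fixed k hk, h'.fixed k hk]
  eigen x hx := by rw [map_add, h.eigen x hx, h'.eigen x hx, smul_add]
  torus t ht := by rw [map_add, h.torus t ht, h'.torus t ht]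

theorem smul (c : ℂ) (h : L.InPool u) : L.InPool (c • u) where
  sys := h.sys.imp fun _ he => he.smul c
  cusp := h.cusp.smul c
  fixed k hk := by rw [map_smul, h.fixed k hk]
  eigen x hx := by rw [map_smul, h.eigen x hx, smul_comm]
  torus t ht := by rw [map_smul, h.torus t ht]

end InPool

/-- The images of stable spaces under maps commuting with the translations away from `w`. -/
theorem stable_map {W : Submodule ℂ (Smooth Φ)} (hW : L.Stable W) (Λ : Smooth Φ →ₗ[ℂ] Smooth Φ)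
    (hΛ : ∀ k ∈ awayGroup S.hw S.hw0, ∀ v, Λ (rho Φ k v) = rho Φ k (Λ v)) :
    L.Stable (W.map Λ) := by
  intro v hv h hh x hx
  obtain ⟨u, hu, rfl⟩ := Submodule.mem_map.mp hx
  refine ⟨orbitAvg L.away L.away_le (rho Φ h u), hW v hv h hh u hu, ?_⟩
  rw [map_orbitAvg' L.away_le Λ (fun k hk => hΛ k hk.2), hΛ h (away_of_local hv.ne_w.symm hh)]

theorem stable_inf_ker {W : Submodule ℂ (Smooth Φ)} (hW : L.Stable W) (Λ : Smooth Φ →ₗ[ℂ] Smooth Φ)
    (hΛ : ∀ k ∈ awayGroup S.hw S.hw0, ∀ v, Λ (rho Φ k v) = rho Φ k (Λ v)) :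
    L.Stable (W ⊓ LinearMap.ker Λ) := by
  intro v hv h hh u hu
  refine ⟨hW v hv h hh u hu.1, LinearMap.mem_ker.mpr ?_⟩
  rw [map_orbitAvg' L.away_le Λ (fun k hk => hΛ k hk.2), hΛ h (away_of_local hv.ne_w.symm hh),
    LinearMap.mem_ker.mp hu.2, map_zero, orbitAvg_zero]

/-- The level away from `w` with the free places. -/
abbrev freeData : FreeData F where
  H := L.away
  le_top := L.away_le
  Free := L.Free
  prime h := h.prime
  ne_bot h := h.ne_bot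
  part_mem hv _ hq :=
    ⟨part_mem_principalSubgroup _ _ hq.1,
      away_of_local hv.ne_w.symm (part_mem_localGroup hv.prime hv.ne_bot _)⟩

/-- **Orthogonality in the pool.** -/
theorem pool_orth (W : Submodule ℂ (Smooth Φ)) (hW : ∀ u ∈ W, L.InPool u) (hs : L.Stable W)
    (hne : W ≠ ⊥) {f : Smooth Φ} (hf : L.InPool f) (ho : ∀ u ∈ W, ⟪u, f⟫_ℂ = 0) : f = 0 := by
  by_contra hf0
  obtain ⟨u₀, hu₀, hu0⟩ := Submodule.exists_mem_ne_zero_of_ne_bot hne
  obtain ⟨e, he⟩ := hf.sys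
  obtain ⟨e', he'⟩ := (hW u₀ hu₀).sys
  set E := max e e'
  obtain ⟨g₀, hgw, hg₀, hpair⟩ := exists_inner_away S.hd (n := L.δ)
    ((L.natCast_pow_mem_iff S.hw E).mpr L.mem_w) L.hδ
    (he.mono (L.pow_ne_zero' _) (pow_dvd_pow _ (by omega)))
    (he'.mono (L.pow_ne_zero' _) (pow_dvd_pow _ (by omega)))
    hf0 hu0 hf.cusp (hW u₀ hu₀).cusp hf.eigen (hW u₀ hu₀).eigen hf.torus (hW u₀ hu₀).torus
  refine hpair ?_
  suffices H : ∀ u ∈ W, ⟪f, rho Φ g₀ u⟫_ℂ = 0 from H u₀ hu₀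
  refine inPlaces_induction (S := placesOf F (L.N ^ (E + 1)) \ {S.w})
    ((finite_placesOf (L.pow_ne_zero' E)).sdiff)
    (p := fun g => ∀ u ∈ W, ⟪f, rho Φ g u⟫_ℂ = 0) ?_ ?_ ?_
  · intro u hu
    rw [map_one]
    show ⟪f, u⟫_ℂ = 0
    rw [← inner_conj_symm, ho u hu, map_zero]
  · intro x hx hx0 hxS h hh g hg _ ih u hu
    have hfree : L.Free x := ⟨hx, hx0, (L.natCast_pow_mem_iff hx E).mp hxS.1.2, hxS.2⟩
    rw [(commute_away hh hg).eq, rho_mul,
      ← L.freeData.inner_compress hfree hh hg hf.fixed (hW u hu).fixed]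
    exact ih _ (hs x hfree h hh u hu)
  · intro x hx hx0 hxS
    by_cases hxw : x = S.w
    · subst hxw; exact hgw
    · exact supportedAt_inPlaces hg₀ x hx hx0 fun h => hxS ⟨h, hxw⟩

/-- **Uniqueness of the pool system.** -/
theorem pool_unique (W W' : Submodule ℂ (Smooth Φ)) [FiniteDimensional ℂ W] [FiniteDimensional ℂ W']
    (hW : ∀ u ∈ W, L.InPool u) (hs : L.Stable W) (hne : W ≠ ⊥)
    (hW' : ∀ u ∈ W', L.InPool u) (hs' : L.Stable W') (hne' : W' ≠ ⊥) : W = W' := by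
  have key : ∀ (A B : Submodule ℂ (Smooth Φ)) [FiniteDimensional ℂ A], (∀ u ∈ A, L.InPool u) →
      L.Stable A → A ≠ ⊥ → (∀ u ∈ B, L.InPool u) → B ≤ A := by
    intro A B _ hA hsA hneA hB f hf
    have : CompleteSpace A := FiniteDimensional.complete ℂ A
    set p : Smooth Φ := A.starProjection f
    have hp : p ∈ A := A.starProjection_apply_mem f
    have h0 : f - p = 0 := by
      refine L.pool_orth A hA hsA hneA ?_ fun u hu => ?_
      · rw [sub_eq_add_neg, ← neg_one_smul ℂ p]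
        exact (hB f hf).add ((hA p hp).smul _)
      · exact Submodule.inner_right_of_mem_orthogonal hu (A.sub_starProjection_mem_orthogonal f)
    rw [sub_eq_zero.mp h0]
    exact hp
  exact le_antisymm (key W' W hW' hs' hne' hW) (key W W' hW hs hne hW')

theorem gl_mem_away {k : GL (Fin 2) (AF F)} (hk : k ∈ L.away) : S.T.gl k ∈ L.away := by
  refine ⟨?_, S.T.gl_awayGroup S.fixed hk.2⟩
  have h1 := S.T.gl_mem_principalSubgroup hk.1
  rwa [S.T.ideal_lv] at h1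

theorem gl_symm_mem_away {k : GL (Fin 2) (AF F)} (hk : k ∈ L.away) : S.T.symm.gl k ∈ L.away := by
  refine ⟨?_, S.T.symm.gl_awayGroup (S.T.symm_ideal S.fixed) hk.2⟩
  have h1 := S.T.symm.gl_mem_principalSubgroup hk.1
  rwa [S.T.symm.ideal_lv] at h1

theorem free_ideal {v : Ideal (𝓞 F)} (hv : L.Free v) : L.Free (S.T.ideal v) where
  prime := S.T.ideal_isPrime hv.prime
  ne_bot := S.T.ideal_ne_bot hv.ne_bot
  mem_N := (S.T.natCast_mem_ideal L.N).mpr hv.mem_N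
  ne_w h := hv.ne_w (by
    ext x
    rw [← S.T.mem_ideal (w := v), h, ← S.fixed, S.T.mem_ideal, S.fixed])

/-- **The trace on the pool.** -/
theorem trace_pool_ne_zero {W : Submodule ℂ (Smooth Φ)} [FiniteDimensional ℂ W]
    (hW : ∀ u ∈ W, L.InPool u) (hs : L.Stable W) (hne : W ≠ ⊥) (hΘ : ∀ u ∈ W, S.T.twist u ∈ W)
    (pos : Ideal (𝓞 F) → Fin 3) (hpos : ∀ v, L.Free v → pos (S.T.ideal v) = pos v + 1) :
    LinearMap.trace ℂ W (S.T.twist.restrict hΘ) ≠ 0 :=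
  L.freeData.trace_twist_ne_zero hs (fun u hu => (hW u hu).fixed) S.T S.cube hne hΘ
    (fun _ => L.gl_mem_away) (fun _ => L.gl_symm_mem_away) (fun _ => L.free_ideal) pos hpos
    fun U hU hsU hneU f hf => L.pool_orth U (fun u hu => hW u (hU hu)) hsU hneU (hW f hf)

/-- **Maps into the pool split the trace.** -/
theorem trace_maps (V : Submodule ℂ (Smooth Φ)) [FiniteDimensional ℂ V] (hs : L.Stable V)
    (hΘ : ∀ u ∈ V, S.T.twist u ∈ V) (Λs : Finset (Smooth Φ →ₗ[ℂ] Smooth Φ))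
    (h1 : ∀ Λ ∈ Λs, ∀ v ∈ V, L.InPool (Λ v))
    (h2 : ∀ Λ ∈ Λs, ∀ k ∈ awayGroup S.hw S.hw0, ∀ v, Λ (rho Φ k v) = rho Φ k (Λ v))
    (h3 : ∀ Λ ∈ Λs, ∀ v ∈ V, Λ (S.T.twist v) = S.T.twist (Λ v))
    (W₀ : Submodule ℂ (Smooth Φ)) [FiniteDimensional ℂ W₀] (hW₀ : ∀ u ∈ W₀, L.InPool u)
    (hs₀ : L.Stable W₀) (hne₀ : W₀ ≠ ⊥) (h0 : ∀ u ∈ W₀, S.T.twist u ∈ W₀)
    (hK : ∀ u ∈ V ⊓ ⨅ Λ ∈ Λs, LinearMap.ker Λ, S.T.twist u ∈ V ⊓ ⨅ Λ ∈ Λs, LinearMap.ker Λ) :
    ∃ m : ℕ, LinearMap.trace ℂ V (S.T.twist.restrict hΘ) =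
        LinearMap.trace ℂ (V ⊓ ⨅ Λ ∈ Λs, LinearMap.ker Λ : Submodule ℂ (Smooth Φ))
          (S.T.twist.restrict hK) + (m : ℂ) * LinearMap.trace ℂ W₀ (S.T.twist.restrict h0) ∧
      (V ⊓ (⨅ Λ ∈ Λs, LinearMap.ker Λ) ≠ V → 0 < m) := by
  classical
  induction Λs using Finset.induction generalizing V with
  | empty =>
    have e : V ⊓ (⨅ Λ ∈ (∅ : Finset (Smooth Φ →ₗ[ℂ] Smooth Φ)), LinearMap.ker Λ) = V := by simp
    exact ⟨0, by rw [trace_restrict_congr _ e hK hΘ, Nat.cast_zero, zero_mul, add_zero],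
      fun h => (h e).elim⟩
  | @insert Λ Λs hΛ ih =>
    have hΛ2 := h2 Λ (Finset.mem_insert_self _ _)
    have hΛ3 := h3 Λ (Finset.mem_insert_self _ _)
    set V₁ := V ⊓ LinearMap.ker Λ with hV₁
    have hΘ₁ : ∀ u ∈ V₁, S.T.twist u ∈ V₁ := fun u hu => ⟨hΘ u hu.1, LinearMap.mem_ker.mpr (by
      rw [hΛ3 u hu.1, LinearMap.mem_ker.mp hu.2, map_zero])⟩
    have : FiniteDimensional ℂ V₁ := Submodule.finiteDimensional_of_le inf_le_left
    have hΘW : ∀ u ∈ V.map Λ, S.T.twist u ∈ V.map Λ := by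
      intro u hu
      obtain ⟨v, hv, rfl⟩ := Submodule.mem_map.mp hu
      exact ⟨_, hΘ v hv, hΛ3 v hv⟩
    have eK : V ⊓ (⨅ Γ ∈ insert Λ Λs, LinearMap.ker Γ) = V₁ ⊓ ⨅ Γ ∈ Λs, LinearMap.ker Γ := by
      rw [Finset.iInf_insert, hV₁, inf_assoc]
    have hK₁ : ∀ u ∈ V₁ ⊓ ⨅ Γ ∈ Λs, LinearMap.ker Γ,
        S.T.twist u ∈ V₁ ⊓ ⨅ Γ ∈ Λs, LinearMap.ker Γ := fun u hu => eK ▸ hK u (eK.symm ▸ hu)
    obtain ⟨m, hm, hpos⟩ := ih V₁ (L.stable_inf_ker hs Λ hΛ2) hΘ₁
      (fun Γ hΓ v hv => h1 Γ (Finset.mem_insert_of_mem hΓ) v hv.1)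
      (fun Γ hΓ => h2 Γ (Finset.mem_insert_of_mem hΓ))
      (fun Γ hΓ v hv => h3 Γ (Finset.mem_insert_of_mem hΓ) v hv.1) hK₁
    have hsplit := trace_restrict_split S.T.twist Λ V hΘ hΛ3 V₁ hΘ₁ rfl (V.map Λ) hΘW rfl
    rw [trace_restrict_congr _ eK hK hK₁]
    by_cases hbot : V.map Λ = ⊥
    · have hV : V₁ = V := inf_eq_left.mpr fun v hv => LinearMap.mem_ker.mpr
        ((Submodule.mem_bot ℂ).mp (hbot ▸ Submodule.mem_map_of_mem hv))
      refine ⟨m, ?_, fun h => hpos fun h' => h (eK.trans (h'.trans hV))⟩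
      rw [hsplit, hm, trace_restrict_congr _ hbot hΘW (fun u hu => by
        rw [(Submodule.mem_bot ℂ).mp hu, map_zero]; exact zero_mem _)]
      have hz : ∀ f : Module.End ℂ (⊥ : Submodule ℂ (Smooth Φ)),
          LinearMap.trace ℂ (⊥ : Submodule ℂ (Smooth Φ)) f = 0 := fun f => by
        rw [Subsingleton.elim f 0, map_zero]
      rw [hz, add_zero]
    · have hW : V.map Λ = W₀ := L.pool_unique _ W₀ (fun u hu => by
        obtain ⟨v, hv, rfl⟩ := Submodule.mem_map.mp hu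
        exact h1 Λ (Finset.mem_insert_self _ _) v hv) (L.stable_map hs Λ hΛ2) hbot hW₀ hs₀ hne₀
      refine ⟨m + 1, ?_, fun _ => m.succ_pos⟩
      rw [hsplit, hm, trace_restrict_congr _ hW hΘW h0, Nat.cast_succ, add_one_mul, add_assoc]

end Level

end Tame

end FLTAgent.LanglandsTunnell.Isolation
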