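import Fermat.Agent.LanglandsTunnell.Isolation.Tame.Fil

/-!
# The filtration at the orders prime to three

The trace of the twist does not change along a step of the filtration of order prime to three.
-/

set_option autoImplicit false

noncomputable section

namespace FLTAgent.LanglandsTunnell.Isolation

open FLTAgent.LanglandsTunnell NumberField Matrix Function
open FLTAgent.LanglandsTunnell.Expansion

namespace Tame

variable {F : Type} [Field F] [NumberField F] {ι : Type} [Fintype ι] [DecidableEq ι]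
  {Φ : PlaceChoice F ι} {w : Ideal (𝓞 F)} {hw : w.IsPrime} {hw0 : w ≠ ⊥}

/-- The upper unipotents of order `i`. -/
def upperSub (P : LocalParams hw hw0) (i : ℤ) : Subgroup (GL (Fin 2) (AF F)) where
  carrier := upperUnip '' (lp P i : Set (AF F))
  one_mem' := ⟨0, zero_mem _, upperUnip_zero⟩
  mul_mem' := by
    rintro _ _ ⟨x, hx, rfl⟩ ⟨y, hy, rfl⟩
    exact ⟨x + y, add_mem hx hy, upperUnip_add x y⟩
  inv_mem' := by
    rintro _ ⟨x, hx, rfl⟩
    refine ⟨-x, neg_mem hx, eq_inv_of_mul_eq_one_left ?_⟩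
    rw [← upperUnip_add, neg_add_cancel, upperUnip_zero]

/-- The diagonal matrix of the square of a unit. -/
def sqDiag : (AF F)ˣ →* GL (Fin 2) (AF F) where
  toFun t := diagUnit (t * t)
  map_one' := by rw [mul_one, ← diagHom_apply, map_one]
  map_mul' s t := (congrArg diagUnit (mul_mul_mul_comm s t s t)).trans (diagUnit_mul _ _)

namespace Setup

variable (S : Setup Φ)

/-- The squares of the units of order `r`, as diagonal matrices. -/
def squareTorus (r : ℕ) : Subgroup (GL (Fin 2) (AF F)) :=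
  (lunit S.P r).map sqDiag

omit [Fintype ι] [DecidableEq ι] in
theorem mem_squareTorus {r : ℕ} {k : GL (Fin 2) (AF F)} :
    k ∈ S.squareTorus r ↔ ∃ t ∈ lunit S.P r, k = diagUnit (t * t) := by
  simp only [squareTorus, Subgroup.mem_map]
  exact exists_congr fun t => and_congr_right fun _ => eq_comm

end Setup

namespace Level

variable {S : Setup Φ} (L : Level S)

omit [DecidableEq ι] in
theorem rho_upper_upper (x y : AF F) (v : Smooth Φ) :
    rho Φ (upperUnip x) (rho Φ (upperUnip y) v) = rho Φ (upperUnip (x + y)) v := by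
  rw [← rho_mul, upperUnip_add]

variable {L} {α : ℤ} {r : ℕ}

/-- The unipotents of order `α - 1` preserve the fixed vectors of the squares. -/
theorem upper_mem_square (hr : (r : ℤ) = α - 1 + L.δ) (h1 : 1 ≤ r) {v : Smooth Φ}
    (hv : v ∈ L.fil α ⊓ fixedSub Φ (S.squareTorus r)) {x : AF F} (hx : x ∈ lp S.P (α - 1)) :
    rho Φ (upperUnip x) v ∈ L.fil α ⊓ fixedSub Φ (S.squareTorus r) := by
  obtain ⟨⟨hs, hf⟩, hsq⟩ := hv
  have htor : ∀ {m : ℕ} {t : (AF F)ˣ}, 1 ≤ m → t ∈ lunit S.P m → rho Φ (diagUnit t) v = v →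
      rho Φ (diagUnit t) (rho Φ (upperUnip x) v) = rho Φ (upperUnip x) v := by
    intro m t hm ht htv
    rw [rho_diag_upper, htv, show (t : AF F) * x = x + ((t : AF F) - 1) * x by ring,
      ← rho_upper_upper, hf _ (lp_anti (by omega) (mul_mem_lp ht.1 hx))]
  have hcomm : ∀ y, rho Φ (upperUnip y) v = v →
      rho Φ (upperUnip y) (rho Φ (upperUnip x) v) = rho Φ (upperUnip x) v := fun y hy => by
    rw [rho_upper_upper, add_comm, ← rho_upper_upper, hy]
  have hlow : ∀ c ∈ lp S.P L.δ,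
      rho Φ (lowerUnip c) (rho Φ (upperUnip x) v) = rho Φ (upperUnip x) v := by
    intro c hc
    obtain ⟨t, ht, htv⟩ := exists_lunit (P := S.P) h1 (x := 1 + -x * c) (by
      rw [add_sub_cancel_left, hr]
      exact mul_mem_lp (neg_mem hx) hc)
    refine (rho Φ (upperUnip (-x))).injective ?_
    rw [rho_upper_upper (-x), neg_add_cancel, upperUnip_zero, map_one]
    rw [← rho_mul, upper_mul_lower htv, rho_mul, rho_mul, rho_mul, rho_upper_upper,
      hf (-x * ((t⁻¹ : (AF F)ˣ) : AF F) + x) ?_, hsq _ (S.mem_squareTorus.mpr ⟨t, ht, rfl⟩),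
      rho_scal, fixed_lower hs (by rw [mul_comm]; exact mul_lunit_mem (inv_mem ht) hc)]
    · rfl
    · rw [show -x * ((t⁻¹ : (AF F)ˣ) : AF F) + x =
        ((t⁻¹ : (AF F)ˣ) : AF F) * (((t : AF F) - 1) * x) by linear_combination (-x) * t.inv_mul]
      exact mul_lunit_mem (inv_mem ht) (lp_anti (by omega) (mul_mem_lp ht.1 hx))
  refine ⟨⟨L.inSys_of_fixed (hs.spherical.translate _) (fun p hp hp0 hpN => ?_) (fun k hk => ?_)
      hlow
    (fun t ht => htor L.hδ ht (fixed_diag hs ht)) fun y hy => hcomm y (fixed_upper hs hy),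
    fun y hy => hcomm y (hf y hy)⟩, fun k hk => ?_⟩
  · have hne : p ≠ S.w := fun e => natCast_notMem hpN (e.symm ▸ L.mem_w)
    exact (hs.sys p hp hp0 hpN).rho_away (away_of_local hne (upperUnip_local hx))
  · rw [← rho_mul, ← (commute_away (upperUnip_local hx) hk.2).eq, rho_mul, fixed_away hs hk]
  · obtain ⟨t, ht, rfl⟩ := S.mem_squareTorus.mp hk
    exact htor h1 (mul_mem ht ht) (hsq _ hk)

variable (L)

/-- The step of the filtration at an order prime to three. -/
theorem filTr_skip [FiniteDimensional ℂ (sysSub Φ L.hN L.a)] {α : ℤ} (h1 : 1 ≤ α - 1 + L.δ)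
    (h3 : ¬ (3 : ℤ) ∣ α - 1) : L.filTr α = L.filTr (α - 1) := by
  set r : ℕ := (α - 1 + L.δ).toNat with hrdef
  have hr : (r : ℤ) = α - 1 + L.δ := Int.toNat_of_nonneg (by omega)
  have hr1 : 1 ≤ r := by omega
  have hr3 : ¬ 3 ∣ r := by
    have := L.three_dvd_δ
    omega
  have hsucc : (α + L.δ).toNat = r + 1 := by omega
  set H := S.squareTorus r
  -- the twist on the fixed vectors of the squares
  have hΘ : ∀ v ∈ L.fil α ⊓ fixedSub Φ H, S.T.twist v ∈ L.fil α ⊓ fixedSub Φ H := by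
    intro v hv
    refine ⟨L.fil_twist α v hv.1, fun k hk => ?_⟩
    obtain ⟨t, ht, rfl⟩ := S.mem_squareTorus.mp hk
    rw [Setup.rho_diag_twist, map_mul,
      hv.2 _ (S.mem_squareTorus.mpr ⟨_, S.map_mem_lunit ht, rfl⟩)]
  have e1 : L.filTr α = LinearMap.trace ℂ (L.fil α ⊓ fixedSub Φ H : Submodule ℂ (Smooth Φ))
      (S.T.twist.restrict hΘ) := by
    refine trace_twist_fixed S.T (L.fil α) (L.fil_twist α) H ?_ ?_ ?_ hΘ
    · intro k hk v hv
      obtain ⟨t, ht, rfl⟩ := S.mem_squareTorus.mp hk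
      exact L.fil_diag (lunit_anti (Nat.zero_le r) (mul_mem ht ht)) hv
    · refine finite_image_of_le_top (L.fil α) fun k hk => ?_
      obtain ⟨t, ht, rfl⟩ := S.mem_squareTorus.mp hk
      exact (diagUnit_localK (mul_mem ht ht)).2
    · intro k hk
      obtain ⟨t, ht, rfl⟩ := S.mem_squareTorus.mp hk
      obtain ⟨s, hs, t', ht', rfl⟩ := S.unitLayer_surj hr1 hr3 ht
      set a : (AF F)ˣ := (S.θu (s * s))⁻¹ with ha
      have ham : a ∈ lunit S.P 0 :=
        inv_mem (S.map_mem_lunit (lunit_anti (Nat.zero_le r) (mul_mem hs hs)))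
      refine ⟨diagUnit a, fun v hv => L.fil_diag ham hv, fun v hv => ?_, fun v hv => ?_⟩
      · rw [← diagHom_apply, ← map_inv, diagHom_apply]
        exact L.fil_diag (inv_mem ham) hv
      · have hw' := L.fil_twist α v hv
        have hfix := fixed_diag_sq hw'.1 hw'.2 (hsucc.symm ▸ ht')
        rw [show (diagUnit a)⁻¹ = diagUnit (S.θu (s * s)) by
          rw [← diagHom_apply, ← map_inv, diagHom_apply, ha, inv_inv]]
        have hk : diagUnit ((S.commHom s * t') * (S.commHom s * t')) =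
            diagUnit a * diagUnit (s * s) * diagUnit (t' * t') := by
          refine Eq.trans (congrArg diagUnit ?_)
            ((diagUnit_mul _ _).trans (congrArg (· * _) (diagUnit_mul a (s * s))))
          rw [ha, map_mul, _root_.mul_inv_rev, Setup.commHom_apply]
          refine Units.ext ?_
          simp only [Units.val_mul]
          ring
        rw [hk, rho_mul, rho_mul, hfix, S.rho_diag_twist]
  have : FiniteDimensional ℂ (L.fil α ⊓ fixedSub Φ H : Submodule ℂ (Smooth Φ)) :=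
    Submodule.finiteDimensional_of_le (inf_le_left.trans (L.fil_le α))
  have hmem : ∀ v, v ∈ (L.fil α ⊓ fixedSub Φ H) ⊓ fixedSub Φ (upperSub S.P (α - 1)) ↔
      v ∈ L.fil (α - 1) := by
    intro v
    refine ⟨fun hv => ⟨hv.1.1.1, fun x hx => hv.2 _ ⟨x, hx, rfl⟩⟩, fun hv =>
      ⟨⟨L.fil_mono (by omega) hv, fun k hk => ?_⟩, ?_⟩⟩
    · obtain ⟨t, ht, rfl⟩ := S.mem_squareTorus.mp hk
      exact fixed_diag_sq hv.1 hv.2 (hrdef ▸ ht)
    · rintro _ ⟨x, hx, rfl⟩
      exact hv.2 x hx
  have hfil := L.fil_twist (α - 1)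
  have hFx : ∀ v ∈ (L.fil α ⊓ fixedSub Φ H) ⊓ fixedSub Φ (upperSub S.P (α - 1)),
      S.T.twist v ∈ (L.fil α ⊓ fixedSub Φ H) ⊓ fixedSub Φ (upperSub S.P (α - 1)) :=
    fun v hv => (hmem _).mpr (hfil v ((hmem v).mp hv))
  have e2 := trace_twist_fixed S.T (L.fil α ⊓ fixedSub Φ H) hΘ (upperSub S.P (α - 1))
    (by rintro _ ⟨x, hx, rfl⟩ v hv; exact upper_mem_square hr hr1 hv hx) ?_ ?_ hFx
  · rw [e1, e2, filTr]
    exact trace_eq_of_equiv (LinearEquiv.ofEq _ _ (Submodule.ext hmem)) _ _ fun v => rfl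
  · have : Finite (𝓞 F ⧸ S.w) := Ideal.finiteQuotientOfFreeOfNeBot S.w S.hw0
    refine (Set.finite_range fun (c : 𝓞 F ⧸ S.w) (v : (L.fil α ⊓ fixedSub Φ H :
      Submodule ℂ (Smooth Φ))) => rho Φ (upperUnip (pz S.P (α - 1) * S.P.c c)) v.1).subset ?_
    rintro _ ⟨_, ⟨x, hx, rfl⟩, rfl⟩
    obtain ⟨c, hc⟩ := exists_digit hx
    rw [sub_add_cancel] at hc
    refine ⟨c, funext fun v => ?_⟩
    dsimp only
    conv_rhs => rw [show x = pz S.P (α - 1) * S.P.c c + (x - pz S.P (α - 1) * S.P.c c) by ring,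
      upperUnip_add, rho_mul, v.2.1.2 _ hc]
  · rintro _ ⟨x, hx, rfl⟩
    obtain ⟨y, hy, he⟩ := S.layer_surj h3 hx
    rw [sub_add_cancel] at he
    have hθy := S.map_mem_lp hy
    refine ⟨upperUnip (-S.θ y), fun v hv => upper_mem_square hr hr1 hv (neg_mem hθy),
      fun v hv => ?_,
      fun v hv => ?_⟩
    · rw [show (upperUnip (-S.θ y))⁻¹ = upperUnip (S.θ y) from inv_eq_of_mul_eq_one_right (by
        rw [← upperUnip_add, neg_add_cancel, upperUnip_zero])]
      exact upper_mem_square hr hr1 hv hθy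
    · rw [show (upperUnip (-S.θ y))⁻¹ = upperUnip (S.θ y) from inv_eq_of_mul_eq_one_right (by
        rw [← upperUnip_add, neg_add_cancel, upperUnip_zero]),
        ← S.rho_upper_twist, rho_upper_upper,
        show x = (-S.θ y + y) + (x - (y - S.θ y)) by ring, ← rho_upper_upper,
        (L.fil_twist α v hv.1).2 _ he]

end Level

end Tame

end FLTAgent.LanglandsTunnell.Isolation
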