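import Fermat.Agent.LanglandsTunnell.Isolation.Tame.Fil
import Fermat.Agent.LanglandsTunnell.Isolation.Tame.Proj
import Fermat.Agent.LanglandsTunnell.Isolation.Tame.Pool
import Fermat.Agent.LanglandsTunnell.Isolation.Tame.Skip

/-!
# The trace of the twist at a fixed tame place

Along the filtration the trace changes only at the shells with a fixed point, each time by a
natural multiple of the trace on one space of eigenvectors of the character.
-/

set_option autoImplicit false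

noncomputable section

namespace FLTAgent.LanglandsTunnell.Isolation

open FLTAgent.LanglandsTunnell NumberField Matrix Function
open FLTAgent.LanglandsTunnell.Expansion (psi)

namespace Tame

variable {F : Type} [Field F] [NumberField F] {ι : Type} [Fintype ι] [DecidableEq ι]
  {Φ : PlaceChoice F ι} {S : Setup Φ}

theorem mul_ratio_eq {G : Type*} [CommGroup G] (a b c d : G) :
    a * b * (c * a⁻¹ * (d * b⁻¹)) = c * d := by
  rw [mul_mul_mul_comm, mul_comm c, mul_comm d, mul_inv_cancel_left, mul_inv_cancel_left]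

section CommGroup

variable {G : Type*} [CommGroup G] {a b c : G}

theorem inv_zpow_mul_eq (a b : G) (j : ℤ) : (a ^ j * b)⁻¹ = a ^ (-j) * b⁻¹ := by
  rw [mul_inv, _root_.zpow_neg]

theorem cube_mul_zpow (a b : G) (k : ℤ) : (a ^ 3 * b) ^ k = a ^ (3 * k) * b ^ k := by
  rw [mul_zpow, ← zpow_natCast a 3, ← _root_.zpow_mul]
  rfl

theorem ratio_norm (p q r : G) : q * p⁻¹ * (r * q⁻¹) * (p * r⁻¹) = 1 := by
  rw [mul_comm q p⁻¹, mul_comm r q⁻¹, mul_assoc p⁻¹, mul_inv_cancel_left, mul_comm p,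
    mul_assoc p⁻¹, mul_inv_cancel_left, inv_mul_cancel]

theorem ratio_zpow (a b : G) (n : ℤ) : a ^ n * (b ^ n)⁻¹ = (a * b⁻¹) ^ n := by
  rw [mul_zpow, _root_.inv_zpow]

theorem zpow_norm (h : a * b * c = 1) (n : ℤ) : a ^ n * b ^ n * c ^ n = 1 := by
  rw [← mul_zpow, ← mul_zpow, h, _root_.one_zpow]

theorem cube_eq_comm (h : a * b * c = 1) : a * a * a = a * b⁻¹ * (a * b⁻¹ * (b * c⁻¹)) := by
  rw [inv_eq_of_mul_eq_one_left h, mul_assoc a b⁻¹ (b * (a * b)), inv_mul_cancel_left,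
    mul_assoc a b⁻¹, mul_left_comm b⁻¹ a (a * b), mul_comm a b, inv_mul_cancel_left, mul_assoc]

end CommGroup

omit [DecidableEq ι] in
theorem mem_fixedSub_zpowers {g : GL (Fin 2) (AF F)} {u : Smooth Φ} (h : rho Φ g u = u) :
    u ∈ fixedSub Φ (Subgroup.zpowers g) := by
  let St : Subgroup (GL (Fin 2) (AF F)) :=
    { carrier := {k | rho Φ k u = u}
      one_mem' := by simp
      mul_mem' := fun {a b} (ha : rho Φ a u = u) (hb : rho Φ b u = u) =>
        show rho Φ (a * b) u = u by rw [rho_mul, hb, ha]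
      inv_mem' := fun {a} (ha : rho Φ a u = u) => TreeData.apply_inv_of_fixed (π := rho Φ) ha }
  exact fun k hk => (Subgroup.zpowers_le.mpr (show g ∈ St from h)) hk

namespace Setup

omit [Fintype ι] [DecidableEq ι] in
theorem zpow_pi_local (k : ℤ) : diagUnit (S.P.π ^ k) ∈ localGroup S.hw S.hw0 := by
  rw [show diagUnit (S.P.π ^ k) = diagHom S.P.π ^ k from map_zpow diagHom _ _]
  exact zpow_mem ((mem_localGroup S.hw S.hw0).mpr S.P.isLocalAt_diag) k

omit [Fintype ι] [DecidableEq ι] in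
theorem θu_cube (t : (AF F)ˣ) : S.θu (S.θu (S.θu t)) = t := Units.ext (S.θ_cube t)

omit [Fintype ι] [DecidableEq ι] in
theorem comm_mem {t : (AF F)ˣ} (ht : t ∈ lunit S.P 0) : t * (S.θu t)⁻¹ ∈ S.unitComm :=
  Subgroup.mem_map.mpr ⟨t, ht, rfl⟩

theorem unitComm_le : S.unitComm ≤ lunit S.P 0 := by
  rintro _ ⟨s, hs, rfl⟩
  exact mul_mem hs (inv_mem (S.map_mem_lunit hs))

omit [DecidableEq ι] in
theorem rho_diag_mul (a b : (AF F)ˣ) (v : Smooth Φ) :
    rho Φ (diagUnit (a * b)) v = rho Φ (diagUnit a) (rho Φ (diagUnit b) v) := by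
  rw [diagUnit_mul, rho_mul]

theorem θu_unitComm {t : (AF F)ˣ} (ht : t ∈ S.unitComm) : S.θu t ∈ S.unitComm := by
  obtain ⟨s, hs, rfl⟩ := ht
  refine Subgroup.mem_map.mpr ⟨S.θu s, S.map_mem_lunit hs, ?_⟩
  simp [map_mul, map_inv]

end Setup

namespace Level

variable (L : Level S)

/-- The group of the diagonal unit commutators. -/
def commGroup (S : Setup Φ) : Subgroup (GL (Fin 2) (AF F)) := S.unitComm.map diagHom

theorem commGroup_le : commGroup S ≤ principalSubgroup ⊤ := by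
  rintro _ ⟨t, ht, rfl⟩
  exact (diagUnit_localK (S.unitComm_le ht)).2

/-- The part of the filtration fixed by the unit commutators. -/
abbrev gfil (α : ℤ) : Submodule ℂ (Smooth Φ) := L.fil α ⊓ fixedSub Φ (commGroup S)

theorem gfil_twist (α : ℤ) : ∀ u ∈ L.gfil α, S.T.twist u ∈ L.gfil α := by
  rintro u ⟨hu, hf⟩
  refine ⟨L.fil_twist α u hu, ?_⟩
  rintro _ ⟨t, ht, rfl⟩
  rw [diagHom_apply, S.rho_diag_twist]
  exact congrArg _ (hf _ ⟨_, S.θu_unitComm ht, rfl⟩)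

/-- The filtration is stable under the averaged translations. -/
theorem gfil_stable (α : ℤ) : L.Stable (L.gfil α) := by
  intro v hv h hh u hu
  have hpre : ∀ q ∈ L.away, q * h ∈ awayGroup S.hw S.hw0 := fun q hq =>
    mul_mem hq.2 (away_of_local (Ne.symm hv.ne_w) hh)
  have hloc : ∀ g ∈ localGroup S.hw S.hw0, rho Φ g u = u →
      rho Φ g (orbitAvg L.away L.away_le (rho Φ h u)) =
        orbitAvg L.away L.away_le (rho Φ h u) := fun g hg hgu =>
    orbitAvg_induction L.away_le (p := fun z => rho Φ g z = z) (map_zero _)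
      (fun x y hx hy => by rw [map_add, hx, hy]) (fun c x hx => by rw [map_smul, hx]) _
      fun q hq => by
        rw [← rho_mul q h, ← rho_mul g, (commute_away hg (hpre q hq)).eq, rho_mul, hgu]
  refine ⟨⟨L.inSys_of_fixed ?_ ?_ (fun q hq => orbitAvg_fixed L.away_le _ hq) (fun c hc =>
    hloc _ ?_ (fixed_lower hu.1.1 hc)) (fun t ht => hloc _ (diagUnit_local ht)
      (fixed_diag hu.1.1 ht)) (fun x hx => hloc _ (upperUnip_local hx) (fixed_upper hu.1.1 hx)),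
    fun x hx => hloc _ (upperUnip_local hx) (hu.1.2 x hx)⟩, ?_⟩
  · exact orbitAvg_induction L.away_le Spherical.zero (fun _ _ => Spherical.add)
      (fun c _ => Spherical.smul c) _ fun q _ => ((hu.1.1.spherical).translate _).translate q
  · intro x hx hx0 hxN
    have hne : x ≠ v := fun e => natCast_notMem hxN (e ▸ hv.mem_N)
    refine orbitAvg_induction L.away_le
      (p := fun z => EigenAt hx hx0 z ((Real.sqrt (Ideal.absNorm x) : ℂ) * L.a x))
      (EigenAt.zero hx hx0 _) (fun _ _ => EigenAt.add) (fun c _ => EigenAt.smul c) _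
      fun q hq => ((hu.1.1.sys x hx hx0 hxN).rho_away (away_of_local hne hh)).rho_top
        (L.away_le hq)
  · refine (mem_localGroup S.hw S.hw0).mpr fun a b => ?_
    fin_cases a <;> fin_cases b <;> simp [lp_local hc]
  · rintro _ ⟨t, ht, rfl⟩
    exact hloc _ (diagUnit_local (S.unitComm_le ht)) (hu.2 _ ⟨t, ht, rfl⟩)

variable {L}

/-- The map to the eigenvectors of the character through one point of a shell. -/
def shellMap (L : Level S) (y : (AF F)ˣ) : Smooth Φ →ₗ[ℂ] Smooth Φ :=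
  (S.proj L.δ).comp (rho Φ (diagUnit y)).toLinearEquiv.toLinearMap

omit [DecidableEq ι] in
theorem shellMap_apply (y : (AF F)ˣ) (v : Smooth Φ) :
    L.shellMap y v = S.proj L.δ (rho Φ (diagUnit y) v) := rfl

variable {α j : ℤ} {y₀ t : (AF F)ˣ}

theorem unipFixed_shift (hj : j = -α - S.d) {u₀ : (AF F)ˣ} (hu₀ : u₀ ∈ lunit S.P 0)
    (hy : y₀ = S.P.π ^ j * u₀) (ht : t ∈ lunit S.P 0) {v : Smooth Φ} (hv : UnipFixed S.P α v) :
    UnipFixed S.P (-S.d) (rho Φ (diagUnit (y₀ * t)) v) := by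
  have h := unipFixed_diag j (t := y₀ * t) (mul_mem hu₀ ht) (by rw [hy, mul_assoc]) hv
  rwa [show α + j = -S.d by rw [hj]; ring] at h

theorem shellMap_inPool (hcusp : ∀ u, InSys Φ L.N L.a u → CuspVec u) (hj : j = -α - S.d)
    {u₀ : (AF F)ˣ} (hu₀ : u₀ ∈ lunit S.P 0) (hy : y₀ = S.P.π ^ j * u₀) (ht : t ∈ lunit S.P 0)
    {v : Smooth Φ} (hv : v ∈ L.fil α) : L.InPool (L.shellMap (y₀ * t) v) := by
  set v' := rho Φ (diagUnit (y₀ * t)) v with hv'
  have hfix : UnipFixed S.P (-S.d) v' := unipFixed_shift hj hu₀ hy ht hv.2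
  have hyl : diagUnit (y₀ * t) ∈ localGroup S.hw S.hw0 := by
    rw [hy, mul_assoc, diagUnit_mul]
    exact mul_mem (S.zpow_pi_local j) (diagUnit_local (mul_mem hu₀ ht))
  have hpre : L.Pre v' := (pre_of_sys hv.1 (hcusp v hv.1)).rho_local hyl
  have hp : L.Pre (S.proj L.δ v') := S.proj_mem (L.preSub) fun x hx =>
    hpre.rho_local (upperUnip_local hx)
  refine ⟨hp.exists_inSys, hp.cusp, hp.fixed, S.psiEigen_proj hfix, fun τ hτ => ?_⟩
  refine S.proj_mem (fixedSub Φ (Subgroup.zpowers (diagUnit τ))) (fun x hx => ?_)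
    (diagUnit τ) (Subgroup.mem_zpowers _)
  have hone : rho Φ (diagUnit τ) (rho Φ (upperUnip x) v') = rho Φ (upperUnip x) v' := by
    have hτv : rho Φ (diagUnit τ) v' = v' := by
      rw [hv', ← rho_mul, LanglandsTunnell.Expansion.diagUnit_comm, rho_mul, fixed_diag hv.1 hτ]
    rw [rho_diag_upper, hτv, show (τ : AF F) * x = x + ((τ : AF F) - 1) * x by ring,
      rho_upper_add, hfix _ (lp_anti (by omega) (mul_mem_lp hτ.1 hx))]
  exact mem_fixedSub_zpowers hone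

theorem shellMap_comm (hy : diagUnit y₀ ∈ localGroup S.hw S.hw0) (ht : t ∈ lunit S.P 0)
    {k : GL (Fin 2) (AF F)} (hk : k ∈ awayGroup S.hw S.hw0) (v : Smooth Φ) :
    L.shellMap (y₀ * t) (rho Φ k v) = rho Φ k (L.shellMap (y₀ * t) v) := by
  have hl : diagUnit (y₀ * t) ∈ localGroup S.hw S.hw0 := by
    rw [diagUnit_mul]; exact mul_mem hy (diagUnit_local ht)
  rw [shellMap_apply, shellMap_apply, ← rho_mul, (commute_away hl hk).eq, rho_mul]
  exact (S.proj_comm (rho Φ k).toLinearEquiv.toLinearMap (fun x hx v => by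
    show rho Φ k (rho Φ _ v) = rho Φ _ (rho Φ k v)
    rw [← rho_mul, ← rho_mul, (commute_away (upperUnip_local hx) hk).eq]) _).symm

theorem shellMap_twist (hj : j = -α - S.d) {u₀ : (AF F)ˣ} (hu₀ : u₀ ∈ lunit S.P 0)
    (hy : y₀ = S.P.π ^ j * u₀) (ht : t ∈ lunit S.P 0) {v : Smooth Φ} (hv : v ∈ L.gfil α)
    (hfix : rho Φ (diagUnit (S.θu y₀ * y₀⁻¹)) v = v) :
    L.shellMap (y₀ * t) (S.T.twist v) = S.T.twist (L.shellMap (y₀ * t) v) := by
  have hc : rho Φ (diagUnit (S.θu t * t⁻¹)) v = v := by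
    have h1 : (t * (S.θu t)⁻¹)⁻¹ ∈ S.unitComm := inv_mem (S.comm_mem ht)
    rw [show S.θu t * t⁻¹ = (t * (S.θu t)⁻¹)⁻¹ by rw [_root_.mul_inv_rev, inv_inv]]
    exact hv.2 _ ⟨_, h1, rfl⟩
  have he : rho Φ (diagUnit (S.θu (y₀ * t))) v = rho Φ (diagUnit (y₀ * t)) v := by
    rw [show S.θu (y₀ * t) = y₀ * t * ((S.θu y₀ * y₀⁻¹) * (S.θu t * t⁻¹)) by
        rw [map_mul]; exact (mul_ratio_eq y₀ t _ _).symm,
      Setup.rho_diag_mul, Setup.rho_diag_mul _ (S.θu t * t⁻¹), hc, hfix]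
  rw [shellMap_apply, shellMap_apply, S.rho_diag_twist, he,
    S.proj_twist (unipFixed_shift hj hu₀ hy ht hv.1.2)]

theorem shellMap_eq_zero (hj : j = -α - S.d) {u₀ : (AF F)ˣ} (hu₀ : u₀ ∈ lunit S.P 0)
    (hy : y₀ = S.P.π ^ j * u₀) (ht : t ∈ lunit S.P 0) {v : Smooth Φ}
    (hv : UnipFixed S.P (α - 1) v) : L.shellMap (y₀ * t) v = 0 := by
  have h : UnipFixed S.P (-S.d - 1) (rho Φ (diagUnit (y₀ * t)) v) := by
    have h := unipFixed_diag j (t := y₀ * t) (mul_mem hu₀ ht) (by rw [hy, mul_assoc]) hv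
    rwa [show α - 1 + j = -S.d - 1 by rw [hj]; ring] at h
  refine S.eq_zero_of_psiEigen_unipFixed L.hδ
    (S.psiEigen_proj fun x hx => h x (lp_anti (by omega) hx)) fun x hx => ?_
  refine S.proj_mem (fixedSub Φ (Subgroup.zpowers (upperUnip x))) (fun z hz => ?_)
    (upperUnip x) (Subgroup.mem_zpowers _)
  have hone : rho Φ (upperUnip x) (rho Φ (upperUnip z) (rho Φ (diagUnit (y₀ * t)) v)) =
      rho Φ (upperUnip z) (rho Φ (diagUnit (y₀ * t)) v) := by
    rw [← rho_upper_add, add_comm, rho_upper_add, h x hx]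
  exact mem_fixedSub_zpowers hone

theorem unipFixed_of_shellMap (hj : j = -α - S.d) {u₀ : (AF F)ˣ} (hu₀ : u₀ ∈ lunit S.P 0)
    (hy : y₀ = S.P.π ^ j * u₀) {v : Smooth Φ} (hv : UnipFixed S.P α v)
    (h0 : ∀ t ∈ lunit S.P 0, L.shellMap (y₀ * t) v = 0) : UnipFixed S.P (α - 1) v := by
  have h1 : UnipFixed S.P (-S.d - 1) (rho Φ (diagUnit y₀) v) := by
    refine S.unipFixed_of_proj L.hδ (by simpa using unipFixed_shift hj hu₀ hy (one_mem _) hv)
      fun t ht => ?_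
    have := h0 t ht
    rwa [shellMap_apply, diagUnit_mul, LanglandsTunnell.Expansion.diagUnit_comm, rho_mul] at this
  have h2 := unipFixed_diag (-j) (t := y₀⁻¹) (inv_mem hu₀)
    (by rw [hy]; exact inv_zpow_mul_eq (G := (AF F)ˣ) _ _ _) h1
  rw [← Setup.rho_diag_mul, inv_mul_cancel, ← diagHom_apply, map_one, map_one,
    show -S.d - 1 + -j = α - 1 by rw [hj]; ring] at h2
  exact h2

/-- A shell with a fixed point, or with all units acting through squares. -/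
theorem exists_fixed_point (α : ℤ) (hα : (3 : ℤ) ∣ α - 1 ∨ α + L.δ ≤ 0) :
    ∃ j : ℤ, j = -α - S.d ∧ ∃ u₀ ∈ lunit S.P 0, ∃ y₀ : (AF F)ˣ, y₀ = S.P.π ^ j * u₀ ∧
      ∀ v ∈ L.gfil α, rho Φ (diagUnit (S.θu y₀ * y₀⁻¹)) v = v := by
  refine ⟨-α - S.d, rfl, ?_⟩
  rcases hα with h | h
  · obtain ⟨ϖ, hϖ, v₁, hv₁, he⟩ := S.exists_fixed_uniformizer
    obtain ⟨k, hk⟩ : (3 : ℤ) ∣ -α - S.d := by
      have := S.three_dvd_diff
      omega
    refine ⟨v₁ ^ k, zpow_mem hv₁ k, ϖ ^ k, ?_, fun v _ => ?_⟩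
    · rw [he, hk]
      exact cube_mul_zpow (G := (AF F)ˣ) _ _ _
    · rw [map_zpow, hϖ, mul_inv_cancel, ← diagHom_apply, map_one, map_one]
      rfl
  · set u := S.θu S.P.π * S.P.π⁻¹ with hu
    have hnorm : u * S.θu u * S.θu (S.θu u) = 1 := by
      rw [hu, map_mul, map_mul, map_inv, map_inv, S.θu_cube]
      exact ratio_norm (G := (AF F)ˣ) _ _ _
    set z := u ^ (-α - S.d) with hz
    have hzl : z ∈ lunit S.P 0 := zpow_mem S.pi_ratio _
    refine ⟨1, one_mem _, S.P.π ^ (-α - S.d), (mul_one _).symm, fun v hv => ?_⟩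
    rw [show S.θu (S.P.π ^ (-α - S.d)) * (S.P.π ^ (-α - S.d))⁻¹ = z by
      rw [map_zpow, hz, hu]; exact ratio_zpow (G := (AF F)ˣ) _ _ _]
    have hnz : z * S.θu z * S.θu (S.θu z) = 1 := by
      rw [hz, map_zpow, map_zpow]
      exact zpow_norm (G := (AF F)ˣ) hnorm _
    have hsq : rho Φ (diagUnit (z * z)) v = v := fixed_diag_sq hv.1.1 hv.1.2
      (by rw [Int.toNat_of_nonpos h]; exact hzl)
    have hmem : z * z * z ∈ S.unitComm := by
      have e : z * z * z = (z * (S.θu z)⁻¹) * ((z * (S.θu z)⁻¹) * (S.θu z * (S.θu (S.θu z))⁻¹)) :=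
        cube_eq_comm (G := (AF F)ˣ) hnz
      rw [e]
      exact mul_mem (S.comm_mem hzl) (mul_mem (S.comm_mem hzl)
        (S.comm_mem (S.map_mem_lunit hzl)))
    have h3 := hv.2 _ ⟨_, hmem, rfl⟩
    rw [diagHom_apply, diagUnit_mul (z * z), LanglandsTunnell.Expansion.diagUnit_comm, rho_mul, hsq]
      at h3
    exact h3

variable [FiniteDimensional ℂ (sysSub Φ L.hN L.a)]

instance finite_gfil (α : ℤ) : FiniteDimensional ℂ (L.gfil α) :=
  Submodule.finiteDimensional_of_le inf_le_left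

/-- Averaging over the unit commutators does not change the trace. -/
theorem filTr_eq_gfil (α : ℤ) :
    L.filTr α = LinearMap.trace ℂ (L.gfil α) (S.T.twist.restrict (L.gfil_twist α)) := by
  refine trace_twist_fixed S.T _ _ _ ?_ (finite_image_of_le_top _ commGroup_le) ?_ _
  · rintro _ ⟨t, ht, rfl⟩ v hv
    exact L.fil_diag (S.unitComm_le ht) hv
  · rintro _ ⟨_, ⟨s, hs, rfl⟩, rfl⟩
    have hg := inv_mem (S.map_mem_lunit hs)
    refine ⟨diagHom (S.θu s)⁻¹, fun v hv => L.fil_diag hg hv, fun v hv => ?_, fun v _ => ?_⟩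
    · rw [show (diagHom (S.θu s)⁻¹)⁻¹ = diagHom (S.θu s) by rw [map_inv, inv_inv]]
      exact L.fil_diag (S.map_mem_lunit hs) hv
    · rw [show (diagHom (S.θu s)⁻¹)⁻¹ = diagHom (S.θu s) by rw [map_inv, inv_inv], diagHom_apply,
        diagHom_apply, diagHom_apply, ← S.rho_diag_twist, ← rho_mul, Setup.commHom_apply,
        diagUnit_mul, LanglandsTunnell.Expansion.diagUnit_comm]

/-- One step of the filtration at a shell with a fixed point. -/
theorem filTr_step (hcusp : ∀ u, InSys Φ L.N L.a u → CuspVec u) {α : ℤ}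
    (hα : (3 : ℤ) ∣ α - 1 ∨ α + L.δ ≤ 0) (W₀ : Submodule ℂ (Smooth Φ)) [FiniteDimensional ℂ W₀]
    (hW₀ : ∀ u ∈ W₀, L.InPool u) (hs₀ : L.Stable W₀) (hne₀ : W₀ ≠ ⊥)
    (hΘ₀ : ∀ u ∈ W₀, S.T.twist u ∈ W₀) :
    ∃ m : ℕ, L.filTr α = L.filTr (α - 1) +
        (m : ℂ) * LinearMap.trace ℂ W₀ (S.T.twist.restrict hΘ₀) ∧
      ((∃ x ∈ L.gfil α, x ∉ L.fil (α - 1)) → 0 < m) := by
  classical
  obtain ⟨j, hj, u₀, hu₀, y₀, hy, hfix⟩ := exists_fixed_point (L := L) α hα
  have hyl : diagUnit y₀ ∈ localGroup S.hw S.hw0 := by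
    rw [hy, diagUnit_mul]; exact mul_mem (S.zpow_pi_local j) (diagUnit_local hu₀)
  have hfin := finite_image_of_le_top (L.gfil α) (H := (lunit S.P 0).map diagHom) (by
    rintro _ ⟨t, ht, rfl⟩
    exact (diagUnit_localK ht).2)
  have hch : ∀ x : hfin.toFinset, ∃ t ∈ lunit S.P 0,
      (fun v : L.gfil α => rho Φ (diagHom t) v.1) = x.1 := fun x => by
    obtain ⟨_, ⟨t, ht, rfl⟩, e⟩ := hfin.mem_toFinset.mp x.2
    exact ⟨t, ht, e⟩
  choose t ht hte using hch
  set Λs : Finset (Smooth Φ →ₗ[ℂ] Smooth Φ) :=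
    Finset.univ.image fun x => L.shellMap (y₀ * t x) with hΛ
  have hall : ∀ Λ ∈ Λs, ∃ x, L.shellMap (y₀ * t x) = Λ := fun Λ h => by
    obtain ⟨x, -, e⟩ := Finset.mem_image.mp h
    exact ⟨x, e⟩
  have hker : L.gfil (α - 1) = L.gfil α ⊓ ⨅ Λ ∈ Λs, LinearMap.ker Λ := by
    ext v
    simp only [Submodule.mem_inf, Submodule.mem_iInf, LinearMap.mem_ker]
    constructor
    · rintro ⟨hv, hf⟩
      refine ⟨⟨L.fil_mono (by omega) hv, hf⟩, fun Λ hΛ' => ?_⟩
      obtain ⟨x, rfl⟩ := hall Λ hΛ'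
      exact shellMap_eq_zero hj hu₀ hy (ht x) hv.2
    · rintro ⟨hv, h0⟩
      refine ⟨⟨hv.1.1, unipFixed_of_shellMap (L := L) hj hu₀ hy hv.1.2 fun s hs => ?_⟩, hv.2⟩
      have hs' := hfin.mem_toFinset.mpr ⟨_, ⟨s, hs, rfl⟩, rfl⟩
      have h1 := congrFun (hte ⟨_, hs'⟩) ⟨v, hv⟩
      have h2 := h0 _ (Finset.mem_image.mpr ⟨⟨_, hs'⟩, Finset.mem_univ _, rfl⟩)
      rw [shellMap_apply, Setup.rho_diag_mul] at h2 ⊢
      rw [← diagHom_apply (t _)] at h2
      rwa [h1] at h2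
  obtain ⟨m, hm, hpos⟩ := L.trace_maps (L.gfil α) (L.gfil_stable α) (L.gfil_twist α) Λs
    (fun Λ h v hv => by
      obtain ⟨x, rfl⟩ := hall Λ h
      exact shellMap_inPool hcusp hj hu₀ hy (ht x) hv.1)
    (fun Λ h k hk v => by
      obtain ⟨x, rfl⟩ := hall Λ h
      exact shellMap_comm hyl (ht x) hk v)
    (fun Λ h v hv => by
      obtain ⟨x, rfl⟩ := hall Λ h
      exact shellMap_twist hj hu₀ hy (ht x) hv (hfix v hv))
    W₀ hW₀ hs₀ hne₀ hΘ₀ (hker ▸ L.gfil_twist (α - 1))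
  rw [trace_restrict_congr _ hker.symm _ (L.gfil_twist (α - 1))] at hm
  refine ⟨m, by rw [L.filTr_eq_gfil α, L.filTr_eq_gfil (α - 1)]; exact hm, ?_⟩
  rintro ⟨x, hx, hx'⟩
  exact hpos fun e => hx' ((hker.trans e).symm ▸ hx : x ∈ L.gfil (α - 1)).1

/-- **The trace of the twist.** With a shell vector it is not zero. -/
theorem trace_sys_ne_zero (hcusp : ∀ u, InSys Φ L.N L.a u → CuspVec u)
    (pos : Ideal (𝓞 F) → Fin 3) (hpos : ∀ v, L.Free v → pos (S.T.ideal v) = pos v + 1)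
    {u : Smooth Φ} (hu : InSys Φ L.N L.a u) (hsh : ShellVec S.P u) :
    LinearMap.trace ℂ (sysSub Φ L.hN L.a)
      (S.T.twist.restrict fun _ h => L.twist_mem_sys h) ≠ 0 := by
  classical
  obtain ⟨α₁, hα₁, hfix₁, hnot⟩ := hsh.shell
  have hx : u ∈ L.gfil α₁ := ⟨⟨hu, hfix₁⟩, by
    rintro _ ⟨t, ht, rfl⟩
    exact hsh.torus t (S.unitComm_le ht)⟩
  have hx' : u ∉ L.fil (α₁ - 1) := fun h => hnot h.2
  have hle : α₁ ≤ L.δ := by
    by_contra hcon
    exact hx' ((L.fil_top (by omega)).ge hu)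
  obtain ⟨j, hj, u₀, hu₀, y₀, hy, hfix⟩ := exists_fixed_point (L := L) α₁ (Or.inl hα₁)
  obtain ⟨t, ht, hne⟩ : ∃ t ∈ lunit S.P 0, L.shellMap (y₀ * t) u ≠ 0 := by
    by_contra! hcon
    exact hnot (unipFixed_of_shellMap hj hu₀ hy hfix₁ hcon)
  set W₀ := (L.gfil α₁).map (L.shellMap (y₀ * t)) with hW₀def
  have : FiniteDimensional ℂ W₀ := inferInstance
  have hyl : diagUnit y₀ ∈ localGroup S.hw S.hw0 := by
    rw [hy, diagUnit_mul]; exact mul_mem (S.zpow_pi_local j) (diagUnit_local hu₀)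
  have hW₀ : ∀ v ∈ W₀, L.InPool v := by
    rintro _ ⟨v, hv, rfl⟩
    exact shellMap_inPool hcusp hj hu₀ hy ht hv.1
  have hs₀ : L.Stable W₀ := L.stable_map (L.gfil_stable α₁) _ fun k hk v =>
    shellMap_comm hyl ht hk v
  have hne₀ : W₀ ≠ ⊥ := fun e => hne ((Submodule.eq_bot_iff _).mp e _ ⟨u, hx, rfl⟩)
  have hΘ₀ : ∀ v ∈ W₀, S.T.twist v ∈ W₀ := by
    rintro _ ⟨v, hv, rfl⟩
    exact ⟨_, L.gfil_twist α₁ v hv, shellMap_twist hj hu₀ hy ht hv (hfix v hv)⟩
  set τ := LinearMap.trace ℂ W₀ (S.T.twist.restrict hΘ₀)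
  have hτ : τ ≠ 0 := L.trace_pool_ne_zero hW₀ hs₀ hne₀ hΘ₀ pos hpos
  obtain ⟨α₀, hα₀, hbot⟩ := exists_fil_eq_bot hcusp
  have hlt : α₀ < α₁ := by
    by_contra hcon
    have hu0 : u = 0 := (Submodule.eq_bot_iff _).mp hbot u (L.fil_mono (by omega) hx.1)
    exact hne (by rw [hu0, map_zero])
  have main : ∀ β, α₀ ≤ β → ∃ m : ℕ, L.filTr β = (m : ℂ) * τ ∧ (α₁ ≤ β → 0 < m) := by
    intro β hβ
    induction β, hβ using Int.leInduction with
    | base =>
      refine ⟨0, ?_, fun h => absurd h (by omega)⟩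
      have : Subsingleton (L.fil α₀) := by rw [hbot]; infer_instance
      rw [filTr, Subsingleton.elim (S.T.twist.restrict (L.fil_twist α₀)) 0, map_zero]
      simp
    | succ β hβ ih =>
      obtain ⟨m, hm, hmpos⟩ := ih
      by_cases hgood : (3 : ℤ) ∣ β + 1 - 1 ∨ β + 1 + L.δ ≤ 0
      · obtain ⟨m', hm', hm'pos⟩ := filTr_step hcusp hgood W₀ hW₀ hs₀ hne₀ hΘ₀
        rw [show β + 1 - 1 = β by ring, hm] at hm'
        refine ⟨m + m', by rw [hm']; push_cast; ring, fun h => ?_⟩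
        rcases eq_or_lt_of_le h with e | e
        · exact Nat.lt_add_left _ (hm'pos ⟨u, e ▸ hx, by
            rw [show β + 1 - 1 = β by ring]; exact fun h' => hx' (by
              rwa [show α₁ - 1 = β by omega])⟩)
        · exact Nat.lt_add_right _ (hmpos (by omega))
      · simp only [not_or, not_le] at hgood
        have h1 : (1 : ℤ) ≤ β + 1 - 1 + L.δ := by
          rcases le_or_gt 1 (β + (L.δ : ℤ)) with h | h
          · omega
          · exfalso
            refine hgood.1 ?_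
            have h3 : (3 : ℤ) ∣ (L.δ : ℤ) := by exact_mod_cast L.three_dvd_δ
            omega
        refine ⟨m, by rw [L.filTr_skip h1 hgood.1, show β + 1 - 1 = β by ring, hm], fun h => ?_⟩
        rcases eq_or_lt_of_le h with e | e
        · exact absurd (e ▸ hα₁) hgood.1
        · exact hmpos (by omega)
  obtain ⟨m, hm, hmpos⟩ := main L.δ hα₀
  rw [← trace_restrict_congr S.T.twist (L.fil_top le_rfl) (L.fil_twist _)]
  show L.filTr L.δ ≠ 0
  rw [hm]
  exact mul_ne_zero (Nat.cast_ne_zero.mpr (hmpos hle).ne') hτ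

end Level

end Tame

end FLTAgent.LanglandsTunnell.Isolation
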