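import Fermat.Agent.LanglandsTunnell.Isolation.Tame.Defs
import Fermat.Agent.LanglandsTunnell.Isolation.Forms
import Fermat.Agent.LanglandsTunnell.Expansion.CommonTranslate

/-!
# Multiplicity one away from one place

Two vectors of one system which are eigenvectors of the character on the unipotents of order
`-d - n` at `w` and fixed by the units of order `n` there are related by a translation which is
trivial at `w`.  Their diagonal coefficients are supported on `1 + P ^ n` at `w`, and combinations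
of translates away from `w` cut them down at the other primes dividing the level.
-/

set_option autoImplicit false

noncomputable section

namespace FLTAgent.LanglandsTunnell.Isolation

open FLTAgent.LanglandsTunnell NumberField Matrix Function
open FLTAgent.LanglandsTunnell.Expansion
open FLTAgent.LanglandsTunnell.Killing (mk_mul_congr)
open scoped InnerProductSpace

namespace Tame

variable {F : Type} [Field F] [NumberField F] {ι : Type} [Fintype ι] [DecidableEq ι]
  {Φ : PlaceChoice F ι} {w : Ideal (𝓞 F)} {hw : w.IsPrime} {hw0 : w ≠ ⊥}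
  {P : LocalParams hw hw0} {d : ℤ} {M n : ℕ} {a : Ideal (𝓞 F) → ℂ}

/-- The idempotent of `w` is one of the factors of the idempotent of the primes dividing `M`. -/
theorem eN_mul_placeAF (hMw : (M : 𝓞 F) ∈ w) :
    eN F M * placeAF hw hw0 = placeAF hw hw0 := by
  refine FLTAgent.LanglandsTunnell.Local.af_ext fun q => ?_
  rw [map_mul]
  by_cases hq : (q : ℕ) ∣ M
  · rw [eN, compAF, Algebra.TensorProduct.map_tmul]
    simp [insideZhat, hq, ← Algebra.TensorProduct.one_def]
  · rw [compAF_placeAF hw hw0, mul_zero]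
    intro hmem
    refine hw.ne_top ((Ideal.eq_top_iff_one _).mpr ?_)
    obtain ⟨x, y, hxy⟩ : IsCoprime ((q : ℕ) : ℤ) (M : ℤ) :=
      Nat.isCoprime_iff_coprime.mpr ((Nat.Prime.coprime_iff_not_dvd q.2).mpr hq)
    have h1 : (x : 𝓞 F) * ((q : ℕ) : 𝓞 F) + (y : 𝓞 F) * (M : 𝓞 F) = 1 := by exact_mod_cast hxy
    rw [← h1]
    exact add_mem (Ideal.mul_mem_left _ _ hmem) (Ideal.mul_mem_left _ _ hMw)

/-- The idempotent of the primes dividing `M` other than `w`. -/
def eAway (hw : w.IsPrime) (hw0 : w ≠ ⊥) (M : ℕ) : AF F := eN F M - placeAF hw hw0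

theorem eAway_mem : eAway hw hw0 M ∈ intAF F := sub_mem eN_mem placeAF_mem_intAF

theorem eN_mul_eAway (hMw : (M : 𝓞 F) ∈ w) : eN F M * eAway hw hw0 M = eAway hw hw0 M := by
  rw [eAway]
  linear_combination eN_mul_self (F := F) (N := M) - eN_mul_placeAF (hw := hw) (hw0 := hw0) hMw

theorem placeAF_mul_eAway (hMw : (M : 𝓞 F) ∈ w) :
    placeAF hw hw0 * eAway hw hw0 M = 0 := by
  rw [eAway]
  linear_combination eN_mul_placeAF (hw := hw) (hw0 := hw0) hMw - placeAF_mul_self hw hw0

theorem eN_mul_diffOut_inv : eN F M * (((diffOut F M)⁻¹ : (AF F)ˣ) : AF F) = eN F M :=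
  (outsideN_outPart (N := M) (diffUnit F)).inv.eN_mul

theorem placeAF_mul_diffOut_inv (hMw : (M : 𝓞 F) ∈ w) :
    placeAF hw hw0 * (((diffOut F M)⁻¹ : (AF F)ˣ) : AF F) = placeAF hw hw0 := by
  linear_combination placeAF hw hw0 * eN_mul_diffOut_inv (F := F) (M := M) +
    (1 - (((diffOut F M)⁻¹ : (AF F)ˣ) : AF F)) * eN_mul_placeAF (hw := hw) (hw0 := hw0) hMw

/-- An idele congruent to one to positive order at `w` has a local unit part. -/
theorem localUnit_mem_lunit (hn : 0 < n) {v : (AF F)ˣ}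
    (h : placeAF hw hw0 * ((v : AF F) - 1) ∈ lp P n) : localUnit hw hw0 v ∈ lunit P n := by
  have hint : placeAF hw hw0 * ((v : AF F) - 1) ∈ intAF F := lp_le_intAF (by omega) h
  obtain ⟨y, hy⟩ : ∃ y : OH F, intHom F y = placeAF hw hw0 * ((v : AF F) - 1) := hint
  have hyw : y ∈ idealOH w := by
    obtain ⟨z, hz, e⟩ := h
    have hπ : (P.π : AF F) * placeAF hw hw0 ∈ idealAF F w := by
      obtain ⟨π₀, hπ, hspan⟩ := P.eq_localGenerator
      rw [← hπ, mul_comm]
      refine mul_mem_idealAF_left placeAF_mem_intAF ((intHom_mem_idealAF_iff).mpr ?_)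
      rw [hspan]
      exact Ideal.mem_span_singleton_self π₀
    rw [← intHom_mem_idealAF_iff, hy, e, pz_natCast, ← Nat.sub_add_cancel hn, pow_succ,
      show placeAF hw hw0 * ((P.π : AF F) ^ (n - 1) * P.π) * z =
        ((P.π : AF F) ^ (n - 1) * z) * ((P.π : AF F) * placeAF hw hw0) by ring]
    exact mul_mem_idealAF_left (mul_mem (pow_mem P.pi_mem _) hz) hπ
  obtain ⟨z, hz⟩ := exists_inv_of_not_mem hw hw0 (y := 1 + y) fun hmem => hw.ne_top (by
    have h1 : (1 : OH F) ∈ idealOH w := by simpa using sub_mem hmem hyw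
    rw [Algebra.TensorProduct.one_def] at h1
    exact (Ideal.eq_top_iff_one _).mpr ((tmul_one_mem_idealOH_iff hw0).mp h1))
  have hz' : placeAF hw hw0 * ((1 + intHom F y) * intHom F z) = placeAF hw hw0 := by
    rw [placeAF, ← map_one (intHom F), ← map_add, ← map_mul, ← map_mul, hz]
  rw [hy] at hz'
  have hinv : placeAF hw hw0 * ((v⁻¹ : (AF F)ˣ) : AF F) = placeAF hw hw0 * intHom F z := by
    linear_combination (-((v⁻¹ : (AF F)ˣ) : AF F)) * hz'
      + placeAF hw hw0 * intHom F z * v.mul_inv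
      + ((v⁻¹ : (AF F)ˣ) : AF F) * intHom F z * ((v : AF F) - 1) * placeAF_mul_self hw hw0
  refine mem_lunit.mpr ⟨by rwa [localUnit_sub_one], ?_⟩
  show placeAF hw hw0 * ((v⁻¹ : (AF F)ˣ) : AF F) + (1 - placeAF hw hw0) - 1 ∈ lp P n
  have e : placeAF hw hw0 * ((v⁻¹ : (AF F)ˣ) : AF F) + (1 - placeAF hw hw0) - 1 =
      (-intHom F z * placeAF hw hw0) * (placeAF hw hw0 * ((v : AF F) - 1)) := by
    linear_combination hinv + hz'
  rw [e]
  exact mul_mem_lp_of_int (mul_mem (neg_mem ⟨z, rfl⟩) placeAF_mem_intAF) h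

theorem upperUnip_mem_away {x : AF F} (hx : placeAF hw hw0 * x = 0) :
    upperUnip x ∈ awayGroup hw hw0 := by
  refine (mem_awayGroup hw hw0).mpr ((idemPart_eq_one_iff _).mpr fun i j => ?_)
  fin_cases i <;> fin_cases j <;> simp [upperUnip, hx]

theorem diagUnit_mem_away {u : (AF F)ˣ} (hu : placeAF hw hw0 * ((u : AF F) - 1) = 0) :
    diagUnit u ∈ awayGroup hw hw0 := by
  refine (mem_awayGroup hw hw0).mpr ((idemPart_eq_one_iff _).mpr fun i j => ?_)
  fin_cases i <;> fin_cases j <;> simp [diagUnit, hu]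

/-- An eigenvector of a translation has an eigen coefficient. -/
theorem whit_eq_of_rho {f : Smooth Φ} (hf : IsLevel Φ M f.1) {k : GL (Fin 2) (AF F)} {c : ℂ}
    (h : rho Φ k f = c • f) (g : GL (Fin 2) (AF F)) :
    whit Φ (restrictLevel M f.1) ((g * k : GL (Fin 2) (AF F)) : FinPt F (lv F M)) =
      c * whit Φ (restrictLevel M f.1) (g : FinPt F (lv F M)) := by
  have hval : ∀ (x : GL (Fin 2) (AF F)) (Q : ι → H3),
      restrictLevel M f.1 ((x : FinPt F (lv F M)), Q) = f.1 x Q := fun x Q =>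
    congrFun (congrFun hf.liftForm_restrict x) Q
  have h2 := sum_coef_eq_zero (Φ := Φ) (lv_ne_bot hf.ne_zero) (Finset.univ : Finset Bool)
    (fun b => bif b then 1 else -c) (fun _ => restrictLevel M f.1) (fun _ _ => hf.automorphic)
    (fun b => ((bif b then g * k else g : GL (Fin 2) (AF F)) : FinPt F (lv F M))) 1
    (fun Q => by
      simp only [Fintype.univ_bool, Finset.sum_insert (show true ∉ ({false} : Finset Bool) by simp),
        Finset.sum_singleton, cond_true, cond_false, hval]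
      have e : f.1 (g * k) Q = c * f.1 g Q := congrFun (congrFun (congrArg Subtype.val h) g) Q
      rw [e]
      ring) fun _ => H3.base
  simp only [Fintype.univ_bool, Finset.sum_insert (show true ∉ ({false} : Finset Bool) by simp),
    Finset.sum_singleton, cond_true, cond_false] at h2
  simp only [whit]
  rw [← mul_div_assoc]
  congr 1
  linear_combination h2

theorem whit_mul_torus {f : Smooth Φ} (hf : IsLevel Φ M f.1) (tf : TorusFixed (lunit P n) f)
    {t : (AF F)ˣ} (ht : t ∈ lunit P n) (g : GL (Fin 2) (AF F)) :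
    whit Φ (restrictLevel M f.1) ((g * diagUnit t : GL (Fin 2) (AF F)) : FinPt F (lv F M)) =
      whit Φ (restrictLevel M f.1) (g : FinPt F (lv F M)) := by
  rw [whit_eq_of_rho hf (c := 1) (by rw [one_smul]; exact tf t ht), one_mul]

/-- The diagonal coefficients are supported on `1 + P ^ n` at `w`. -/
theorem mem_lp_of_whit_ne_zero (hd : IsDiffExp P d) (hMw : (M : 𝓞 F) ∈ w) {f : Smooth Φ}
    (hf : IsEigenform Φ (restrictLevel M f.1) a) (hl : IsLevel Φ M f.1)
    (ef : PsiEigen P (-d - n) f) {v : (AF F)ˣ}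
    (hv : whit Φ (restrictLevel M f.1)
      ((diagUnit (diffOut F M)⁻¹ * diagUnit v : GL (Fin 2) (AF F)) : FinPt F (lv F M)) ≠ 0) :
    placeAF hw hw0 * ((v : AF F) - 1) ∈ lp P n := by
  have hε := placeAF_mul_self hw hw0
  have key : ∀ x ∈ lp P (-d - n), psi (((v : AF F) - 1) * x) = 1 := by
    intro x hx
    have e1 := whit_eq_of_rho hl (ef x hx) (diagUnit (diffOut F M)⁻¹ * diagUnit v)
    have hx' : (((diffOut F M)⁻¹ : (AF F)ˣ) : AF F) * x = x := by
      linear_combination x * placeAF_mul_diffOut_inv (hw := hw) (hw0 := hw0) hMw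
        + (1 - (((diffOut F M)⁻¹ : (AF F)ˣ) : AF F)) * lp_local hx
    have e2 : diagUnit (diffOut F M)⁻¹ * diagUnit v * upperUnip x =
        upperUnip ((v : AF F) * x) * (diagUnit (diffOut F M)⁻¹ * diagUnit v) := by
      rw [← diagUnit_mul, diagUnit_mul_upperUnip, Units.val_mul, mul_assoc, mul_left_comm, hx']
    rw [e2] at e1
    have e3 := (isWhitFn_whit hl.ne_zero hf).unip ((v : AF F) * x)
      ((diagUnit (diffOut F M)⁻¹ * diagUnit v : GL (Fin 2) (AF F)) : FinPt F (lv F M))
    have e4 : psi ((v : AF F) * x) = psi x := mul_right_cancel₀ hv (e3.symm.trans e1)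
    refine mul_right_cancel₀ (psi_ne_zero x) ?_
    rw [← psi_add, one_mul, show ((v : AF F) - 1) * x + x = (v : AF F) * x by ring, e4]
  set Y := placeAF hw hw0 * ((v : AF F) - 1)
  have hY : placeAF hw hw0 * Y = Y := by rw [← mul_assoc, hε]
  have hYl : placeAF hw hw0 * (Y * pz P (-d - n)) = Y * pz P (-d - n) := by rw [← mul_assoc, hY]
  have h1 : Y * pz P (-d - n) ∈ lp P (-d) := (hd _ hYl).mp fun z hz => by
    rw [show Y * pz P (-d - n) * z = ((v : AF F) - 1) * (placeAF hw hw0 * pz P (-d - n) * z) by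
      ring]
    exact key _ ⟨z, hz, rfl⟩
  refine mem_lp_iff.mpr ⟨hY, ?_⟩
  have h2 := (mem_lp_iff.mp h1).2
  rwa [mul_left_comm, ← pz_add, mul_comm, show -(-d) + (-d - n) = -(n : ℤ) by ring] at h2

/-- The additive characters used to cut down to `1 + M` at the primes other than `w`. -/
theorem sum_psi_shift {K : ℕ} (hK : K ≠ 0) (hM : M ≠ 0) [Fintype (𝓞 F ⧸ Ideal.span {(K : 𝓞 F)})]
    {cst z : AF F} (hcst : cst * ((M : AF F) * diffUnit F) = eN F M) (hz : eN F M * z = z)
    (hsupp : z * (cst * (K : AF F)) * diffUnit F ∈ intAF F) :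
    ∑ o : 𝓞 F ⧸ Ideal.span {(K : 𝓞 F)}, psi (z * (cst * toAF F ((Quotient.out o : 𝓞 F) : F))) =
      open scoped Classical in
      if z ∈ idealAF F (lv F M) then (Fintype.card (𝓞 F ⧸ Ideal.span {(K : 𝓞 F)}) : ℂ) else 0 := by
  classical
  have hwd : ∀ o o' : 𝓞 F, o - o' ∈ Ideal.span {(K : 𝓞 F)} →
      psi (z * (cst * toAF F (o : F))) = psi (z * (cst * toAF F (o' : F))) := by
    intro o o' hoo
    obtain ⟨b, hb⟩ := Ideal.mem_span_singleton'.mp hoo
    rw [show o = o' + (o - o') by ring, ← hb]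
    push_cast
    simp only [map_add, map_mul, map_natCast, mul_add, psi_add]
    refine mul_eq_left₀ (psi_ne_zero _) |>.mpr ?_
    refine psi_eq_one_of_mul_mem ?_
    rw [show (diffUnit F : AF F) * (z * (cst * (toAF F (b : F) * (K : AF F)))) =
      z * (cst * (K : AF F)) * diffUnit F * toAF F (b : F) by ring]
    exact mul_mem hsupp (toAF_mem_intAF b)
  let χ : AddChar (𝓞 F ⧸ Ideal.span {(K : 𝓞 F)}) ℂ :=
    { toFun := fun o => psi (z * (cst * toAF F ((Quotient.out o : 𝓞 F) : F)))
      map_zero_eq_one' := by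
        have h := hwd (Quotient.out (0 : 𝓞 F ⧸ Ideal.span {(K : 𝓞 F)})) 0
          (Ideal.Quotient.eq.mp (by rw [Ideal.Quotient.mk_out, map_zero]))
        simp only [map_zero, mul_zero, psi_zero] at h
        exact h
      map_add_eq_mul' := fun o o' => by
        have h := hwd (Quotient.out (o + o')) (Quotient.out o + Quotient.out o')
          (Ideal.Quotient.eq.mp (by rw [map_add]; simp))
        simp only [map_add, mul_add, psi_add] at h ⊢
        exact h }
  refine (AddChar.sum_eq_ite χ).trans ?_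
  by_cases h0 : χ = 0
  · rw [if_pos h0, if_pos]
    have hpsi : ∀ o : 𝓞 F, psi (z * (cst * toAF F (o : F))) = 1 := fun o => by
      rw [hwd o (Quotient.out (Ideal.Quotient.mk (Ideal.span {(K : 𝓞 F)}) o))
        (Ideal.Quotient.eq.mp (Ideal.Quotient.mk_out _).symm)]
      exact DFunLike.congr_fun h0 (Ideal.Quotient.mk _ o)
    have hint : (diffUnit F : AF F) * (z * cst) ∈ intAF F := by
      refine psi_mul_int_iff.mp fun x hx => ?_
      obtain ⟨x₁, hx₁⟩ := hx
      replace hx₁ : intHom F x₁ = x := hx₁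
      subst hx₁
      obtain ⟨o, r, rfl⟩ := oh_exists_add (F := F) hK x₁
      rw [map_add, map_mul, map_natCast, intHom_tmul_one, mul_add, psi_add, mul_assoc, hpsi,
        one_mul]
      refine psi_eq_one_of_mul_mem ?_
      rw [show (diffUnit F : AF F) * (z * cst * ((K : AF F) * intHom F r)) =
        z * (cst * (K : AF F)) * diffUnit F * intHom F r by ring]
      exact mul_mem hsupp ⟨r, rfl⟩
    rw [show z = ((diffUnit F : AF F) * (z * cst)) * (M : AF F) by
      linear_combination (-z) * hcst - hz]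
    exact mul_mem_idealAF_left hint
      (LanglandsTunnell.natCast_mem_idealAF (Ideal.mem_span_singleton_self _))
  · rw [if_neg h0, if_neg]
    intro hmem
    refine h0 (DFunLike.ext _ _ fun o => ?_)
    show psi (z * (cst * toAF F ((Quotient.out o : 𝓞 F) : F))) = 1
    obtain ⟨r, hr, hry⟩ := idealAF_span_natCast_mul (n := (⊤ : Ideal (𝓞 F))) (N := M) (x := z)
      (by rwa [Ideal.mul_top])
    rw [idealAF_top] at hr
    refine psi_eq_one_of_mul_mem ?_
    rw [show (diffUnit F : AF F) * (z * (cst * toAF F ((Quotient.out o : 𝓞 F) : F))) =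
          eN F M * r * toAF F ((Quotient.out o : 𝓞 F) : F) by
        refine (isUnit_natCast_AF (F := F) hM).mul_left_cancel ?_
        linear_combination z * toAF F ((Quotient.out o : 𝓞 F) : F) * hcst
          + (eN F M * toAF F ((Quotient.out o : 𝓞 F) : F)) * hry]
    exact mul_mem (mul_mem eN_mem hr) (toAF_mem_intAF _)

open scoped Classical in
/-- The indicator of `1 + M` away from `w` and of `1 + P ^ n` at `w`. -/
def bumpAway (P : LocalParams hw hw0) (M n : ℕ) (y : (AF F)ˣ) : ℂ :=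
  if eAway hw hw0 M * ((y : AF F) - 1) ∈ idealAF F (lv F M) ∧
    placeAF hw hw0 * ((y : AF F) - 1) ∈ lp P n then 1 else 0

theorem bumpAway_one : bumpAway P M n (1 : (AF F)ˣ) = 1 := by
  rw [bumpAway, if_pos]
  simp [zero_mem]

/-- Translates trivial at `w` cutting the diagonal coefficients down to the bump. -/
theorem exists_bump_away (hd : IsDiffExp P d) (hMw : (M : 𝓞 F) ∈ w) (hn : 0 < n) {f : Smooth Φ}
    (hf : IsEigenform Φ (restrictLevel M f.1) a) (hl : IsLevel Φ M f.1)
    (ef : PsiEigen P (-d - n) f) (tf : TorusFixed (lunit P n) f) :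
    ∃ (κ : Type) (S : Finset κ) (q : κ → ℂ) (h : κ → GL (Fin 2) (AF F)),
      (∀ j ∈ S, InsideN M (h j) ∧ h j ∈ awayGroup hw hw0) ∧
      ∀ y : (AF F)ˣ, (1 - eN F M) * ((y : AF F) - 1) = 0 →
        ∑ j ∈ S, q j * whit Φ (restrictLevel M f.1)
          ((diagUnit (diffOut F M)⁻¹ * diagUnit y * h j : GL (Fin 2) (AF F)) : FinPt F (lv F M)) =
            bumpAway P M n y := by
  classical
  have hM := hl.ne_zero
  set δo := diffOut F M with hδo
  have hee : eN F M * placeAF hw hw0 = placeAF hw hw0 := eN_mul_placeAF hMw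
  have hεε := placeAF_mul_self hw hw0
  set W : (AF F)ˣ → ℂ := fun v => whit Φ (restrictLevel M f.1)
    ((diagUnit δo⁻¹ * diagUnit v : GL (Fin 2) (AF F)) : FinPt F (lv F M)) with hW
  have hWt : ∀ v t, t ∈ lunit P n → W (v * t) = W v := fun v t ht => by
    rw [hW]
    simp only [diagUnit_mul, ← mul_assoc]
    exact whit_mul_torus hl tf ht _
  have hWk : ∀ (v k : (AF F)ˣ), (1 - eN F M) * ((k : AF F) - 1) = 0 →
      (k : AF F) - 1 ∈ idealAF F (lv F M) → W (v * k) = W v := fun v k hk hk' => by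
    rw [hW]
    simp only [diagUnit_mul, ← mul_assoc]
    rw [mk_mul_congr (diagUnit_mem_principalSubgroup hk' (inv_mem_of_congr hM hk hk'))]
  obtain ⟨u₀, hu₀, hA₀⟩ := exists_whit_ne_zero hM hf
  have hu₀n := mem_lp_of_whit_ne_zero hd hMw hf hl ef hA₀
  set u : (AF F)ˣ := u₀ * (localUnit hw hw0 u₀)⁻¹ with hu
  have hu₀u : u * localUnit hw hw0 u₀ = u₀ := inv_mul_cancel_right _ _
  have hloc := localUnit_sub_one hw hw0 u₀
  have hue : placeAF hw hw0 * ((u : AF F) - 1) = 0 := by
    have h1 : ((u : AF F)) * (localUnit hw hw0 u₀ : (AF F)ˣ) = (u₀ : AF F) := by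
      rw [← Units.val_mul, hu₀u]
    have h2 : placeAF hw hw0 * ((localUnit hw hw0 u₀ : (AF F)ˣ) : AF F) =
        placeAF hw hw0 * u₀ := by
      linear_combination placeAF hw hw0 * hloc + ((u₀ : AF F) - 1) * hεε
    have h3 : placeAF hw hw0 * (u₀ : AF F) * ((u : AF F) - 1) = 0 := by
      linear_combination placeAF hw hw0 * h1 - (u : AF F) * h2
    linear_combination ((u₀⁻¹ : (AF F)ˣ) : AF F) * h3 -
      (placeAF hw hw0 * ((u : AF F) - 1)) * u₀.mul_inv
  have hA1 : W u ≠ 0 := by
    rw [← hWt u _ (localUnit_mem_lunit hn hu₀n), hu₀u]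
    exact hA₀
  have huin : (1 - eN F M) * ((u : AF F) - 1) = 0 := by
    have h1 : ((u : AF F)) * (localUnit hw hw0 u₀ : (AF F)ˣ) = (u₀ : AF F) := by
      rw [← Units.val_mul, hu₀u]
    linear_combination (1 - eN F M) * h1 + hu₀ - (u : AF F) * (1 - eN F M) * hloc
      + (u : AF F) * ((u₀ : AF F) - 1) * hee
  obtain ⟨M₀, hM₀, hMint⟩ := exists_natCast_mul_mem_intAF
    (((diffUnit F * u * (isUnit_natCast_AF (F := F) hM).unit)⁻¹ : (AF F)ˣ) : AF F)
  have hsupp : ∀ v : (AF F)ˣ, W v ≠ 0 →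
      (diffUnit F : AF F) * (eN F M * (v : AF F) * (M : AF F)) ∈ intAF F := by
    intro v hv
    refine psi_mul_int_iff.mp fun z hz => ?_
    have hmem : eN F M * ((M : AF F) * z) ∈ idealAF F (lv F M) :=
      mul_mem_idealAF_left eN_mem (by
        rw [mul_comm]
        exact mul_mem_idealAF_left hz
          (LanglandsTunnell.natCast_mem_idealAF (Ideal.mem_span_singleton_self _)))
    have hk : upperUnip (eN F M * ((M : AF F) * z)) ∈ principalSubgroup (lv F M) :=
      upperUnip_mem_principal hmem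
    have h2 := mk_mul_congr (n := lv F M) hk (diagUnit δo⁻¹ * diagUnit v)
    have e2 : diagUnit δo⁻¹ * diagUnit v * upperUnip (eN F M * ((M : AF F) * z)) =
        upperUnip (eN F M * (v : AF F) * (M : AF F) * z) * (diagUnit δo⁻¹ * diagUnit v) := by
      rw [← diagUnit_mul, diagUnit_mul_upperUnip, Units.val_mul]
      congr 2
      linear_combination ((v : AF F) * (M : AF F) * z) * eN_mul_diffOut_inv (F := F) (M := M)
    rw [e2] at h2
    have e3 := (isWhitFn_whit hM hf).unip (eN F M * (v : AF F) * (M : AF F) * z)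
      ((diagUnit δo⁻¹ * diagUnit v : GL (Fin 2) (AF F)) : FinPt F (lv F M))
    exact mul_right_cancel₀ hv
      (e3.symm.trans ((congrArg (whit Φ (restrictLevel M f.1)) h2).trans (one_mul _).symm))
  -- the characters
  have hK : M₀ * M ≠ 0 := mul_ne_zero hM₀ hM
  have : Finite (𝓞 F ⧸ Ideal.span {((M₀ * M : ℕ) : 𝓞 F)}) :=
    Ideal.finiteQuotientOfFreeOfNeBot _ (lv_ne_bot hK)
  have : Fintype (𝓞 F ⧸ Ideal.span {((M₀ * M : ℕ) : 𝓞 F)}) := Fintype.ofFinite _
  set cst : AF F := eN F M *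
    ((((isUnit_natCast_AF (F := F) hM).unit * diffUnit F)⁻¹ : (AF F)ˣ) : AF F) with hcst
  have hcM : cst * ((M : AF F) * diffUnit F) = eN F M := by
    have h := ((isUnit_natCast_AF (F := F) hM).unit * diffUnit F).inv_mul
    simp only [Units.val_mul, IsUnit.unit_spec] at h
    rw [hcst]
    linear_combination (eN F M) * h
  set ξ : 𝓞 F ⧸ Ideal.span {((M₀ * M : ℕ) : 𝓞 F)} → AF F :=
    fun o => eAway hw hw0 M * (cst * toAF F ((Quotient.out o : 𝓞 F) : F)) with hξ
  have heξ : ∀ o, eN F M * ξ o = ξ o := fun o => by rw [hξ, ← mul_assoc, eN_mul_eAway hMw]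
  have hεξ : ∀ o, placeAF hw hw0 * ξ o = 0 := fun o => by
    rw [hξ, ← mul_assoc, placeAF_mul_eAway hMw, zero_mul]
  refine ⟨_, Finset.univ,
    fun o => psi (-ξ o) / ((Fintype.card (𝓞 F ⧸ Ideal.span {((M₀ * M : ℕ) : 𝓞 F)}) : ℂ) * W u),
    fun o => upperUnip (ξ o) * diagUnit u,
    fun o _ => ⟨InsideN.mul (insideN_upperUnip ?_) (insideN_diagUnit huin),
      mul_mem (upperUnip_mem_away (hεξ o)) (diagUnit_mem_away hue)⟩, fun y hy => ?_⟩
  · rw [sub_mul, one_mul, heξ, sub_self]
  have hterm : ∀ o, psi (-ξ o) * whit Φ (restrictLevel M f.1)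
      ((diagUnit δo⁻¹ * diagUnit y * (upperUnip (ξ o) * diagUnit u) : GL (Fin 2) (AF F)) :
        FinPt F (lv F M)) = psi (((y : AF F) - 1) * ξ o) * W (y * u) := by
    intro o
    have e : diagUnit δo⁻¹ * diagUnit y * (upperUnip (ξ o) * diagUnit u)
        = upperUnip ((y : AF F) * ξ o) * (diagUnit δo⁻¹ * diagUnit (y * u)) := by
      rw [diagUnit_mul y u, ← mul_assoc, ← diagUnit_mul, diagUnit_mul_upperUnip, Units.val_mul]
      rw [show ((δo⁻¹ : (AF F)ˣ) : AF F) * (y : AF F) * ξ o = (y : AF F) * ξ o by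
        linear_combination ((y : AF F) * ξ o) * eN_mul_diffOut_inv (F := F) (M := M)
          + ((y : AF F) * (1 - ((δo⁻¹ : (AF F)ˣ) : AF F))) * heξ o]
      rw [mul_assoc, diagUnit_mul δo⁻¹ y, mul_assoc]
    rw [e]
    refine (congrArg (psi (-ξ o) * ·) ((isWhitFn_whit hM hf).unip ((y : AF F) * ξ o)
      ((diagUnit δo⁻¹ * diagUnit (y * u) : GL (Fin 2) (AF F)) : FinPt F (lv F M)))).trans ?_
    rw [← mul_assoc, ← psi_add, show -ξ o + (y : AF F) * ξ o = ((y : AF F) - 1) * ξ o by ring]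
  simp only [div_mul_eq_mul_div, hterm, ← Finset.sum_div]
  rw [← Finset.sum_mul]
  have hgood : eAway hw hw0 M * ((y : AF F) - 1) ∈ idealAF F (lv F M) →
      placeAF hw hw0 * ((y : AF F) - 1) ∈ lp P n → W (y * u) = W u := fun h1 h2 => by
    have ht := localUnit_mem_lunit hn h2
    set t := localUnit hw hw0 y
    set k := y * t⁻¹ with hk
    have hyk : (k : AF F) * t = y := by rw [← Units.val_mul, hk, inv_mul_cancel_right]
    have hts : (t : AF F) - 1 = placeAF hw hw0 * ((y : AF F) - 1) := localUnit_sub_one hw hw0 y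
    have hεk : placeAF hw hw0 * ((k : AF F) - 1) = 0 := by
      have hεt : placeAF hw hw0 * (t : AF F) = placeAF hw hw0 * y := by
        linear_combination placeAF hw hw0 * hts + ((y : AF F) - 1) * hεε
      have h3 : placeAF hw hw0 * (y : AF F) * ((k : AF F) - 1) = 0 := by
        linear_combination placeAF hw hw0 * hyk - (k : AF F) * hεt
      linear_combination ((y⁻¹ : (AF F)ˣ) : AF F) * h3 -
        (placeAF hw hw0 * ((k : AF F) - 1)) * y.mul_inv
    have hk1 : (k : AF F) - 1 = eAway hw hw0 M * ((y : AF F) - 1) := by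
      rw [eAway]
      linear_combination hyk + hy - (k : AF F) * hts - ((y : AF F) - 1) * hεk
    have hk2 : (1 - eN F M) * ((k : AF F) - 1) = 0 := by
      rw [hk1, ← mul_assoc]
      linear_combination (-((y : AF F) - 1)) * eN_mul_eAway (hw := hw) (hw0 := hw0) hMw
    calc W (y * u) = W (u * t * k) := by
          congr 1
          rw [hk, mul_assoc u t (y * t⁻¹), mul_comm y t⁻¹, mul_inv_cancel_left]; exact mul_comm y u
      _ = W (u * t) := hWk _ k hk2 (hk1 ▸ h1)
      _ = W u := hWt u t ht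
  by_cases hy0 : W (y * u) = 0
  · rw [hy0, mul_zero, zero_div, bumpAway, if_neg]
    exact fun h => hA1 ((hgood h.1 h.2).symm.trans hy0)
  have hεy : placeAF hw hw0 * ((y : AF F) - 1) ∈ lp P n := by
    have h := mem_lp_of_whit_ne_zero hd hMw hf hl ef hy0
    rwa [Units.val_mul, show placeAF hw hw0 * ((y : AF F) * u - 1) =
      placeAF hw hw0 * ((y : AF F) - 1) by linear_combination (y : AF F) * hue] at h
  have hz : eN F M * (eAway hw hw0 M * ((y : AF F) - 1)) = eAway hw hw0 M * ((y : AF F) - 1) := by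
    rw [← mul_assoc, eN_mul_eAway hMw]
  have hsum : ∑ o, psi (((y : AF F) - 1) * ξ o) =
      if eAway hw hw0 M * ((y : AF F) - 1) ∈ idealAF F (lv F M) then
        (Fintype.card (𝓞 F ⧸ Ideal.span {((M₀ * M : ℕ) : 𝓞 F)}) : ℂ) else 0 := by
    have hshift : ∀ o, ((y : AF F) - 1) * ξ o = eAway hw hw0 M * ((y : AF F) - 1) *
        (cst * toAF F ((Quotient.out o : 𝓞 F) : F)) := fun o => by simp only [hξ]; ring
    rw [Finset.sum_congr rfl fun o _ => congrArg psi (hshift o)]
    refine sum_psi_shift hK hM hcM hz ?_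
    rw [show eAway hw hw0 M * ((y : AF F) - 1) * (cst * ((M₀ * M : ℕ) : AF F)) * diffUnit F =
        eAway hw hw0 M * ((M₀ : AF F) * (eN F M * (y : AF F)) - (M₀ : AF F) * eN F M) by
      push_cast
      linear_combination (eAway hw hw0 M * ((y : AF F) - 1) * (M₀ : AF F)) * hcM]
    refine mul_mem eAway_mem (sub_mem ?_ (mul_mem (natCast_mem _ _) eN_mem))
    have h4 := mul_mem (hsupp _ hy0) hMint
    have hu1 := (diffUnit F * u * (isUnit_natCast_AF (F := F) hM).unit).mul_inv
    simp only [Units.val_mul, IsUnit.unit_spec] at hu1 h4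
    convert h4 using 1
    linear_combination (-((M₀ : AF F) * (eN F M * (y : AF F)))) * hu1
  rw [hsum]
  by_cases h1 : eAway hw hw0 M * ((y : AF F) - 1) ∈ idealAF F (lv F M)
  · rw [if_pos h1, hgood h1 hεy, bumpAway, if_pos ⟨h1, hεy⟩,
      div_self (mul_ne_zero (Nat.cast_ne_zero.mpr Fintype.card_ne_zero) hA1)]
  · rw [if_neg h1, zero_mul, zero_div, bumpAway, if_neg fun h => h1 h.1]

/-- **Multiplicity one away from `w`.** -/
theorem exists_inner_away (hd : IsDiffExp P d) {f u : Smooth Φ}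
    (hMw : (M : 𝓞 F) ∈ w) (hn : 0 < n) (hf : InSys Φ M a f) (hu : InSys Φ M a u) (hf0 : f ≠ 0)
    (hu0 : u ≠ 0) (hcf : CuspVec f) (hcu : CuspVec u) (ef : PsiEigen P (-d - n) f)
    (eu : PsiEigen P (-d - n) u) (tf : TorusFixed (lunit P n) f)
    (tu : TorusFixed (lunit P n) u) :
    ∃ g ∈ awayGroup hw hw0, SupportedAt M g ∧ ⟪f, rho Φ g u⟫_ℂ ≠ 0 := by
  classical
  have hM := hf.level.ne_zero
  have hef := hf.isEigenform hf0 (hcf.isCuspidal hf.level)
  have heu := hu.isEigenform hu0 (hcu.isCuspidal hu.level)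
  obtain ⟨κ, S, q, h, hh, hW⟩ := exists_bump_away hd hMw hn hef hf.level ef tf
  obtain ⟨κ', S', q', h', hh', hW'⟩ := exists_bump_away hd hMw hn heu hu.level eu tu
  set s := S.toList.map fun j => (q j, h j) with hs
  set s' := S'.toList.map fun j => (q' j, h' j) with hs'
  have heq : comboS s f = comboS s' u := by
    refine Subtype.ext ?_
    rw [comboS_val, comboS_val, ← hf.level.liftForm_restrict, ← hu.level.liftForm_restrict]
    exact combo_eq_of_whit_eq hM hef heu (fun j hj => (hh j hj).1) (fun j hj => (hh' j hj).1) hW hW'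
  have hne : comboS s f ≠ 0 := by
    intro hzero
    refine combo_ne_zero_of_whit hM hef (by rw [hW 1 (by simp), bumpAway_one]) ?_
    rw [hf.level.liftForm_restrict, ← comboS_val, hzero]
    rfl
  have hinner : ⟪comboS s f, comboS s' u⟫_ℂ ≠ 0 := by
    rw [← heq]
    exact inner_self_ne_zero.mpr hne
  obtain ⟨y, hy, hy'⟩ := exists_of_inner_comboS hinner
  rw [← inner_conj_symm, map_ne_zero] at hy'
  obtain ⟨x, hx, hx'⟩ := exists_of_inner_comboS hy'
  obtain ⟨i, hi, rfl⟩ := List.mem_map.mp hx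
  obtain ⟨j, hj, rfl⟩ := List.mem_map.mp hy
  obtain ⟨hi1, hi2⟩ := hh i (Finset.mem_toList.mp hi)
  obtain ⟨hj1, hj2⟩ := hh' j (Finset.mem_toList.mp hj)
  refine ⟨(h i)⁻¹ * h' j, mul_mem (inv_mem hi2) hj2,
    supportedAt_inv_mul hi1.supportedAt hj1.supportedAt, fun h0 => hx' ?_⟩
  rw [rho_mul] at h0
  rw [← inner_conj_symm, map_eq_zero, ← h0]
  conv_rhs => rw [← TreeData.inner_apply (rho Φ) (h i), ← rho_mul, mul_inv_cancel, map_one]
  rfl

end Tame

end FLTAgent.LanglandsTunnell.Isolation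

end
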