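import Fermat.Agent.LanglandsTunnell.Isolation.Tame.Defs
import Fermat.Agent.LanglandsTunnell.Expansion.Character

/-!
# A fixed tame place: the layers of the automorphism and of the character

On the layer of order `i` at the place the automorphism is multiplication by the `i`-th power of a
cube root of unity other than one, so `1 - θ` is onto on the layers of order prime to three.
-/

set_option autoImplicit false

noncomputable section

namespace FLTAgent.LanglandsTunnell.Isolation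

open scoped TensorProduct
open FLTAgent.LanglandsTunnell NumberField Matrix Function
open FLTAgent.LanglandsTunnell.Expansion (psi trExp exists_sub_mem_int psi_eq psi_add psi_ne_zero
  diffUnit diffUnit_mem psi_mul_int_iff)
open FLTAgent.LanglandsTunnell.Local (compOH compAF_intHom φp φp_injective isPComplete_op af_ext)

namespace Tame

variable {F : Type} [Field F] [NumberField F] {w : Ideal (𝓞 F)} {hw : w.IsPrime} {hw0 : w ≠ ⊥}
  {P : LocalParams hw hw0} {i j : ℤ} {x y : AF F}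

theorem pz_mul_mem (hx : x ∈ lp P i) (j : ℤ) : pz P j * x ∈ lp P (j + i) := by
  obtain ⟨y, hy, rfl⟩ := hx
  exact ⟨y, hy, by rw [pz_add]; ring⟩

theorem placeAF_mul_pz_mem (hy : y ∈ intAF F) (i : ℤ) :
    placeAF hw hw0 * pz P i * y ∈ lp P i := ⟨y, hy, rfl⟩

theorem mem_lp_one_iff : x ∈ lp P 1 ↔ placeAF hw hw0 * x = x ∧ x ∈ idealAF F w := by
  constructor
  · rintro ⟨y, hy, rfl⟩
    refine ⟨by rw [← mul_assoc, ← mul_assoc, placeAF_mul_self], ?_⟩
    rw [show placeAF hw hw0 * pz P 1 * y = (P.π : AF F) * (placeAF hw hw0 * y) by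
      rw [show ((1 : ℤ)) = ((1 : ℕ) : ℤ) from rfl, pz_natCast, pow_one]; ring]
    rw [P.uniformizer.2]
    exact ⟨_, (mul_mem placeAF_mem_intAF hy : placeAF hw hw0 * y ∈ intAF F), rfl⟩
  · rintro ⟨he, hx⟩
    obtain ⟨z, hz, rfl⟩ := P.uniformizer.exists_eq_mul hx
    refine ⟨z, hz, ?_⟩
    rw [show ((1 : ℤ)) = ((1 : ℕ) : ℤ) from rfl, pz_natCast, pow_one]
    linear_combination -he

theorem mul_mem_lp_one (hx : x ∈ idealAF F w) : placeAF hw hw0 * x ∈ lp P 1 :=
  mem_lp_one_iff.mpr ⟨by rw [← mul_assoc, placeAF_mul_self],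
    mul_mem_idealAF_left placeAF_mem_intAF hx⟩

theorem placeAF_notMem_lp_one : placeAF hw hw0 ∉ lp P 1 := fun h =>
  placeIdem_not_mem hw hw0 (intHom_mem_idealAF_iff.mp (mem_lp_one_iff.mp h).2)

/-- An integral adele invertible in the adeles is a power of the uniformizer times a unit at `w`. -/
theorem exists_pow_eq {X : OH F} (hX : IsUnit (intHom F X)) :
    ∃ (i : ℕ) (u : (OH F)ˣ), placeAF hw hw0 * intHom F X =
      placeAF hw hw0 * ((P.π : AF F) ^ i * intHom F (u : OH F)) := by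
  obtain ⟨π₀, hπ, hspan⟩ := P.eq_localGenerator
  have hunit : IsUnit (intHom F π₀) := hπ ▸ P.π.isUnit
  obtain ⟨M, hM, hmem⟩ := exists_natCast_mem_span X hX
  obtain ⟨d, hd⟩ := Ideal.mem_span_singleton.mp hmem
  obtain ⟨j, z, hj⟩ := exists_natCast_mul_eq_pow hw hw0 hspan M hM
  obtain ⟨i, u, hu⟩ := exists_pow_mul_unit (hw := hw) (hw0 := hw0) hspan j X (d * z)
    (by rw [← mul_assoc X, ← hd]; exact hj) (by rw [map_one, mul_one]; exact hunit.ne_zero) hunit
  refine ⟨i, u, ?_⟩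
  rw [placeAF, ← hπ, ← map_pow, ← map_mul, ← map_mul, ← map_mul, hu]

theorem exists_mem_lp (hx : placeAF hw hw0 * x = x) : ∃ i, x ∈ lp P i := by
  obtain ⟨N, hN, hNx⟩ := exists_natCast_mul_mem_intAF x
  obtain ⟨p, hp⟩ := exists_prime_natCast_mem hw hw0
  obtain ⟨m, u, hm⟩ := P.exists_exponent (N := N * p) (mul_ne_zero hN p.2.ne_zero)
    (by rw [Nat.cast_mul]; exact Ideal.mul_mem_left _ _ hp)
  refine ⟨-((m + 1 : ℕ) : ℤ), mem_lp_iff.mpr ⟨hx, ?_⟩⟩
  have e : intHom F (u : OH F) * intHom F (↑u⁻¹ : OH F) = 1 := by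
    rw [← map_mul, Units.mul_inv, map_one]
  rw [neg_neg, pz_natCast, show (P.π : AF F) ^ (m + 1) * x =
      intHom F (↑u⁻¹ : OH F) * ((placeAF hw hw0 * ((P.π : AF F) ^ (m + 1) *
        intHom F (u : OH F))) * x) by
    linear_combination (-((P.π : AF F) ^ (m + 1)) * intHom F (↑u⁻¹ : OH F) *
        intHom F (u : OH F)) * hx - ((P.π : AF F) ^ (m + 1) * x) * e, ← hm, Nat.cast_mul]
  rw [show placeAF hw hw0 * ((N : AF F) * ((p : ℕ) : AF F)) * x =
    placeAF hw hw0 * ((p : ℕ) : AF F) * ((N : AF F) * x) by ring]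
  exact mul_mem ⟨_, rfl⟩ (mul_mem (mul_mem placeAF_mem_intAF (natCast_mem _ _)) hNx)

theorem eq_zero_of_forall_mem_lp (h : ∀ i, x ∈ lp P i) : x = 0 := by
  obtain ⟨p, hp⟩ := exists_prime_natCast_mem hw hw0
  obtain ⟨m, u, hm⟩ := P.exists_exponent (N := (p : ℕ)) p.2.ne_zero hp
  refine af_ext fun q => ?_
  rw [map_zero]
  by_cases hq : ((q : ℕ) : 𝓞 F) ∈ w
  · have hqp : (q : ℕ) = p := by
      by_contra hne
      obtain ⟨a, b, hab⟩ := Nat.Coprime.isCoprime ((Nat.coprime_primes q.2 p.2).mpr hne)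
      refine hw.ne_top ((Ideal.eq_top_iff_one _).mpr ?_)
      have h1 : (((a * (q : ℕ) + b * (p : ℕ) : ℤ)) : 𝓞 F) ∈ w := by
        push_cast
        exact add_mem (Ideal.mul_mem_left _ _ hq) (Ideal.mul_mem_left _ _ hp)
      rwa [hab, Int.cast_one] at h1
    obtain rfl : q = p := Subtype.ext hqp
    obtain ⟨X, hX⟩ := mem_intAF.mp (lp_le_intAF le_rfl (h 0))
    rw [← hX, compAF_intHom]
    refine (map_eq_zero_iff _ φp_injective).mpr
      ((isPComplete_op (F := F) (p := (q : ℕ))).haus _ fun n => ?_)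
    obtain ⟨y, hy, hxy⟩ := h (((m + 1) * n : ℕ) : ℤ)
    obtain ⟨Y, rfl⟩ := mem_intAF.mp hy
    have e : intHom F (u : OH F) * intHom F (↑u⁻¹ : OH F) = 1 := by
      rw [← map_mul, Units.mul_inv, map_one]
    have hε : ∀ n : ℕ, 0 < n → placeAF hw hw0 ^ n = placeAF hw hw0 := fun n hn => by
      obtain ⟨l, rfl⟩ := Nat.exists_eq_succ_of_ne_zero hn.ne'
      exact IsIdempotentElem.pow_succ_eq _ (placeAF_mul_self hw hw0)
    rcases Nat.eq_zero_or_pos n with rfl | hn
    · rw [pow_zero]; exact one_dvd _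
    have hX2 : X = ((q : ℕ) : OH F) ^ n * (placeIdem hw hw0 * (↑u⁻¹ : OH F) ^ n * Y) := by
      refine intHom_injective ?_
      rw [hX, hxy, pz_natCast, pow_mul, map_mul, map_pow, map_natCast, map_mul, map_mul, map_pow]
      show placeAF hw hw0 * _ * _ = ((q : ℕ) : AF F) ^ n * (placeAF hw hw0 * _ * _)
      have h2 := congrArg (· ^ n) hm
      simp only [mul_pow, hε n hn] at h2
      have e' := congrArg (· ^ n) e
      simp only [mul_pow, one_pow] at e'
      linear_combination (-(intHom F (↑u⁻¹ : OH F)) ^ n * intHom F Y) * h2 -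
        (placeAF hw hw0 * ((P.π : AF F) ^ (m + 1)) ^ n * intHom F Y) * e'
    exact ⟨compOH q (placeIdem hw hw0 * (↑u⁻¹ : OH F) ^ n * Y), by
      rw [← map_natCast (compOH (F := F) q), ← map_pow, ← map_mul, ← hX2]⟩
  · rw [← lp_local (h 0), map_mul, compAF_placeAF hw hw0 hq, zero_mul]

theorem exists_digit (hx : x ∈ lp P i) : ∃ r : 𝓞 F ⧸ w, x - pz P i * P.c r ∈ lp P (i + 1) := by
  obtain ⟨y, hy, rfl⟩ := hx
  obtain ⟨r, hr, -⟩ := P.c_res.exists_unique y hy
  refine ⟨r, ?_⟩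
  have h := pz_mul_mem (mul_mem_lp_one (P := P) hr) i
  rw [mul_sub, P.c_local, mul_sub] at h
  rwa [show placeAF hw hw0 * pz P i * y = pz P i * (placeAF hw hw0 * y) by ring]

/-! ### The character -/

theorem exists_isDiffExp (P : LocalParams hw hw0) : ∃ d, IsDiffExp P d := by
  obtain ⟨D, hD⟩ := mem_intAF.mp (diffUnit_mem (F := F))
  obtain ⟨e, u, he⟩ := exists_pow_eq (P := P) (X := D) (hD ▸ (diffUnit F).isUnit)
  rw [hD] at he
  refine ⟨(e : ℤ), fun x hx => ?_⟩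
  have e1 : intHom F (u : OH F) * intHom F (↑u⁻¹ : OH F) = 1 := by
    rw [← map_mul, Units.mul_inv, map_one]
  rw [psi_mul_int_iff, mem_lp_iff, neg_neg, pz_natCast]
  constructor
  · refine fun h => ⟨hx, ?_⟩
    rw [show (P.π : AF F) ^ e * x =
        intHom F (↑u⁻¹ : OH F) * ((diffUnit F : AF F) * x) by
      linear_combination (-(x * intHom F (↑u⁻¹ : OH F))) * he -
        ((P.π : AF F) ^ e * x) * e1 + (intHom F (↑u⁻¹ : OH F) * (diffUnit F : AF F) -
          (P.π : AF F) ^ e * intHom F (u : OH F) * intHom F (↑u⁻¹ : OH F)) * hx]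
    exact mul_mem ⟨_, rfl⟩ h
  · rintro ⟨-, h⟩
    rw [show (diffUnit F : AF F) * x = intHom F (u : OH F) * ((P.π : AF F) ^ e * x) by
      linear_combination x * he + (-(diffUnit F : AF F) +
        (P.π : AF F) ^ e * intHom F (u : OH F)) * hx]
    exact mul_mem ⟨_, rfl⟩ h

variable {ι : Type} [Fintype ι] [DecidableEq ι] {Φ : PlaceChoice F ι}

omit [Fintype ι] [DecidableEq ι] in
/-- The character is invariant under automorphisms. -/
theorem psi_mapAF (T : TwistData Φ) (x : AF F) :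
    psi (mapAF T.σ.toAlgHom.toRingHom x) = psi x := by
  obtain ⟨f, hf⟩ := exists_sub_mem_int x
  have h : mapAF T.σ.toAlgHom.toRingHom x - toAF F (T.σ f) ∈ intAF F := by
    have h1 := mapAF_mem_intAF T.σ.toAlgHom.toRingHom hf
    rw [map_sub, mapAF_toAF] at h1
    exact h1
  rw [psi_eq h, psi_eq hf, trExp, trExp, Algebra.trace_eq_of_algEquiv]

/-! ### The automorphism at a fixed tame place -/

namespace Setup

variable (S : Setup Φ)

omit [Fintype ι] [DecidableEq ι] in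
theorem θ_cube (x : AF F) : S.θ (S.θ (S.θ x)) = x := by
  induction x using TensorProduct.induction_on with
  | zero => simp
  | tmul a z =>
    show (S.T.σ (S.T.σ (S.T.σ a))) ⊗ₜ[ℤ] z = a ⊗ₜ[ℤ] z
    rw [S.cube]
  | add x y hx hy => rw [map_add, map_add, map_add, hx, hy]

theorem θ_placeAF : S.θ (placeAF S.hw S.hw0) = placeAF S.hw S.hw0 :=
  S.T.mapAF_placeAF S.hw S.hw0 S.hw S.hw0 S.fixed

omit [Fintype ι] [DecidableEq ι] in
theorem θu_val (u : (AF F)ˣ) : ((S.θu u : (AF F)ˣ) : AF F) = S.θ (u : AF F) := rfl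

omit [Fintype ι] [DecidableEq ι] in
theorem θ_mem_idealAF (hx : x ∈ idealAF F S.w) : S.θ x ∈ idealAF F S.w := by
  have h := mapAF_mem_idealAF S.T.σ.toAlgHom.toRingHom hx
  have e : S.w.map (RingOfIntegers.mapRingHom S.T.σ.toAlgHom.toRingHom) = S.w := S.fixed
  rwa [e] at h

/-- The ratio of the uniformizer and its image is a unit at `w`. -/
theorem pi_ratio : S.θu S.P.π * S.P.π⁻¹ ∈ lunit S.P 0 := by
  set u := S.θu S.P.π * S.P.π⁻¹ with hu
  have hπ : (S.P.π : AF F) ∈ idealAF F S.w := by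
    rw [S.P.uniformizer.2]
    exact ⟨1, (one_mem _ : (1 : AF F) ∈ intAF F), mul_one _⟩
  have hε := placeAF_mul_self S.hw S.hw0
  have hθπ : placeAF S.hw S.hw0 * (S.θ (S.P.π : AF F) - 1) = S.θ (S.P.π : AF F) - 1 := by
    have h := congrArg S.θ S.P.π_local
    rwa [map_mul, S.θ_placeAF, map_sub, map_one] at h
  obtain ⟨z, hz, e1⟩ := S.P.uniformizer.exists_eq_mul (S.θ_mem_idealAF hπ)
  obtain ⟨z', hz', e2⟩ := S.P.uniformizer.exists_eq_mul
    (S.θ_mem_idealAF (S.θ_mem_idealAF hπ))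
  have huz : (u : AF F) = z := by
    rw [hu, Units.val_mul, θu_val, e1]
    linear_combination z * S.P.π.mul_inv
  have hui : ((u⁻¹ : (AF F)ˣ) : AF F) = S.θ z' := by
    refine u.isUnit.mul_left_cancel ?_
    rw [Units.mul_inv, huz]
    refine (S.P.π.isUnit.mul_left_cancel ?_).symm
    rw [mul_one, ← mul_assoc, ← e1, ← map_mul, ← e2, S.θ_cube]
  have hloc : placeAF S.hw S.hw0 * ((u : AF F) - 1) = (u : AF F) - 1 := by
    refine S.P.π.isUnit.mul_left_cancel ?_
    rw [huz]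
    linear_combination hθπ - S.P.π_local - (placeAF S.hw S.hw0 - 1) * e1
  have hloc' : placeAF S.hw S.hw0 * (((u⁻¹ : (AF F)ˣ) : AF F) - 1) =
      ((u⁻¹ : (AF F)ˣ) : AF F) - 1 := by
    linear_combination (-((u⁻¹ : (AF F)ˣ) : AF F)) * hloc +
      (placeAF S.hw S.hw0 - 1) * u.inv_mul
  refine ⟨mem_lp_iff.mpr ⟨hloc, ?_⟩, mem_lp_iff.mpr ⟨hloc', ?_⟩⟩ <;>
    rw [Nat.cast_zero, neg_zero, pz_zero, one_mul]
  · rw [huz]; exact sub_mem hz (one_mem _)
  · rw [hui]; exact sub_mem (mapAF_mem_intAF _ hz') (one_mem _)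

/-- The multiplier of the uniformizer. -/
def mult : (AF F)ˣ := S.θu S.P.π * S.P.π⁻¹

theorem mult_mem : S.mult ∈ lunit S.P 0 := S.pi_ratio

theorem mult_zpow_mem_int (i : ℤ) : ((S.mult ^ i : (AF F)ˣ) : AF F) ∈ intAF F :=
  lunit_intAF (zpow_mem S.mult_mem i)

omit [Fintype ι] [DecidableEq ι] in
theorem θ_pz (i : ℤ) : S.θ (pz S.P i) = pz S.P i * ((S.mult ^ i : (AF F)ˣ) : AF F) := by
  have h : S.θu (S.P.π ^ i) = S.P.π ^ i * S.mult ^ i := by
    refine (map_zpow S.θu _ _).trans (Eq.trans ?_ (mul_zpow S.P.π S.mult i))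
    rw [mult, mul_comm (S.θu S.P.π), mul_inv_cancel_left]
  exact congrArg Units.val h

theorem map_mem_lp (hx : x ∈ lp S.P i) : S.θ x ∈ lp S.P i := by
  obtain ⟨y, hy, rfl⟩ := hx
  rw [map_mul, map_mul, S.θ_placeAF, S.θ_pz]
  refine ⟨((S.mult ^ i : (AF F)ˣ) : AF F) * S.θ y,
    mul_mem (S.mult_zpow_mem_int i) (mapAF_mem_intAF _ hy), by ring⟩

theorem map_mem_lunit {r : ℕ} {t : (AF F)ˣ} (ht : t ∈ lunit S.P r) : S.θu t ∈ lunit S.P r := by
  refine ⟨?_, ?_⟩
  · rw [θu_val, ← map_one S.θ, ← map_sub]; exact S.map_mem_lp ht.1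
  · rw [← map_inv, θu_val, ← map_one S.θ, ← map_sub]; exact S.map_mem_lp ht.2

omit [Fintype ι] [DecidableEq ι] in
/-- The automorphism is trivial on the residues. -/
theorem sub_self_mem (hy : y ∈ intAF F) : placeAF S.hw S.hw0 * (S.θ y - y) ∈ lp S.P 1 := by
  obtain ⟨Y, rfl⟩ := mem_intAF.mp hy
  obtain ⟨p, hp⟩ := exists_prime_natCast_mem S.hw S.hw0
  obtain ⟨a, Z, rfl⟩ := oh_exists_add (F := F) p.2.ne_zero Y
  refine mul_mem_lp_one ?_
  rw [map_add, map_mul, map_natCast, intHom_tmul_one, map_add, map_mul, map_natCast, mapAF_toAF]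
  have h1 : toAF F (S.T.σ.toAlgHom.toRingHom (a : F)) - toAF F (a : F) ∈ idealAF F S.w :=
    mem_idealAF.mpr ⟨_, tmul_one_mem_idealOH (S.residue a), by
      rw [intHom_tmul_one, ← map_sub]; rfl⟩
  have h2 : ((p : ℕ) : AF F) * (S.θ (intHom F Z) - intHom F Z) ∈ idealAF F S.w := by
    rw [mul_comm]
    exact mul_mem_idealAF_left (sub_mem (mapAF_mem_intAF _ ⟨Z, rfl⟩) ⟨Z, rfl⟩)
      (natCast_mem_idealAF hp)
  have h3 := add_mem h1 h2
  convert h3 using 1
  ring

/-- On the layer of order `i` the automorphism is the multiplier to the power `i`. -/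
theorem sub_mult_mem (hx : x ∈ lp S.P i) :
    S.θ x - ((S.mult ^ i : (AF F)ˣ) : AF F) * x ∈ lp S.P (i + 1) := by
  obtain ⟨y, hy, rfl⟩ := hx
  rw [map_mul, map_mul, S.θ_placeAF, S.θ_pz]
  have h := mul_mem_lp_of_int (S.mult_zpow_mem_int i) (pz_mul_mem (S.sub_self_mem hy) i)
  convert h using 1
  ring

theorem mult_cube_sub_one : ((S.mult ^ (3 : ℕ) : (AF F)ˣ) : AF F) - 1 ∈ lp S.P 1 := by
  set u : AF F := (S.mult : AF F) with hu
  have hfix : ∀ t ∈ lunit S.P 0, S.θ (t : AF F) - t ∈ lp S.P 1 := fun t ht => by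
    have h := S.sub_self_mem (lp_le_intAF le_rfl ht.1)
    rw [mul_sub, ← lp_local (S.map_mem_lp ht.1), ← mul_assoc, placeAF_mul_self,
      lp_local (S.map_mem_lp ht.1), lp_local ht.1, map_sub, map_one] at h
    rwa [show S.θ (t : AF F) - 1 - ((t : AF F) - 1) = S.θ (t : AF F) - t by ring] at h
  have hprod : u * S.θ u * S.θ (S.θ u) = 1 := by
    have h0 := S.θ_pz 1
    rw [zpow_one, show pz S.P 1 = (S.P.π : AF F) by simp [pz]] at h0
    have h3 := S.θ_cube (S.P.π : AF F)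
    rw [h0, map_mul, h0, map_mul, map_mul, h0] at h3
    refine S.P.π.isUnit.mul_left_cancel ?_
    rw [mul_one]
    linear_combination h3
  have h1 := hfix _ S.mult_mem
  have h2 := hfix _ (S.map_mem_lunit S.mult_mem)
  rw [θu_val] at h2
  have hint : ∀ t ∈ lunit S.P 0, (t : AF F) ∈ intAF F := fun t ht => lunit_intAF ht
  rw [Units.val_pow_eq_pow_val, ← hu, show u ^ 3 - 1 =
    (-u) * S.θ u * (S.θ (S.θ u) - S.θ u) + (-u) * (u + S.θ u) * (S.θ u - u) by
      linear_combination hprod]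
  exact add_mem
    (mul_mem_lp_of_int (mul_mem (neg_mem (hint _ S.mult_mem))
      (mapAF_mem_intAF _ (hint _ S.mult_mem))) h2)
    (mul_mem_lp_of_int (mul_mem (neg_mem (hint _ S.mult_mem))
      (add_mem (hint _ S.mult_mem) (mapAF_mem_intAF _ (hint _ S.mult_mem)))) h1)

/-- The multiplier is not one modulo `w`. -/
theorem mult_sub_one_notMem : (S.mult : AF F) - 1 ∉ lp S.P 1 := by
  intro hm
  have hstep : ∀ (k : ℤ) (x : AF F), x ∈ lp S.P k → S.θ x - x ∈ lp S.P (k + 1) := by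
    intro k x hx
    have hmu : S.mult ∈ lunit S.P 1 := by
      refine ⟨by simpa using hm, ?_⟩
      rw [show ((S.mult⁻¹ : (AF F)ˣ) : AF F) - 1 =
        -((S.mult⁻¹ : (AF F)ˣ) : AF F) * ((S.mult : AF F) - 1) by
          linear_combination S.mult.inv_mul]
      exact mul_mem_lp_of_int (neg_mem (lunit_intAF (inv_mem S.mult_mem))) (by simpa using hm)
    have h1 : (((S.mult ^ k : (AF F)ˣ) : AF F) - 1) * x ∈ lp S.P (k + 1) := by
      rw [add_comm k]
      simpa using mul_mem_lp (zpow_mem hmu k).1 hx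
    rw [show S.θ x - x = (S.θ x - ((S.mult ^ k : (AF F)ˣ) : AF F) * x) +
      (((S.mult ^ k : (AF F)ˣ) : AF F) - 1) * x by ring]
    exact add_mem (S.sub_mult_mem hx) h1
  have h3 : (3 : OH F) ∉ idealOH S.w := fun h => S.three ((tmul_one_mem_idealOH_iff S.hw0).mp (by
    rwa [show (3 : 𝓞 F) ⊗ₜ[ℤ] (1 : Zhat) = (3 : OH F) from
      map_ofNat (Algebra.TensorProduct.includeLeftRingHom : 𝓞 F →+* OH F) 3]))
  obtain ⟨z, hz⟩ := exists_inv_of_not_mem S.hw S.hw0 h3
  have hz' : placeAF S.hw S.hw0 * (3 * intHom F z) = placeAF S.hw S.hw0 := by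
    have h := congrArg (intHom F) hz
    rw [map_mul, map_mul, map_ofNat] at h
    exact h
  have hfix : ∀ x : AF F, placeAF S.hw S.hw0 * x = x → S.θ x = x := by
    intro x hx
    obtain ⟨i, hi⟩ := exists_mem_lp (P := S.P) hx
    refine sub_eq_zero.mp (eq_zero_of_forall_mem_lp (P := S.P) ?_)
    suffices H : ∀ n : ℕ, S.θ x - x ∈ lp S.P (i + 1 + n) by
      exact fun k => lp_anti (by omega) (H (k - i - 1).toNat)
    intro n
    induction n with
    | zero => simpa using hstep i x hi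
    | succ n ih =>
      set y := S.θ x - x with hy
      have hy2 := hstep _ _ ih
      have hy3 := hstep _ _ hy2
      have hrel : (S.θ (S.θ y - y) - (S.θ y - y)) + 3 * (S.θ y - y) + 3 * y = 0 := by
        simp only [hy, map_sub, S.θ_cube]
        ring
      have hm3 : 3 * y ∈ lp S.P (i + 1 + n + 1) := by
        rw [show 3 * y = -(S.θ (S.θ y - y) - (S.θ y - y)) - 3 * (S.θ y - y) by
          linear_combination hrel]
        exact sub_mem (neg_mem (lp_anti (by omega) hy3))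
          (mul_mem_lp_of_int (natCast_mem (intAF F) 3) hy2)
      have he : y = intHom F z * (3 * y) := by
        linear_combination (-y) * hz' + (3 * intHom F z - 1) * lp_local ih
      rw [Nat.cast_succ, ← add_assoc, he]
      exact mul_mem_lp_of_int ⟨z, rfl⟩ hm3
  obtain ⟨a, ha⟩ := S.moved
  have h0 : placeAF S.hw S.hw0 * toAF F (S.T.σ a - a) = 0 := by
    have h := hfix (placeAF S.hw S.hw0 * toAF F a) (by rw [← mul_assoc, placeAF_mul_self])
    rw [map_mul, S.θ_placeAF, mapAF_toAF] at h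
    rw [map_sub, mul_sub, sub_eq_zero]
    exact h
  have hu : IsUnit (toAF F (S.T.σ a - a)) :=
    (isUnit_iff_ne_zero.mpr (sub_ne_zero.mpr ha)).map _
  exact placeAF_notMem_lp_one (P := S.P) (hu.mul_left_eq_zero.mp h0 ▸ zero_mem _)

theorem mult_zpow_three_sub_one (k : ℤ) :
    ((S.mult ^ (3 * k) : (AF F)ˣ) : AF F) - 1 ∈ lp S.P 1 := by
  have hi := lunit_intAF (inv_mem (pow_mem S.mult_mem 3))
  have h1 : S.mult ^ (3 : ℕ) ∈ lunit S.P 1 := by
    refine ⟨by simpa using S.mult_cube_sub_one, ?_⟩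
    rw [show ((((S.mult ^ (3 : ℕ))⁻¹ : (AF F)ˣ)) : AF F) - 1 =
      -((((S.mult ^ (3 : ℕ))⁻¹ : (AF F)ˣ)) : AF F) * (((S.mult ^ (3 : ℕ) : (AF F)ˣ) : AF F) - 1) by
        linear_combination (S.mult ^ (3 : ℕ)).inv_mul]
    exact mul_mem_lp_of_int (neg_mem hi) (by simpa using S.mult_cube_sub_one)
  have h2 := (zpow_mem h1 k).1
  rw [← _root_.zpow_natCast, ← _root_.zpow_mul] at h2
  simpa using h2

/-- Powers prime to three of the multiplier are not one modulo `w`. -/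
theorem mult_zpow_sub_one_notMem (hi : ¬ (3 : ℤ) ∣ i) :
    ((S.mult ^ i : (AF F)ˣ) : AF F) - 1 ∉ lp S.P 1 := by
  intro h
  obtain ⟨k, hk⟩ : ∃ k, i = 3 * k + 1 ∨ i = 3 * k - 1 := ⟨(i + 1) / 3, by omega⟩
  apply S.mult_sub_one_notMem
  have h3 := S.mult_zpow_three_sub_one k
  set a : AF F := ((S.mult ^ (3 * k) : (AF F)ˣ) : AF F) with ha
  rcases hk with rfl | rfl
  · rw [_root_.zpow_add_one, Units.val_mul, ← ha] at h
    rw [show (S.mult : AF F) - 1 = (a * (S.mult : AF F) - 1) - (S.mult : AF F) * (a - 1) by ring]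
    exact sub_mem h (mul_mem_lp_of_int (lunit_intAF S.mult_mem) h3)
  · rw [show (3 * k - 1 : ℤ) = 3 * k + (-1) by ring, _root_.zpow_add, _root_.zpow_neg_one,
      Units.val_mul,
      ← ha] at h
    rw [show (S.mult : AF F) - 1 = (a - 1) -
      (S.mult : AF F) * (a * ((S.mult⁻¹ : (AF F)ˣ) : AF F) - 1) by
        linear_combination a * S.mult.mul_inv]
    exact sub_mem h3 (mul_mem_lp_of_int (lunit_intAF S.mult_mem) h)

/-- `1 - θ` is onto on the layers of order prime to three. -/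
theorem layer_surj (hi : ¬ (3 : ℤ) ∣ i) (hx : x ∈ lp S.P i) :
    ∃ y ∈ lp S.P i, x - (y - S.θ y) ∈ lp S.P (i + 1) := by
  set u : AF F := ((S.mult ^ i : (AF F)ˣ) : AF F) with hu
  have hm := S.mult_zpow_sub_one_notMem hi
  have hl := (zpow_mem S.mult_mem i).1
  obtain ⟨X, hX⟩ := mem_intAF.mp (lp_le_intAF (Nat.cast_nonneg 0) hl)
  have hXn : X ∉ idealOH S.w := fun h => hm (mem_lp_one_iff.mpr
    ⟨lp_local hl, hX ▸ intHom_mem_idealAF_iff.mpr h⟩)
  obtain ⟨z, hz⟩ := exists_inv_of_not_mem S.hw S.hw0 hXn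
  have hz' : placeAF S.hw S.hw0 * ((u - 1) * intHom F z) = placeAF S.hw S.hw0 := by
    rw [← hX, placeAF, ← map_mul, ← map_mul, hz]
  refine ⟨-(intHom F z) * x, mul_mem_lp_of_int (neg_mem ⟨z, rfl⟩) hx, ?_⟩
  have h := S.sub_mult_mem (mul_mem_lp_of_int (neg_mem ⟨z, rfl⟩ : -(intHom F z) ∈ intAF F) hx)
  rw [← hu] at h
  convert h using 1
  linear_combination -(x * hz') + ((u - 1) * intHom F z - 1) * lp_local hx

omit [Fintype ι] [DecidableEq ι] in
theorem one_add_unit {r : ℕ} (hr : 0 < r) (hy : y ∈ lp S.P r) :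
    ∃ s ∈ lunit S.P r, (s : AF F) = 1 + y := by
  obtain ⟨Y, hY⟩ := mem_intAF.mp (add_mem (one_mem _) (lp_le_intAF (Nat.cast_nonneg r) hy) :
    1 + y ∈ intAF F)
  have hy1 : y ∈ idealAF F S.w :=
    (mem_lp_one_iff.mp (lp_anti (show (1 : ℤ) ≤ r by omega) hy)).2
  have hYn : Y ∉ idealOH S.w := fun h => placeIdem_not_mem S.hw S.hw0 (by
    rw [← intHom_mem_idealAF_iff] at h ⊢
    rw [hY] at h
    have h1 : (1 : AF F) ∈ idealAF F S.w := by simpa using sub_mem h hy1
    simpa [placeAF] using mul_mem_idealAF_left (placeAF_mem_intAF (hw := S.hw) (hw0 := S.hw0)) h1)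
  obtain ⟨U, hU⟩ := exists_unit_eq (hw := S.hw) (hw0 := S.hw0) hYn
  set s := localUnit S.hw S.hw0 (Units.map (intHom F).toRingHom.toMonoidHom U)
  have hs : (s : AF F) = 1 + y := by
    show placeAF S.hw S.hw0 * intHom F (U : OH F) + (1 - placeAF S.hw S.hw0) = 1 + y
    have h := congrArg (intHom F) hU
    rw [map_mul, map_mul, hY] at h
    change placeAF S.hw S.hw0 * (1 + y) = placeAF S.hw S.hw0 * intHom F (U : OH F) at h
    linear_combination -h + lp_local hy
  have hinv : ((s⁻¹ : (AF F)ˣ) : AF F) ∈ intAF F :=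
    add_mem (mul_mem placeAF_mem_intAF ⟨(↑U⁻¹ : OH F), rfl⟩)
      (sub_mem (one_mem _) placeAF_mem_intAF)
  refine ⟨s, ⟨by rw [hs, add_sub_cancel_left]; exact hy, ?_⟩, hs⟩
  rw [show ((s⁻¹ : (AF F)ˣ) : AF F) - 1 = -((s⁻¹ : (AF F)ˣ) : AF F) * y by
    linear_combination s.inv_mul - ((s⁻¹ : (AF F)ˣ) : AF F) * hs]
  exact mul_mem_lp_of_int (neg_mem hinv) hy

/-- The unit layers of order prime to three consist of commutators. -/
theorem unitLayer_surj {r : ℕ} (hr : 0 < r) (h3 : ¬ 3 ∣ r) {t : (AF F)ˣ} (ht : t ∈ lunit S.P r) :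
    ∃ s ∈ lunit S.P r, ∃ t' ∈ lunit S.P (r + 1), t = S.commHom s * t' := by
  obtain ⟨y, hy, he⟩ := S.layer_surj (i := (r : ℤ)) (by exact_mod_cast h3) ht.1
  obtain ⟨s, hs, hsv⟩ := S.one_add_unit hr hy
  set t' := (S.commHom s)⁻¹ * t with ht'
  have htm : t' ∈ lunit S.P r := mul_mem (inv_mem (mul_mem hs (inv_mem (S.map_mem_lunit hs)))) ht
  have hsi := lunit_intAF (inv_mem hs)
  have key : (t' : AF F) - 1 ∈ lp S.P ((r + 1 : ℕ) : ℤ) := by
    have h2 : ((t : AF F) - 1) * S.θ y ∈ lp S.P ((r + 1 : ℕ) : ℤ) :=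
      lp_anti (by push_cast; omega) (mul_mem_lp ht.1 (S.map_mem_lp hy))
    rw [show (t' : AF F) - 1 = ((s⁻¹ : (AF F)ˣ) : AF F) *
        ((((t : AF F) - 1) - (y - S.θ y)) + ((t : AF F) - 1) * S.θ y) by
      have e : (t' : AF F) = ((s⁻¹ : (AF F)ˣ) : AF F) * S.θ (s : AF F) * (t : AF F) := by
        rw [ht', commHom_apply, _root_.mul_inv_rev, inv_inv, Units.val_mul, Units.val_mul, θu_val]
        ring
      rw [e, hsv, map_add, map_one]
      linear_combination s.inv_mul - ((s⁻¹ : (AF F)ˣ) : AF F) * hsv]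
    refine mul_mem_lp_of_int hsi (add_mem ?_ h2)
    rw [Nat.cast_succ]
    exact he
  refine ⟨s, hs, t', ⟨key, ?_⟩, (mul_inv_cancel_left _ _).symm⟩
  rw [show ((t'⁻¹ : (AF F)ˣ) : AF F) - 1 = -((t'⁻¹ : (AF F)ˣ) : AF F) * ((t' : AF F) - 1) by
    linear_combination t'.inv_mul]
  exact mul_mem_lp_of_int (neg_mem (lunit_intAF (inv_mem htm))) key

/-- The norm of the uniformizer. -/
theorem exists_fixed_uniformizer :
    ∃ ϖ : (AF F)ˣ, S.θu ϖ = ϖ ∧ ∃ v ∈ lunit S.P 0, ϖ = S.P.π ^ 3 * v := by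
  have hc : S.θu (S.θu (S.θu S.P.π)) = S.P.π := Units.ext (S.θ_cube _)
  refine ⟨S.P.π * S.θu S.P.π * S.θu (S.θu S.P.π), ?_,
    S.mult * (S.θu S.mult * S.mult),
    mul_mem S.mult_mem (mul_mem (S.map_mem_lunit S.mult_mem) S.mult_mem), ?_⟩
  · rw [map_mul, map_mul, hc]
    refine Units.ext ?_
    simp only [Units.val_mul]
    ring
  · have h1 : S.θu S.P.π = S.P.π * S.mult := by
      rw [mult, mul_comm (S.θu S.P.π), mul_inv_cancel_left]
    rw [h1, map_mul, h1]
    refine Units.ext ?_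
    simp only [Units.val_mul, Units.val_pow_eq_pow_val]
    ring

/-- The order of the dual of the integers is fixed by the residual action. -/
theorem three_dvd_diff : (3 : ℤ) ∣ S.d + 1 := by
  by_contra h
  have hi : ¬ (3 : ℤ) ∣ -S.d - 1 := fun h' => h (by omega)
  have hone : ∀ x ∈ lp S.P (-S.d - 1), psi x = 1 := by
    intro x hx
    obtain ⟨y, -, he⟩ := S.layer_surj hi hx
    rw [sub_add_cancel] at he
    have h1 : psi (x - (y - S.θ y)) = 1 := by
      simpa using (S.hd _ (lp_local he)).mpr he 1 (one_mem _)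
    have h2 : psi (y - S.θ y) = 1 := by
      refine mul_right_cancel₀ (psi_ne_zero (S.θ y)) ?_
      rw [← psi_add, sub_add_cancel, one_mul]
      exact (psi_mapAF S.T y).symm
    rw [show x = (x - (y - S.θ y)) + (y - S.θ y) by ring, psi_add, h1, h2, one_mul]
  have h0 : placeAF S.hw S.hw0 * pz S.P (-S.d - 1) ∈ lp S.P (-S.d) :=
    (S.hd _ (by rw [← mul_assoc, placeAF_mul_self])).mp fun z hz =>
      hone _ (placeAF_mul_pz_mem hz _)
  have h1 := pz_mul_mem h0 (S.d + 1)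
  rw [mul_left_comm, ← pz_add, show S.d + 1 + (-S.d - 1) = 0 by ring, pz_zero, mul_one,
    show S.d + 1 + -S.d = 1 by ring] at h1
  exact placeAF_notMem_lp_one h1

end Setup

/-- The order of the level is divisible by three. -/
theorem Level.three_dvd_δ {S : Setup Φ} (L : Level S) : 3 ∣ L.δ := by
  by_contra h
  obtain ⟨v, hv⟩ := L.hexp
  set V := intHom F (v : OH F)
  have e1 : V * intHom F (↑v⁻¹ : OH F) = 1 := by rw [← map_mul, Units.mul_inv, map_one]
  have hθ := congrArg S.θ hv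
  rw [map_mul, map_mul, map_mul, S.θ_placeAF, map_natCast, ← pz_natCast (P := S.P), S.θ_pz]
    at hθ
  rw [← pz_natCast (P := S.P)] at hv
  set u : AF F := ((S.mult ^ (L.δ : ℤ) : (AF F)ˣ) : AF F) with hu
  have hm := S.mult_zpow_sub_one_notMem (i := (L.δ : ℤ)) (by exact_mod_cast h)
  apply hm
  have h2 : placeAF S.hw S.hw0 * (u * S.θ V - V) = 0 := by
    refine (S.P.π ^ (L.δ : ℤ)).isUnit.mul_left_cancel ?_
    show pz S.P (L.δ : ℤ) * _ = pz S.P (L.δ : ℤ) * 0
    linear_combination hv - hθ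
  have h3 : u * (placeAF S.hw S.hw0 * (S.θ V - V)) ∈ lp S.P 1 :=
    mul_mem_lp_of_int (S.mult_zpow_mem_int _) (S.sub_self_mem ⟨_, rfl⟩)
  have h4 := mul_mem_lp_of_int (⟨_, rfl⟩ : intHom F (↑v⁻¹ : OH F) ∈ intAF F) (neg_mem h3)
  convert h4 using 1
  linear_combination (-intHom F (↑v⁻¹ : OH F)) * (-h2) -
    (lp_local (zpow_mem S.mult_mem (L.δ : ℤ)).1) +
    (placeAF S.hw S.hw0 * (u - 1)) * (-e1)

omit [DecidableEq ι] in
/-- A diagonal element moves past a unipotent. -/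
theorem rho_diag_upper (t : (AF F)ˣ) (x : AF F) (v : Smooth Φ) :
    rho Φ (diagUnit t) (rho Φ (upperUnip x) v) =
      rho Φ (upperUnip ((t : AF F) * x)) (rho Φ (diagUnit t) v) := by
  rw [← rho_mul, diagUnit_mul_upperUnip, rho_mul]

end Tame

end FLTAgent.LanglandsTunnell.Isolation
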