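import Fermat.Agent.LanglandsTunnell.Isolation.Tame.Defs

/-!
# Traces of the twist: averaging and additivity

Averaging over elements which are twisted commutators does not change the trace.
-/

set_option autoImplicit false

noncomputable section

namespace FLTAgent.LanglandsTunnell.Isolation

open FLTAgent.LanglandsTunnell NumberField Matrix Function

namespace Tame

section Generic

open LinearMap

variable {V : Type*} [AddCommGroup V] [Module ℂ V] [FiniteDimensional ℂ V]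

/-- Averaging over elements that are twisted commutators keeps the trace. -/
theorem trace_restrict_fixed (Θ : Module.End ℂ V) {K : Type*} [Fintype K] [Nonempty K]
    (r : K → Module.End ℂ V) (Fx : Submodule ℂ V)
    (htw : ∀ k, ∃ g g' : Module.End ℂ V, g' * g = 1 ∧ r k * Θ = g * Θ * g')
    (himg : ∀ v, (Fintype.card K : ℂ)⁻¹ • ∑ k, r k v ∈ Fx)
    (hfix : ∀ v ∈ Fx, ∀ k, r k v = v) (hΘ : ∀ v ∈ Fx, Θ v ∈ Fx) :
    trace ℂ V Θ = trace ℂ Fx (Θ.restrict hΘ) := by
  classical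
  set E : Module.End ℂ V := (Fintype.card K : ℂ)⁻¹ • ∑ k, r k with hE
  have hcard : (Fintype.card K : ℂ) ≠ 0 := Nat.cast_ne_zero.mpr Fintype.card_ne_zero
  have h1 : trace ℂ V (E * Θ) = trace ℂ V Θ := by
    have hk : ∀ k, trace ℂ V (r k * Θ) = trace ℂ V Θ := fun k => by
      obtain ⟨g, g', hg, e⟩ := htw k
      rw [e, trace_mul_comm, ← mul_assoc, hg, one_mul]
    rw [hE, smul_mul_assoc, map_smul, Finset.sum_mul, map_sum, Finset.sum_congr rfl fun k _ => hk k,
      Finset.sum_const, Finset.card_univ, smul_eq_mul, nsmul_eq_mul, inv_mul_cancel_left₀ hcard]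
  let e : V →ₗ[ℂ] Fx := E.codRestrict Fx fun v => by simpa [hE] using himg v
  have h2 : E * Θ = Fx.subtype ∘ₗ (e ∘ₗ Θ) := rfl
  have h3 : (e ∘ₗ Θ) ∘ₗ Fx.subtype = Θ.restrict hΘ := by
    refine LinearMap.ext fun v => Subtype.ext ?_
    show E (Θ v) = Θ v
    rw [hE, LinearMap.smul_apply, LinearMap.sum_apply, Finset.sum_congr rfl fun k _ =>
        hfix _ (hΘ _ v.2) k,
      Finset.sum_const, Finset.card_univ, ← Nat.cast_smul_eq_nsmul ℂ, inv_smul_smul₀ hcard]
  rw [← h1, h2, trace_comp_comm', h3]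

omit [FiniteDimensional ℂ V] in
/-- The trace only depends on the operator up to isomorphism. -/
theorem trace_eq_of_equiv {W : Type*} [AddCommGroup W] [Module ℂ W] (e : V ≃ₗ[ℂ] W)
    (f : Module.End ℂ V) (g : Module.End ℂ W) (h : ∀ v, e (f v) = g (e v)) :
    trace ℂ V f = trace ℂ W g := by
  rw [← trace_conj' f e]
  refine congrArg _ (LinearMap.ext fun v => ?_)
  rw [LinearEquiv.conj_apply_apply, h, LinearEquiv.apply_symm_apply]

end Generic

variable {F : Type} [Field F] [NumberField F] {ι : Type} [Fintype ι] [DecidableEq ι]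
  {Φ : PlaceChoice F ι}

variable (Φ) in
/-- The vectors fixed by a subgroup. -/
def fixedSub (H : Subgroup (GL (Fin 2) (AF F))) : Submodule ℂ (Smooth Φ) where
  carrier := {u | ∀ k ∈ H, rho Φ k u = u}
  zero_mem' := fun _ _ => map_zero _
  add_mem' h h' k hk := by rw [map_add, h k hk, h' k hk]
  smul_mem' c _ h k hk := by rw [map_smul, h k hk]

/-- A compact group acts on a finite dimensional space through a finite set. -/
theorem finite_image_of_le_top (V : Submodule ℂ (Smooth Φ)) [FiniteDimensional ℂ V]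
    {H : Subgroup (GL (Fin 2) (AF F))} (hH : H ≤ principalSubgroup ⊤) :
    ((fun k (v : V) => rho Φ k v.1) '' (H : Set (GL (Fin 2) (AF F)))).Finite := by
  let b := Module.finBasis ℂ V
  have h1 : ((fun k i => rho Φ k (b i).1) '' (H : Set (GL (Fin 2) (AF F)))).Finite := by
    refine (Set.Finite.pi' fun i => finite_orbit hH (b i).1).subset ?_
    rintro _ ⟨k, hk, rfl⟩ i
    exact ⟨k, hk, rfl⟩
  refine Set.Finite.of_finite_image (f := fun g i => g (b i)) ?_ ?_
  · exact h1.subset (by rintro _ ⟨_, ⟨k, hk, rfl⟩, rfl⟩; exact ⟨k, hk, rfl⟩)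
  · rintro _ ⟨k, -, rfl⟩ _ ⟨k', -, rfl⟩ h
    have e : (rho Φ k).toLinearEquiv.toLinearMap.comp V.subtype =
        (rho Φ k').toLinearEquiv.toLinearMap.comp V.subtype := b.ext fun i => congrFun h i
    exact funext fun v => LinearMap.congr_fun e v

/-- The twist has the same trace on the vectors fixed by a group of twisted commutators. -/
theorem trace_twist_fixed (T : TwistData Φ) (V : Submodule ℂ (Smooth Φ)) [FiniteDimensional ℂ V]
    (hΘ : ∀ v ∈ V, T.twist v ∈ V) (H : Subgroup (GL (Fin 2) (AF F)))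
    (hV : ∀ k ∈ H, ∀ v ∈ V, rho Φ k v ∈ V)
    (hfin : ((fun k (v : V) => rho Φ k v.1) '' (H : Set (GL (Fin 2) (AF F)))).Finite)
    (htw : ∀ k ∈ H, ∃ g, (∀ v ∈ V, rho Φ g v ∈ V) ∧ (∀ v ∈ V, rho Φ g⁻¹ v ∈ V) ∧
      ∀ v ∈ V, rho Φ k (T.twist v) = rho Φ g (T.twist (rho Φ g⁻¹ v)))
    (hFx : ∀ v ∈ V ⊓ fixedSub Φ H, T.twist v ∈ V ⊓ fixedSub Φ H) :
    LinearMap.trace ℂ V (T.twist.restrict hΘ) =
      LinearMap.trace ℂ (V ⊓ fixedSub Φ H : Submodule ℂ (Smooth Φ)) (T.twist.restrict hFx) := by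
  classical
  have hch : ∀ x : hfin.toFinset, ∃ k ∈ H, (fun v : V => rho Φ k v.1) = x.1 := fun x =>
    hfin.mem_toFinset.mp x.2
  choose k hk hkx using hch
  have : Nonempty hfin.toFinset := ⟨⟨_, hfin.mem_toFinset.mpr ⟨1, one_mem H, rfl⟩⟩⟩
  let res : ∀ g : GL (Fin 2) (AF F), (∀ v ∈ V, rho Φ g v ∈ V) → Module.End ℂ V := fun g hg =>
    (rho Φ g).toLinearEquiv.toLinearMap.restrict hg
  let r : hfin.toFinset → Module.End ℂ V := fun x => res (k x) (hV _ (hk x))
  set Fx : Submodule ℂ V := (V ⊓ fixedSub Φ H).comap V.subtype with hFxdef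
  have hΘ' : ∀ v ∈ Fx, T.twist.restrict hΘ v ∈ Fx := fun v hv => hFx v.1 hv
  rw [trace_restrict_fixed (T.twist.restrict hΘ) r Fx ?_ ?_ ?_ hΘ']
  · let e : Fx ≃ₗ[ℂ] (V ⊓ fixedSub Φ H : Submodule ℂ (Smooth Φ)) :=
      Submodule.comapSubtypeEquivOfLe inf_le_left
    refine trace_eq_of_equiv (V := Fx) (W := (V ⊓ fixedSub Φ H : Submodule ℂ (Smooth Φ))) e _ _
      fun v => ?_
    rfl
  · intro x
    obtain ⟨g, hg, hg', h⟩ := htw (k x) (hk x)
    refine ⟨res g hg, res g⁻¹ hg', ?_, LinearMap.ext fun v => Subtype.ext (h v.1 v.2)⟩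
    refine LinearMap.ext fun v => Subtype.ext ?_
    show rho Φ g⁻¹ (rho Φ g v.1) = v.1
    rw [← rho_mul, inv_mul_cancel, map_one]
    rfl
  · intro v
    refine Submodule.mem_comap.mpr
      ⟨(((Fintype.card hfin.toFinset : ℂ))⁻¹ • ∑ k, r k v).2, fun j hj => ?_⟩
    simp only [Submodule.coe_subtype, map_smul, map_sum]
    congr 1
    refine Finset.sum_bij (fun x _ => (⟨fun u => rho Φ (j * k x) u.1,
      hfin.mem_toFinset.mpr ⟨j * k x, mul_mem hj (hk x), rfl⟩⟩ : hfin.toFinset))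
      (fun x _ => Finset.mem_univ _) (fun x _ y _ h => Subtype.ext ?_) (fun y _ => ?_)
      (fun x _ => ?_)
    · rw [← hkx x, ← hkx y]
      refine funext fun u => (rho Φ j).injective ?_
      rw [← rho_mul, ← rho_mul]
      exact congrFun (congrArg Subtype.val h) u
    · refine ⟨⟨fun u => rho Φ (j⁻¹ * k y) u.1, hfin.mem_toFinset.mpr
        ⟨_, mul_mem (inv_mem hj) (hk y), rfl⟩⟩, Finset.mem_univ _, Subtype.ext ?_⟩
      rw [← hkx y]
      funext u
      have h := congrFun (hkx ⟨fun u => rho Φ (j⁻¹ * k y) u.1, hfin.mem_toFinset.mpr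
        ⟨_, mul_mem (inv_mem hj) (hk y), rfl⟩⟩) u
      show rho Φ (j * k _) u.1 = rho Φ (k y) u.1
      rw [rho_mul, h, ← rho_mul, mul_inv_cancel_left]
    · refine (rho_mul j (k x) v.1).symm.trans ?_
      exact (congrFun (hkx ⟨fun u => rho Φ (j * k x) u.1,
        hfin.mem_toFinset.mpr ⟨j * k x, mul_mem hj (hk x), rfl⟩⟩) v).symm
  · intro v hv x
    exact Subtype.ext (hv.2 _ (hk x))

end Tame

end FLTAgent.LanglandsTunnell.Isolation
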