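import Fermat.Agent.LanglandsTunnell.Isolation.Tame.Local
import Fermat.Agent.LanglandsTunnell.Isolation.Tame.TraceAlg
import Fermat.Agent.LanglandsTunnell.Isolation.Tame.Layer
import Fermat.Agent.LanglandsTunnell.Expansion.CommonTranslate

/-!
# The filtration of one level and system by upper unipotents

It is stable under the twist and the diagonal units, exhausts the system and ends at zero.
-/

set_option autoImplicit false

noncomputable section

namespace FLTAgent.LanglandsTunnell.Isolation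

open FLTAgent.LanglandsTunnell NumberField Matrix Function
open FLTAgent.LanglandsTunnell.Expansion

namespace Tame

variable {F : Type} [Field F] [NumberField F] {ι : Type} [Fintype ι] [DecidableEq ι]
  {Φ : PlaceChoice F ι} {S : Setup Φ}

namespace Setup

omit [Fintype ι] [DecidableEq ι] in
theorem gl_upper (x : AF F) : S.T.gl (upperUnip x) = upperUnip (S.θ x) :=
  Units.ext (by
    ext i j
    show S.θ ((upperUnip x).1 i j) = _
    fin_cases i <;> fin_cases j <;> simp [upperUnip])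

omit [Fintype ι] [DecidableEq ι] in
theorem gl_diag (t : (AF F)ˣ) : S.T.gl (diagUnit t) = diagUnit (S.θu t) :=
  Units.ext (by
    ext i j
    show S.θ ((diagUnit t).1 i j) = _
    fin_cases i <;> fin_cases j <;> simp [diagUnit])

theorem rho_upper_twist (x : AF F) (u : Smooth Φ) :
    rho Φ (upperUnip x) (S.T.twist u) = S.T.twist (rho Φ (upperUnip (S.θ x)) u) := by
  rw [S.T.rho_twist, gl_upper]

theorem rho_diag_twist (t : (AF F)ˣ) (u : Smooth Φ) :
    rho Φ (diagUnit t) (S.T.twist u) = S.T.twist (rho Φ (diagUnit (S.θu t)) u) := by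
  rw [S.T.rho_twist, gl_diag]

end Setup

namespace Level

variable (L : Level S)

theorem twist_mem_sys {u : Smooth Φ} (hu : InSys Φ L.N L.a u) :
    InSys Φ L.N L.a (S.T.twist u) := by
  refine ⟨S.T.isLevel_twist hu.level, S.T.spherical_twist hu.spherical, fun v hv hv0 hvN => ?_⟩
  have h := S.T.sysOff_twist hu.sys v hv hv0 hvN
  simp only [L.a_twist v hv hv0 hvN] at h
  exact h

theorem fil_twist (α : ℤ) : ∀ u ∈ L.fil α, S.T.twist u ∈ L.fil α := fun u hu =>
  ⟨L.twist_mem_sys hu.1, fun x hx => by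
    rw [S.rho_upper_twist, hu.2 _ (S.map_mem_lp hx)]⟩

theorem fil_mono {α β : ℤ} (h : α ≤ β) : L.fil α ≤ L.fil β := fun _u hu =>
  ⟨hu.1, fun _x hx => hu.2 _ (lp_anti h hx)⟩

theorem fil_top {α : ℤ} (h : (L.δ : ℤ) ≤ α) : L.fil α = sysSub Φ L.hN L.a :=
  le_antisymm (L.fil_le α) fun _ hu => ⟨hu, fun _ hx => fixed_upper hu (lp_anti h hx)⟩

/-- Diagonal units preserve the filtration. -/
theorem fil_diag {α : ℤ} {t : (AF F)ˣ} (ht : t ∈ lunit S.P 0) {u : Smooth Φ}
    (hu : u ∈ L.fil α) : rho Φ (diagUnit t) u ∈ L.fil α := by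
  refine ⟨hu.1.rho_top (diagUnit_localK ht).2, fun x hx => ?_⟩
  have e : upperUnip x * diagUnit t =
      diagUnit t * upperUnip (((t⁻¹ : (AF F)ˣ) : AF F) * x) := by
    rw [diagUnit_mul_upperUnip, ← mul_assoc, Units.mul_inv, one_mul]
  rw [← rho_mul, e, rho_mul, hu.2 _ (mul_lunit_mem (inv_mem ht) hx)]

variable [FiniteDimensional ℂ (sysSub Φ L.hN L.a)]

instance finite_fil (α : ℤ) : FiniteDimensional ℂ (L.fil α) :=
  Submodule.finiteDimensional_of_le (L.fil_le α)

/-- The trace of the twist on the filtration. -/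
def filTr (α : ℤ) : ℂ := LinearMap.trace ℂ (L.fil α) (S.T.twist.restrict (L.fil_twist α))

variable {L}

omit [FiniteDimensional ℂ (sysSub Φ L.hN L.a)] in
/-- Only zero is fixed by all local upper unipotents. -/
theorem eq_zero_of_unipFixed {u : Smooth Φ} (hs : Spherical u) (hc : CuspVec u)
    (h : ∀ α, UnipFixed S.P α u) : u = 0 := by
  obtain ⟨M, hM, hcM⟩ := hc
  have hn := lv_ne_bot (F := F) hM.ne_zero
  set f := restrictLevel M u.1
  have hA := hM.automorphic
  have hS : SphericalZero f := fun i k hk hks v Q => hs i k hk hks v.out Q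
  have hval : ∀ g P, f ((g : GL (Fin 2) (AF F)) , P) = u.1 g P := fun g P =>
    congrFun (congrFun hM.liftForm_restrict g) P
  obtain ⟨x₀, hx₀, hne⟩ : ∃ x ∈ lp S.P (-S.d - 1), psi x ≠ 1 := by
    by_contra! hcon
    have h1 : placeAF S.hw S.hw0 * pz S.P (-S.d - 1) ∈ lp S.P (-S.d) := by
      refine (S.hd _ (lp_local (placeAF_pz_mem _))).mp fun z hz => hcon _ ?_
      rw [mul_comm]
      exact mul_mem_lp_of_int hz (placeAF_pz_mem _)
    refine placeAF_notMem_lp_one (P := S.P) ?_
    have h2 := mul_mem_lp (placeAF_pz_mem (P := S.P) (S.d + 1)) h1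
    rw [show placeAF S.hw S.hw0 * pz S.P (S.d + 1) * (placeAF S.hw S.hw0 * pz S.P (-S.d - 1)) =
      (placeAF S.hw S.hw0 * placeAF S.hw S.hw0) * (pz S.P (S.d + 1) * pz S.P (-S.d - 1)) by ring,
      placeAF_mul_self, ← pz_add, show S.d + 1 + (-S.d - 1) = (0 : ℤ) by ring, pz_zero,
      mul_one, show S.d + 1 + -S.d = (1 : ℤ) by ring] at h2
    exact h2
  have hwhit : ∀ y : (AF F)ˣ, whit Φ f ((diagUnit y * 1 : GL (Fin 2) (AF F)) : FinPt F _) = 0 := by
    intro y
    set g : GL (Fin 2) (AF F) := diagUnit y * 1 with hg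
    set z : AF F := ((y⁻¹ : (AF F)ˣ) : AF F) * x₀
    obtain ⟨α, hα⟩ := exists_mem_lp (P := S.P) (x := z) (by
      show _ * (_ * _) = _
      rw [mul_left_comm, lp_local hx₀])
    have he : upperUnip x₀ * g = g * upperUnip z := by
      rw [hg, mul_one, diagUnit_mul_upperUnip, ← mul_assoc, Units.mul_inv, one_mul]
    have hfe : ∀ P, f ((upperUnip x₀ * g : GL (Fin 2) (AF F)), P) = f (g, P) := fun P => by
      rw [hval, hval, he]
      exact congrFun (congrFun (congrArg Subtype.val (h α z hα)) g) P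
    obtain ⟨m₁, hm₁⟩ := exists_admissible hn (g : FinPt F (lv F M))
    obtain ⟨m₂, hm₂⟩ :=
        exists_admissible hn ((upperUnip x₀ * g : GL (Fin 2) (AF F)) : FinPt F (lv F M))
    have hd : DualOK (m₁ * m₂) (1 : F) := fun b => by
      rw [one_mul, ← map_natCast (algebraMap (𝓞 F) F), ← map_mul]
      exact trExp_coe _
    have hcoef : whit Φ f ((upperUnip x₀ * g : GL (Fin 2) (AF F)) : FinPt F (lv F M)) =
        whit Φ f (g : FinPt F (lv F M)) := by
      rw [whit, whit, coef_eq hA (hm₂.mul_left hm₁.1) hd,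
        coef_eq hA (by rw [mul_comm]; exact hm₁.mul_left hm₂.1) hd]
      refine congrArg (fun G => cubeMean G / _) (funext fun s => ?_)
      exact congrArg (· * _) (hfe _)
    have h1 := whit_upperUnip hA hS hn x₀ (g : FinPt F (lv F M))
    rw [MulAction.Quotient.smul_coe, smul_eq_mul, hcoef] at h1
    by_contra hz
    exact hne (mul_right_cancel₀ hz (h1.symm.trans (one_mul _).symm))
  refine Subtype.ext (funext fun g => funext fun P => ?_)
  have h1 := sum_translates_eq_zero hn ({()} : Finset Unit) (fun _ => 1) (fun _ => 1) (fun _ => f)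
    (fun _ _ => hA) (fun _ _ => hcM) (fun _ _ => hS)
    (fun y => by rw [Finset.sum_singleton, one_mul, hwhit]) g P
  rw [Finset.sum_singleton, one_mul, mul_one, hval] at h1
  exact h1

/-- The filtration ends at zero. -/
theorem exists_fil_eq_bot (hcusp : ∀ u, InSys Φ L.N L.a u → CuspVec u) :
    ∃ α : ℤ, α ≤ L.δ ∧ L.fil α = ⊥ := by
  classical
  obtain ⟨α₀, hα₀⟩ : ∃ α : ℤ, ∀ β, β ≤ α → L.fil β = L.fil α := by
    obtain ⟨n, hn⟩ := Nat.find_spec (p := fun n => ∃ α : ℤ, Module.finrank ℂ (L.fil α) = n)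
      ⟨_, 0, rfl⟩
    refine ⟨n, fun β hβ => Submodule.eq_of_le_of_finrank_le (L.fil_mono hβ) ?_⟩
    rw [hn]
    exact Nat.find_le ⟨β, rfl⟩
  refine ⟨min α₀ L.δ, min_le_right _ _, (Submodule.eq_bot_iff _).mpr fun u hu => ?_⟩
  refine eq_zero_of_unipFixed (S := S) hu.1.spherical (hcusp u hu.1) fun α => ?_
  have h1 : u ∈ L.fil α₀ := L.fil_mono (min_le_left _ _) hu
  rcases le_total α α₀ with hle | hle
  · exact (hα₀ α hle ▸ h1 : u ∈ L.fil α).2
  · exact (L.fil_mono hle h1).2

end Level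

end Tame

end FLTAgent.LanglandsTunnell.Isolation
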